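import Fermat.Agent.Corollaries.Katz.Dich
import Fermat.Agent.Corollaries.K1.Glue
import Fermat.Agent.Corollaries.Mazur.Main

/-!
# Katz's theorem for primes, over `ℚ`

`W` is any elliptic curve over `ℚ` and `p` any prime number.

* `katz` : if `p ∣ #W(𝔽_ℓ)` for all but finitely many primes `ℓ` (or only for a set of primes of
  density one), then `W` is isogenous over `ℚ` to an elliptic curve with a rational point of order
  `p`;
* `exists_dens_not_dvd_card` : for `p = 11` and for the primes `p ≥ 17`, the primes `ℓ` for which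
  `#W(𝔽_ℓ)` is prime to `p` have a positive density.
-/

set_option autoImplicit false

noncomputable section

open WeierstrassCurve WeierstrassCurve.Affine

namespace Fermat.Agent.Cor.Katz

open Fermat.Agent.Classic
open Fermat.Agent.Cor.K1 (Gam Pts)
open Fermat.Agent.Cor.Mazur (Pt)

/-! ### Points fixed by Galois are rational -/

/-- An element of `ℚ̄` fixed by Galois is rational. -/
lemma exists_rat {x : AlgebraicClosure ℚ} (h : ∀ σ : Gam, σ x = x) :
    ∃ a : ℚ, algebraMap ℚ (AlgebraicClosure ℚ) a = x :=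
  (InfiniteGalois.mem_range_algebraMap_iff_fixed x).mpr h

/-- **Points fixed by Galois are rational.** -/
theorem exists_baseChange_eq (E : WeierstrassCurve ℚ) (P : Pts E) (h : ∀ σ : Gam, σ • P = P) :
    ∃ Q : (E⁄ℚ).Point, Point.baseChange ℚ (AlgebraicClosure ℚ) Q = P := by
  match P, h with
  | .zero, _ => exact ⟨0, map_zero _⟩
  | .some x y hxy, h =>
    have h1 : ∀ σ : Gam, σ x = x ∧ σ y = y := by
      intro σ
      have h2 := h σ
      exact Point.some.inj h2
    obtain ⟨a, rfl⟩ := exists_rat fun σ => (h1 σ).1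
    obtain ⟨b, rfl⟩ := exists_rat fun σ => (h1 σ).2
    have hab : (E⁄ℚ).Nonsingular a b :=
      (baseChange_nonsingular (W := E) (f := Algebra.ofId ℚ (AlgebraicClosure ℚ))
        (algebraMap ℚ (AlgebraicClosure ℚ)).injective a b).mp hxy
    exact ⟨.some a b hab, rfl⟩

/-- The same for the points of `E` itself. -/
theorem exists_point (E : WeierstrassCurve ℚ) (P : Pts E) (h : ∀ σ : Gam, σ • P = P) :
    ∃ Q : E.toAffine.Point, addOrderOf Q = addOrderOf P := by
  obtain ⟨Q, rfl⟩ := exists_baseChange_eq E P h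
  rw [K1.addOrderOf_baseChange]
  have h1 : ∀ (C : WeierstrassCurve ℚ), C = (E⁄ℚ) → ∃ R : C.toAffine.Point,
      addOrderOf R = addOrderOf Q := by
    rintro C rfl
    exact ⟨Q, rfl⟩
  exact h1 E E.map_id.symm

/-! ### Isogenies over `ℚ` (surjective equivariant homomorphisms with finite kernel) -/

/-- A surjective Galois equivariant homomorphism with finite kernel between the groups of points
over `ℚ̄`. -/
def IsIsogenous (E E' : WeierstrassCurve ℚ) : Prop :=
  ∃ φ : Pts E →+ Pts E', Function.Surjective φ ∧ (∀ (σ : Gam) (x : Pts E), φ (σ • x) = σ • φ x) ∧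
    Finite φ.ker

variable {W : WeierstrassCurve ℤ} (hΔ : W.Δ ≠ 0) {p : ℕ} [hp : Fact p.Prime]

include hΔ in
lemma map_Δ_ne : (W.map (Int.castRingHom ℚ)).Δ ≠ 0 := by
  rw [WeierstrassCurve.map_Δ]
  simpa using hΔ

include hΔ in
/-- The number of points of order dividing `p`. -/
lemma card_torsion : Nat.card {P : Pt W // p • P = 0} = p ^ 2 := by
  have hΔ' : ((W.map (Int.castRingHom ℚ))⁄(AlgebraicClosure ℚ) :
      WeierstrassCurve (AlgebraicClosure ℚ)).Δ ≠ 0 := by
    rw [show ((W.map (Int.castRingHom ℚ))⁄(AlgebraicClosure ℚ) :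
      WeierstrassCurve (AlgebraicClosure ℚ)) =
      (W.map (Int.castRingHom ℚ)).map (algebraMap ℚ (AlgebraicClosure ℚ)) from rfl,
      WeierstrassCurve.map_Δ, WeierstrassCurve.map_Δ]
    simpa using hΔ
  exact Torsion.card_torsion hΔ' (by exact_mod_cast hp.out.ne_zero)

/-- A stable subgroup with two elements consists of rational points. -/
lemma exists_point_of_card_two {E : WeierstrassCurve ℚ} (L : AddSubgroup (Pts E))
    (hL : Nat.card L = 2) (hst : ∀ σ : Gam, ∀ x ∈ L, σ • x ∈ L) :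
    ∃ P : Pts E, addOrderOf P = 2 ∧ ∀ σ : Gam, σ • P = P := by
  obtain ⟨a, b, hab, huniv⟩ := Nat.card_eq_two_iff.mp hL
  have hmem : ∀ x : L, x = a ∨ x = b := fun x => by
    have h : x ∈ ({a, b} : Set L) := by
      rw [huniv]
      exact Set.mem_univ _
    simpa using h
  obtain ⟨P, hP0, hP⟩ : ∃ P : L, P ≠ 0 ∧ ∀ x : L, x ≠ 0 → x = P := by
    rcases hmem 0 with h0 | h0
    · refine ⟨b, fun h1 => hab (by rw [← h0, ← h1]), fun x hx => (hmem x).resolve_left ?_⟩
      rwa [← h0]
    · refine ⟨a, fun h1 => hab (by rw [← h0, ← h1]), fun x hx => (hmem x).resolve_right ?_⟩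
      rwa [← h0]
  have hP0' : (P : Pts E) ≠ 0 := fun h => hP0 (Subtype.ext h)
  refine ⟨P, ?_, fun σ => ?_⟩
  · have : Fact (Nat.Prime 2) := ⟨Nat.prime_two⟩
    refine addOrderOf_eq_prime ?_ hP0'
    have h1 : 2 • P = 0 := by
      rw [← hL]
      exact card_nsmul_eq_zero'
    exact congrArg (fun z : L => (z : Pts E)) h1
  · have h1 : (⟨σ • (P : Pts E), hst σ _ P.2⟩ : L) ≠ 0 := by
      intro h
      apply hP0'
      have h2 : σ • (P : Pts E) = 0 := congrArg (fun z : L => (z : Pts E)) h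
      rw [← smul_zero σ] at h2
      exact MulAction.injective σ h2
    exact congrArg (fun z : L => (z : Pts E)) (hP _ h1)

include hΔ in
/-- **Katz's theorem** for primes, over `ℚ`: if the number of points of `W` modulo `ℓ` is divisible
by `p` for a set of primes `ℓ` of density one, then `W` is isogenous over `ℚ` to an elliptic curve
with a rational point of order `p`. -/
theorem katz (h : HasDirichletDensity {ℓ | p ∣ (W.reductionMod ℓ).card} 1) :
    ∃ (E' : WeierstrassCurve ℚ) (_ : E'.IsElliptic),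
      IsIsogenous (W.map (Int.castRingHom ℚ)) E' ∧ ∃ P : E'.toAffine.Point, addOrderOf P = p := by
  have hEll : (W.map (Int.castRingHom ℚ)).IsElliptic := ⟨isUnit_iff_ne_zero.mpr (map_Δ_ne hΔ)⟩
  have case1 : (∃ P : Pt W, addOrderOf P = p ∧ ∀ σ : Gam, σ • P = P) →
      ∃ (E' : WeierstrassCurve ℚ) (_ : E'.IsElliptic),
      IsIsogenous (W.map (Int.castRingHom ℚ)) E' ∧ ∃ P : E'.toAffine.Point, addOrderOf P = p := by
    rintro ⟨P, hP, hfix⟩
    obtain ⟨Q, hQ⟩ := exists_point _ P hfix
    refine ⟨W.map (Int.castRingHom ℚ), hEll, ⟨AddMonoidHom.id _, Function.surjective_id,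
      fun _ _ => rfl, ?_⟩, Q, hQ.trans hP⟩
    refine Finite.of_injective (fun _ => ()) fun a b _ => Subtype.ext ?_
    have ha : (a : Pt W) = 0 := AddMonoidHom.mem_ker.mp a.2
    have hb : (b : Pt W) = 0 := AddMonoidHom.mem_ker.mp b.2
    rw [ha, hb]
  rcases exists_point_or_line hΔ h with h1 | ⟨L, hL, hst, hquot⟩
  · exact case1 h1
  · by_cases hp2 : p = 2
    · subst hp2
      exact case1 (exists_point_of_card_two L hL hst)
    obtain ⟨E', hE', φ, hsurj, hφ, hker⟩ :=
      exists_quotient_of_card hp.out hp2 (W.map (Int.castRingHom ℚ)) L hL hst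
    have hfinL : Finite L := Nat.finite_of_card_ne_zero (by rw [hL]; exact hp.out.ne_zero)
    have hex : ∃ S : Pt W, p • S = 0 ∧ S ∉ L := by
      by_contra hcon
      push Not at hcon
      have h1 : Nat.card {P : Pt W // p • P = 0} ≤ Nat.card L :=
        Nat.card_le_card_of_injective
          (fun x : {P : Pt W // p • P = 0} => (⟨x.1, hcon x.1 x.2⟩ : L))
          fun a b hab => Subtype.ext (congrArg (fun z : L => (z : Pt W)) hab)
      rw [card_torsion hΔ, hL] at h1
      nlinarith [hp.out.two_le]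
    obtain ⟨S, hS, hSL⟩ := hex
    have hfix : ∀ σ : Gam, σ • φ S = φ S := by
      intro σ
      rw [← hφ, ← sub_eq_zero, ← map_sub, ← AddMonoidHom.mem_ker, hker]
      exact hquot S hS σ
    have hord : addOrderOf (φ S) = p := by
      refine addOrderOf_eq_prime (by rw [← map_nsmul, hS, map_zero]) fun h0 => hSL ?_
      rw [← hker]
      exact AddMonoidHom.mem_ker.mpr h0
    obtain ⟨Q, hQ⟩ := exists_point E' (φ S) hfix
    exact ⟨E', hE', ⟨φ, hsurj, hφ, by rw [hker]; exact hfinL⟩, Q, hQ.trans hord⟩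

include hΔ in
/-- **Katz's theorem**, for all but finitely many primes `ℓ`. -/
theorem katz_of_finite (h : {ℓ : ℕ | ℓ.Prime ∧ ¬ p ∣ (W.reductionMod ℓ).card}.Finite) :
    ∃ (E' : WeierstrassCurve ℚ) (_ : E'.IsElliptic),
      IsIsogenous (W.map (Int.castRingHom ℚ)) E' ∧ ∃ P : E'.toAffine.Point, addOrderOf P = p := by
  refine katz hΔ (HasDirichletDensity.univ.congr_of_finset h.toFinset fun ℓ hℓ hℓT => ?_)
  have h1 : ¬ (ℓ.Prime ∧ ¬ p ∣ (W.reductionMod ℓ).card) := fun h' => hℓT (h.mem_toFinset.mpr h')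
  simp only [Set.mem_univ, true_iff]
  by_contra h2
  exact h1 ⟨hℓ, h2⟩

/-! ### With Mazur's theorem -/

include hΔ in
/-- **For `p = 11` and for every prime `p ≥ 17`, and every elliptic curve over `ℚ`, the primes `ℓ`
for which the number of points modulo `ℓ` is prime to `p` have a positive density.** -/
theorem exists_dens_not_dvd_card (h : p = 11 ∨ 17 ≤ p) : ∃ δ : ℝ, 0 < δ ∧
    HasDirichletDensity {ℓ | W.IsGoodPrimeFor ℓ ∧ ¬ p ∣ (W.reductionMod ℓ).card} δ := by
  have h1 := dens_dvd_card_range (p := p) hΔ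
  set δ₀ : ℝ := (Nat.card (imgSet hΔ fun x y : ZMod p => x = 1 + y) : ℝ) /
        Nat.card (repP p hΔ).range with hδ₀
  have h2 : HasDirichletDensity {ℓ | W.IsGoodPrimeFor ℓ ∧ ¬ p ∣ (W.reductionMod ℓ).card}
      (1 - δ₀) := by
    refine h1.compl.congr_of_finset W.Δ.natAbs.primeFactors fun ℓ hℓ hℓΔ => ?_
    have hgood := good_of_notMem hΔ hℓ hℓΔ
    simp only [Set.mem_compl_iff, Set.mem_ofPred_eq, hgood, true_and]
  have h3 : δ₀ ≤ 1 := h1.mono HasDirichletDensity.univ (Set.subset_univ _)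
  have h4 : δ₀ ≠ 1 := by
    intro h5
    rw [h5] at h1
    have h6 : HasDirichletDensity {ℓ | p ∣ (W.reductionMod ℓ).card} 1 := by
      refine h1.congr_of_finset W.Δ.natAbs.primeFactors fun ℓ hℓ hℓΔ => ?_
      exact and_iff_right (good_of_notMem hΔ hℓ hℓΔ)
    obtain ⟨E', hE', -, P, hP⟩ := katz hΔ h6
    exact mazur E' hp.out h P hP
  exact ⟨1 - δ₀, sub_pos.mpr (lt_of_le_of_ne h3 h4), h2⟩

include hΔ in
/-- For `p = 11` and for every prime `p ≥ 17`, and every elliptic curve over `ℚ`, there are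
infinitely many primes `ℓ` for which the number of points modulo `ℓ` is prime to `p`. -/
theorem infinite_not_dvd_card (h : p = 11 ∨ 17 ≤ p) :
    {ℓ : ℕ | ℓ.Prime ∧ W.IsGoodPrimeFor ℓ ∧ ¬ p ∣ (W.reductionMod ℓ).card}.Infinite := by
  obtain ⟨δ, hδ, h1⟩ := exists_dens_not_dvd_card hΔ h
  exact h1.infinite hδ.ne'

end Fermat.Agent.Cor.Katz
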