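import Fermat.Agent.Corollaries.Surj.Count

/-!
# Counting matrices by the quadratic character of the discriminant

Let `F` be a finite field with `q` elements, `q` odd, `χ` its quadratic character. The number of
`g ∈ GL₂(F)` with `χ ((tr g)² - 4 det g) = ε` is

* `q² (q - 1)² / 2` for `ε = -1` (no eigenvalue in `F`);
* `q (q + 1) (q - 1) (q - 2) / 2` for `ε = 1` (two different eigenvalues);
* `q² (q - 1)` for `ε = 0` (a double eigenvalue).
-/

set_option autoImplicit false

noncomputable section

open Matrix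

namespace Fermat.Agent.Cor.Count

variable {F : Type*} [Field F] [Fintype F] [DecidableEq F]

local notation "q" => (Fintype.card F : ℤ)
local notation "M2" => Matrix (Fin 2) (Fin 2) F
local notation "GL2" => GL (Fin 2) F

/-- The elements of `GL₂(F)` with a condition on the trace and the determinant. -/
theorem card_GL_sum (hF : ringChar F ≠ 2) (P : F → F → Prop) [∀ a d, Decidable (P a d)] :
    (Nat.card {g : GL2 | P (g : M2).trace (g : M2).det} : ℤ) =
      ∑ a : F, ∑ d : Fˣ, if P a d then q ^ 2 + q * quadraticChar F (a ^ 2 - 4 * d) else 0 := by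
  have e : {g : GL2 | P (g : M2).trace (g : M2).det} ≃
      Σ x : F × Fˣ, {g : GL2 // P x.1 x.2 ∧ (g : M2).trace = x.1 ∧ (g : M2).det = x.2} :=
    { toFun := fun g => ⟨((g.1 : M2).trace, Matrix.GeneralLinearGroup.det g.1), g.1,
        g.2, rfl, rfl⟩
      invFun := fun s => ⟨s.2.1, by
        change P (s.2.1 : M2).trace (s.2.1 : M2).det
        rw [s.2.2.2.1, s.2.2.2.2]
        exact s.2.2.1⟩
      left_inv := fun g => rfl
      right_inv := fun s => by
        obtain ⟨⟨a, d⟩, g, h0, h1, h2⟩ := s
        obtain rfl : (g : M2).trace = a := h1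
        obtain rfl : Matrix.GeneralLinearGroup.det g = d := Units.ext h2
        rfl }
  rw [Nat.card_congr e, Nat.card_sigma, Fintype.sum_prod_type]
  push_cast
  refine Finset.sum_congr rfl fun a _ => Finset.sum_congr rfl fun d _ => ?_
  split_ifs with h
  · rw [← card_GL_trace_det hF a d.ne_zero]
    refine congrArg Nat.cast (Nat.card_congr (Equiv.subtypeEquivRight fun g => ?_))
    exact and_iff_right h
  · rw [Nat.cast_eq_zero, Nat.card_eq_zero]
    exact Or.inl ⟨fun g => h g.2.1⟩

/-- The number of elements with a given quadratic character. -/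
def nχ (ε : ℤ) : ℤ := ∑ x : F, if quadraticChar F x = ε then 1 else 0

variable (F) in
/-- notation: the number of pairs `(a, d)`, `d ≠ 0`, with `χ (a² - 4 d) = ε` -/
lemma sum_pairs (hF : ringChar F ≠ 2) (ε : ℤ) :
    ∑ a : F, ∑ d : Fˣ, (if quadraticChar F (a ^ 2 - 4 * d) = ε then (1 : ℤ) else 0) =
      q * nχ (F := F) ε - ∑ a : F, if quadraticChar F (a ^ 2) = ε then 1 else 0 := by
  have h2 : (2 : F) ≠ 0 := Ring.two_ne_zero hF
  have h4 : (4 : F) ≠ 0 := by
    rw [show (4 : F) = 2 * 2 by norm_num]
    exact mul_ne_zero h2 h2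
  have h1 : ∀ a : F, ∑ d : Fˣ, (if quadraticChar F (a ^ 2 - 4 * d) = ε then (1 : ℤ) else 0) =
      nχ (F := F) ε - if quadraticChar F (a ^ 2) = ε then 1 else 0 := by
    intro a
    rw [sum_units (fun x : F => if quadraticChar F (a ^ 2 - 4 * x) = ε then (1 : ℤ) else 0)]
    congr 1
    · unfold nχ
      exact Fintype.sum_equiv ((Equiv.mulLeft₀ 4 h4).trans (Equiv.subLeft (a ^ 2))) _ _
        fun x => rfl
    · rw [mul_zero, sub_zero]
  simp only [h1]
  rw [Finset.sum_sub_distrib, Finset.sum_const, Finset.card_univ, nsmul_eq_mul]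

/-- The number of squares and of non-squares. -/
lemma nχ_values (hF : ringChar F ≠ 2) : nχ (F := F) 0 = 1 ∧ 2 * nχ (F := F) 1 = q - 1 ∧
    2 * nχ (F := F) (-1) = q - 1 := by
  have h0 : nχ (F := F) 0 = 1 := by
    unfold nχ
    rw [Finset.sum_eq_single (0 : F)]
    · simp
    · intro b _ hb
      rw [if_neg]
      intro h
      exact hb ((quadraticChar_eq_zero_iff).mp h)
    · intro h
      exact absurd (Finset.mem_univ _) h
  have hs : ∑ x : F, quadraticChar F x = nχ (F := F) 1 - nχ (F := F) (-1) := by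
    unfold nχ
    rw [← Finset.sum_sub_distrib]
    refine Finset.sum_congr rfl fun x _ => ?_
    by_cases hx : x = 0
    · subst hx
      simp
    · rcases quadraticChar_dichotomy hx with h | h <;> rw [h] <;> norm_num
  have ht : q = nχ (F := F) 1 + nχ (F := F) (-1) + nχ (F := F) 0 := by
    unfold nχ
    rw [← Finset.sum_add_distrib, ← Finset.sum_add_distrib, ← Finset.card_univ,
      Finset.card_eq_sum_ones]
    push_cast
    refine Finset.sum_congr rfl fun x _ => ?_
    by_cases hx : x = 0
    · subst hx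
      simp
    · rcases quadraticChar_dichotomy hx with h | h <;> rw [h] <;> norm_num
  rw [quadraticChar_sum_zero hF] at hs
  rw [h0] at ht
  refine ⟨h0, ?_, ?_⟩ <;> linarith

/-- The general count. -/
lemma card_disc (hF : ringChar F ≠ 2) (ε : ℤ) :
    (Nat.card {g : GL2 | quadraticChar F ((g : M2).trace ^ 2 - 4 * (g : M2).det) = ε} : ℤ) =
      (q ^ 2 + q * ε) *
        (q * nχ (F := F) ε - ∑ a : F, if quadraticChar F (a ^ 2) = ε then 1 else 0) := by
  refine (card_GL_sum hF fun a d => quadraticChar F (a ^ 2 - 4 * d) = ε).trans ?_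
  rw [← sum_pairs F hF ε, Finset.mul_sum]
  refine Finset.sum_congr rfl fun a _ => ?_
  rw [Finset.mul_sum]
  refine Finset.sum_congr rfl fun d _ => ?_
  split_ifs with h
  · rw [h, mul_one]
  · rw [mul_zero]

/-- **Elements without eigenvalues in `F`.** -/
theorem card_nonsplit (hF : ringChar F ≠ 2) :
    2 * (Nat.card {g : GL2 | quadraticChar F ((g : M2).trace ^ 2 - 4 * (g : M2).det) = -1} : ℤ) =
      q ^ 2 * (q - 1) ^ 2 := by
  rw [card_disc hF]
  have h1 : (∑ a : F, if quadraticChar F (a ^ 2) = -1 then (1 : ℤ) else 0) = 0 := by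
    refine Finset.sum_eq_zero fun a _ => ?_
    rw [if_neg]
    by_cases ha : a = 0
    · subst ha
      simp
    · rw [quadraticChar_sq_one' ha]
      norm_num
  rw [h1]
  obtain ⟨-, -, h⟩ := nχ_values (F := F) hF
  linear_combination (q ^ 2 - q) * q * h

/-- **Elements with two different eigenvalues in `F`.** -/
theorem card_split (hF : ringChar F ≠ 2) :
    2 * (Nat.card {g : GL2 | quadraticChar F ((g : M2).trace ^ 2 - 4 * (g : M2).det) = 1} : ℤ) =
      q * (q + 1) * (q - 1) * (q - 2) := by
  rw [card_disc hF]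
  have h1 : (∑ a : F, if quadraticChar F (a ^ 2) = 1 then (1 : ℤ) else 0) = q - 1 := by
    have h2 : ∀ a : F, (if quadraticChar F (a ^ 2) = 1 then (1 : ℤ) else 0) =
        1 - if a = 0 then 1 else 0 := by
      intro a
      by_cases ha : a = 0
      · subst ha
        simp
      · rw [quadraticChar_sq_one' ha, if_pos rfl, if_neg ha, sub_zero]
    simp only [h2]
    rw [Finset.sum_sub_distrib, Finset.sum_const, Finset.card_univ, nsmul_eq_mul,
      Finset.sum_ite_eq']
    simp
  rw [h1]
  obtain ⟨-, h, -⟩ := nχ_values (F := F) hF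
  linear_combination (q ^ 2 + q) * q * h

/-- **Elements with a double eigenvalue.** -/
theorem card_double (hF : ringChar F ≠ 2) :
    (Nat.card {g : GL2 | quadraticChar F ((g : M2).trace ^ 2 - 4 * (g : M2).det) = 0} : ℤ) =
      q ^ 2 * (q - 1) := by
  rw [card_disc hF]
  have h1 : (∑ a : F, if quadraticChar F (a ^ 2) = 0 then (1 : ℤ) else 0) = 1 := by
    rw [Finset.sum_eq_single (0 : F)]
    · simp
    · intro b _ hb
      rw [if_neg]
      rw [quadraticChar_sq_one' hb]
      norm_num
    · intro h
      exact absurd (Finset.mem_univ _) h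
  rw [h1]
  obtain ⟨h, -, -⟩ := nχ_values (F := F) hF
  rw [h]
  ring

end Fermat.Agent.Cor.Count
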