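import Fermat.Agent.Corollaries.Katz.Full
import Fermat.Agent.Corollaries.Isog.QuotAll

/-!
# Katz's theorem over `ℚ`

`W` is any elliptic curve over `ℚ` and `m` any positive integer.

* `katz_tfae_all` : `m` divides the number of points of `W` modulo `ℓ` for all but finitely many
  primes `ℓ` if and only if `W` is isogenous over `ℚ` to an elliptic curve `E'` for which `E'(ℚ)` has
  a subgroup of order `m` (Katz, *Galois properties of torsion points on abelian varieties*, 1981,
  for elliptic curves over `ℚ`).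
-/

set_option autoImplicit false

noncomputable section

open WeierstrassCurve WeierstrassCurve.Affine

namespace Fermat.Agent.Cor.Katz

open Fermat.Agent.Cor.K1 (Gam Pts)
open Fermat.Agent.Cor.Mazur (Pt)

/-- The rational points are the points over `ℚ̄` fixed by Galois. -/
theorem exists_embedding (E : WeierstrassCurve ℚ) :
    ∃ ι : E.toAffine.Point →+ Pts E, Function.Injective ι ∧
      ∀ x : Pts E, x ∈ ι.range ↔ ∀ σ : Gam, σ • x = x := by
  have key : ∀ C : WeierstrassCurve ℚ, C = (E⁄ℚ) → ∃ ι : C.toAffine.Point →+ Pts E,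
      Function.Injective ι ∧ ∀ x : Pts E, x ∈ ι.range ↔ ∀ σ : Gam, σ • x = x := by
    rintro C rfl
    refine ⟨Point.baseChange (W' := E) ℚ (AlgebraicClosure ℚ), Point.map_injective (W' := E) _,
      fun x => ⟨?_, fun hx => ?_⟩⟩
    · rintro ⟨P, rfl⟩ σ
      exact K1.smul_baseChange E σ P
    · exact exists_baseChange_eq E x hx
  exact key E E.map_id.symm

/-- Orders of images. -/
lemma card_map_mul_card_ker {A B : Type*} [AddCommGroup A] [AddCommGroup B] (φ : A →+ B)
    {F : AddSubgroup A} (h : φ.ker ≤ F) : Nat.card (F.map φ) * Nat.card φ.ker = Nat.card F := by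
  rw [← card_range_mul_card_ker (φ.comp F.subtype)]
  congr 1
  · have h1 : (φ.comp F.subtype).range = F.map φ := by
      ext x
      constructor
      · rintro ⟨y, rfl⟩
        exact ⟨y, y.2, rfl⟩
      · rintro ⟨y, hy, rfl⟩
        exact ⟨⟨y, hy⟩, rfl⟩
    rw [h1]
  · exact Nat.card_congr
      { toFun := fun x => ⟨⟨x.1, h x.2⟩, x.2⟩
        invFun := fun x => ⟨x.1.1, x.2⟩
        left_inv := fun _ => rfl
        right_inv := fun _ => rfl }

variable {W : WeierstrassCurve ℤ}

/-- The quotient curve. -/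
theorem exists_curve_of_triv (hΔ : W.Δ ≠ 0) {m : ℕ} {C F : AddSubgroup (Pt W)}
    (h : Triv Gam m C F) :
    ∃ (E' : WeierstrassCurve ℚ) (_ : E'.IsElliptic),
      IsIsogenous (W.map (Int.castRingHom ℚ)) E' ∧
      ∃ T : AddSubgroup E'.toAffine.Point, Nat.card T = m := by
  have fC := h.finC
  obtain ⟨E', hE', φ, hφ, hker, hsurj⟩ := Isog.exists_quotient_all (W.map (Int.castRingHom ℚ))
    (map_Δ_ne hΔ) C fC fun σ x hx => h.smul_mem σ hx
  have hm : Nat.card (F.map φ) = m := by
    have h1 := card_map_mul_card_ker φ (F := F) (by rw [hker]; exact h.le)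
    rw [hker, h.card] at h1
    exact Nat.eq_of_mul_eq_mul_right Nat.card_pos h1
  have hfix : ∀ x ∈ F.map φ, ∀ σ : Gam, σ • x = x := by
    rintro _ ⟨x, hx, rfl⟩ σ
    have h1 : σ • x - x ∈ φ.ker := by
      rw [hker]
      exact h.dif σ x hx
    rw [AddMonoidHom.mem_ker, map_sub, hφ, sub_eq_zero] at h1
    exact h1
  obtain ⟨ι, hι, hrange⟩ := exists_embedding E'
  refine ⟨E', ⟨isUnit_iff_ne_zero.mpr hE'⟩, ⟨φ, hsurj, hφ, by rw [hker]; exact fC⟩,
    (F.map φ).comap ι, ?_⟩
  rw [← hm]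
  have h2 : ((F.map φ).comap ι).map ι = F.map φ := by
    rw [AddSubgroup.map_comap_eq, inf_eq_right]
    intro x hx
    exact (hrange x).mpr (hfix x hx)
  refine (Nat.card_congr (((F.map φ).comap ι).equivMapOfInjective ι hι).toEquiv).trans ?_
  rw [h2]

/-- The converse. -/
theorem exists_triv_of_curve {E' : WeierstrassCurve ℚ} {m : ℕ} (hm : m ≠ 0)
    (hiso : IsIsogenous (W.map (Int.castRingHom ℚ)) E') (T : AddSubgroup E'.toAffine.Point)
    (hT : Nat.card T = m) : ∃ C F : AddSubgroup (Pt W), Triv Gam m C F := by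
  obtain ⟨φ, hsurj, hφ, hfin⟩ := hiso
  obtain ⟨ι, hι, hrange⟩ := exists_embedding E'
  have h1 : Nat.card (T.map ι) = m := by
    rw [← hT]
    exact (Nat.card_congr (T.equivMapOfInjective ι hι).toEquiv).symm
  let F : AddSubgroup (Pt W) := (T.map ι).comap φ
  have hle : φ.ker ≤ F := fun x hx => by
    change φ x ∈ T.map ι
    rw [AddMonoidHom.mem_ker.mp hx]
    exact (T.map ι).zero_mem
  have h2 : F.map φ = T.map ι := by
    rw [AddSubgroup.map_comap_eq, inf_eq_right]
    intro x _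
    exact hsurj x
  have h3 := card_map_mul_card_ker φ hle
  rw [h2, h1] at h3
  refine ⟨φ.ker, F, ⟨Nat.finite_of_card_ne_zero ?_, hle, h3.symm, fun σ x hx => ?_⟩⟩
  · rw [← h3]
    exact mul_ne_zero hm Nat.card_pos.ne'
  · obtain ⟨P, -, hP⟩ := hx
    rw [AddMonoidHom.mem_ker, map_sub, hφ, sub_eq_zero]
    exact (hrange _).mp ⟨P, hP⟩ σ

/-- **Katz's theorem over `ℚ`**: if `m` divides the number of points of `W` modulo `ℓ` for a set of
primes `ℓ` of density one, then `W` is isogenous over `ℚ` to an elliptic curve with a group of `m`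
rational torsion points. -/
theorem katz_all (hΔ : W.Δ ≠ 0) {m : ℕ} (hm : m ≠ 0)
    (h : HasDirichletDensity {ℓ | m ∣ (W.reductionMod ℓ).card} 1) :
    ∃ (E' : WeierstrassCurve ℚ) (_ : E'.IsElliptic),
      IsIsogenous (W.map (Int.castRingHom ℚ)) E' ∧
      ∃ T : AddSubgroup E'.toAffine.Point, Nat.card T = m := by
  obtain ⟨C, F, h1, -⟩ := exists_triv hΔ m hm h
  exact exists_curve_of_triv hΔ h1

/-- **Katz's theorem over `ℚ`**, all the equivalences. -/
theorem katz_tfae_all (hΔ : W.Δ ≠ 0) {m : ℕ} (hm : m ≠ 0) : List.TFAE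
    [∀ ℓ : ℕ, ℓ.Prime → W.IsGoodPrimeFor ℓ → ¬ ℓ ∣ m → m ∣ (W.reductionMod ℓ).card,
      {ℓ : ℕ | ℓ.Prime ∧ ¬ m ∣ (W.reductionMod ℓ).card}.Finite,
      HasDirichletDensity {ℓ | m ∣ (W.reductionMod ℓ).card} 1,
      ∃ C F : AddSubgroup (Pt W), Triv Gam m C F,
      ∃ (E' : WeierstrassCurve ℚ) (_ : E'.IsElliptic),
        IsIsogenous (W.map (Int.castRingHom ℚ)) E' ∧
        ∃ T : AddSubgroup E'.toAffine.Point, Nat.card T = m] := by
  have h := katz_triv_tfae hΔ hm
  tfae_have 1 → 2 := (h.out 0 1).mp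
  tfae_have 2 → 3 := (h.out 1 2).mp
  tfae_have 3 → 4 := (h.out 2 3).mp
  tfae_have 4 → 1 := (h.out 3 0).mp
  tfae_have 4 → 5 := by
    rintro ⟨C, F, h1⟩
    exact exists_curve_of_triv hΔ h1
  tfae_have 5 → 4 := by
    rintro ⟨E', -, h1, T, hT⟩
    exact exists_triv_of_curve hm h1 T hT
  tfae_finish

end Fermat.Agent.Cor.Katz
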