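import Mathlib

/-!
# Subgroups of `GL₂(F)` all of whose elements have the eigenvalue `1`

`exists_fixed`: if `det (g - 1) = 0` for all `g` in a subgroup `G` of `GL₂(F)`, `F` a field, then
`G` fixes a non-zero vector or a non-zero linear form (i.e. it acts trivially on a quotient line).
-/

set_option autoImplicit false

open Matrix

namespace Fermat.Agent.Cor.Katz

variable {F : Type*} [Field F]

local notation "M2" => Matrix (Fin 2) (Fin 2) F
local notation "GL2" => GL (Fin 2) F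

/-- The identity for matrices of rank at most one. -/
lemma rank_one_id {S : M2} (h : S.det = 0) (v w : Fin 2 → F) :
    vecMulVec (S *ᵥ v) (w ᵥ* S) = (w ⬝ᵥ S *ᵥ v) • S := by
  rw [Matrix.det_fin_two] at h
  ext i j
  simp only [vecMulVec_apply, Matrix.mulVec, Matrix.vecMul, dotProduct, Fin.sum_univ_two,
    Matrix.smul_apply, smul_eq_mul]
  fin_cases i <;> fin_cases j <;> simp only [Fin.zero_eta, Fin.mk_one]
  · linear_combination (-(w 1 * v 1)) * h
  · linear_combination (w 1 * v 0) * h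
  · linear_combination (w 0 * v 1) * h
  · linear_combination (-(w 0 * v 0)) * h

/-- A singular matrix with `w S v = 0` has `w S = 0` or `S v = 0`. -/
lemma vecMul_eq_zero_or {S : M2} (h : S.det = 0) {v w : Fin 2 → F} (hwv : w ⬝ᵥ S *ᵥ v = 0) :
    w ᵥ* S = 0 ∨ S *ᵥ v = 0 := by
  by_contra hcon
  push Not at hcon
  obtain ⟨h1, h2⟩ := hcon
  obtain ⟨j, hj⟩ := Function.ne_iff.mp h1
  obtain ⟨i, hi⟩ := Function.ne_iff.mp h2
  have h3 := congrFun (congrFun (rank_one_id h v w) i) j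
  rw [vecMulVec_apply, hwv, zero_smul, Matrix.zero_apply] at h3
  exact (mul_ne_zero hi hj) h3

/-- The pair relation. -/
lemma dot_eq_zero {g h : M2} (hh : (h - 1).det = 0) (hgh : (g * h - 1).det = 0) (hg1 : g ≠ 1)
    {v w : Fin 2 → F} (hv : (g - 1) *ᵥ v = 0) (hw : w ᵥ* (g - 1) = 0) :
    w ⬝ᵥ (h - 1) *ᵥ v = 0 := by
  by_contra hc
  apply hg1
  have e : g * h - 1 = (g - 1) + g * (h - 1) := by
    rw [Matrix.mul_sub, Matrix.mul_one]
    abel
  have e' : g * h - 1 = (g - 1) * h + (h - 1) := by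
    rw [Matrix.sub_mul, Matrix.one_mul]
    abel
  have h1 : (g * h - 1) *ᵥ v = g *ᵥ ((h - 1) *ᵥ v) := by
    rw [e, Matrix.add_mulVec, hv, zero_add, Matrix.mulVec_mulVec]
  have h2 : w ᵥ* (g * h - 1) = w ᵥ* (h - 1) := by
    rw [e', Matrix.vecMul_add, ← Matrix.vecMul_vecMul, hw, Matrix.zero_vecMul, zero_add]
  have h3 : w ⬝ᵥ (g * h - 1) *ᵥ v = w ⬝ᵥ (h - 1) *ᵥ v := by
    rw [Matrix.dotProduct_mulVec, h2, ← Matrix.dotProduct_mulVec]
  have h4 := rank_one_id hgh v w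
  have h5 := rank_one_id hh v w
  rw [h3, h1, h2] at h4
  have h6 : vecMulVec (g *ᵥ ((h - 1) *ᵥ v)) (w ᵥ* (h - 1)) =
      g * vecMulVec ((h - 1) *ᵥ v) (w ᵥ* (h - 1)) := by
    rw [Matrix.mul_vecMulVec]
  rw [h6, h5, Matrix.mul_smul] at h4
  have h7 := smul_right_injective M2 hc h4
  rw [e] at h7
  exact sub_eq_zero.mp (add_eq_right.mp h7.symm)

/-- **A subgroup of `GL₂(F)` all of whose elements have the eigenvalue `1`** fixes a non-zero
vector or acts trivially on a quotient line. -/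
theorem exists_fixed (G : Subgroup GL2) (h : ∀ g ∈ G, ((g : M2) - 1).det = 0) :
    (∃ v : Fin 2 → F, v ≠ 0 ∧ ∀ g ∈ G, (g : M2) *ᵥ v = v) ∨
      ∃ w : Fin 2 → F, w ≠ 0 ∧ ∀ g ∈ G, w ᵥ* (g : M2) = w := by
  by_cases htriv : ∀ g ∈ G, g = 1
  · refine Or.inl ⟨Pi.single 0 1, fun h0 => ?_, fun g hg => ?_⟩
    · have := congrFun h0 0
      simp at this
    · rw [htriv g hg, Units.val_one, Matrix.one_mulVec]
  push Not at htriv
  obtain ⟨g, hg, hg1⟩ := htriv
  have hg1' : (g : M2) ≠ 1 := fun h0 => hg1 (Units.ext h0)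
  obtain ⟨v, hv0, hv⟩ := Matrix.exists_mulVec_eq_zero_iff.mpr (h g hg)
  obtain ⟨w, hw0, hw⟩ := Matrix.exists_vecMul_eq_zero_iff.mpr (h g hg)
  have key : ∀ k ∈ G, w ᵥ* ((k : M2) - 1) = 0 ∨ ((k : M2) - 1) *ᵥ v = 0 := fun k hk =>
    vecMul_eq_zero_or (h k hk) (dot_eq_zero (h k hk) (h (g * k) (mul_mem hg hk)) hg1' hv hw)
  by_contra hcon
  push Not at hcon
  obtain ⟨hcv, hcw⟩ := hcon
  obtain ⟨a, ha, hav⟩ := hcv v hv0
  obtain ⟨b, hb, hbw⟩ := hcw w hw0
  have hav' : ((a : M2) - 1) *ᵥ v ≠ 0 := by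
    rw [Matrix.sub_mulVec, Matrix.one_mulVec]
    exact sub_ne_zero.mpr hav
  have hbw' : w ᵥ* ((b : M2) - 1) ≠ 0 := by
    rw [Matrix.vecMul_sub, Matrix.vecMul_one]
    exact sub_ne_zero.mpr hbw
  have haw : w ᵥ* ((a : M2) - 1) = 0 := (key a ha).resolve_right hav'
  have hbv : ((b : M2) - 1) *ᵥ v = 0 := (key b hb).resolve_left hbw'
  -- `S = a b - 1`
  have e : (a : M2) * (b : M2) - 1 = ((a : M2) - 1) * (b : M2) + ((b : M2) - 1) := by
    rw [Matrix.sub_mul, Matrix.one_mul]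
    abel
  have e' : (a : M2) * (b : M2) - 1 = ((a : M2) - 1) + (a : M2) * ((b : M2) - 1) := by
    rw [Matrix.mul_sub, Matrix.mul_one]
    abel
  have h1 : w ᵥ* ((a : M2) * (b : M2) - 1) = w ᵥ* ((b : M2) - 1) := by
    rw [e, Matrix.vecMul_add, ← Matrix.vecMul_vecMul, haw, Matrix.zero_vecMul, zero_add]
  have h2 : ((a : M2) * (b : M2) - 1) *ᵥ v = ((a : M2) - 1) *ᵥ v := by
    rw [e', Matrix.add_mulVec, ← Matrix.mulVec_mulVec, hbv, Matrix.mulVec_zero, add_zero]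
  have h3 : w ⬝ᵥ ((a : M2) * (b : M2) - 1) *ᵥ v = 0 := by
    rw [h2, Matrix.dotProduct_mulVec, haw, zero_dotProduct]
  rcases vecMul_eq_zero_or (h (a * b) (mul_mem ha hb)) h3 with h4 | h4
  · rw [Units.val_mul, h1] at h4
    exact hbw' h4
  · rw [Units.val_mul, h2] at h4
    exact hav' h4

/-- The condition in terms of trace and determinant. -/
lemma det_sub_one (g : M2) : (g - 1).det = 1 + g.det - g.trace := by
  rw [Matrix.det_fin_two, Matrix.det_fin_two, Matrix.trace_fin_two]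
  simp only [Matrix.sub_apply, Matrix.one_apply_eq, Matrix.one_apply_ne (zero_ne_one),
    Matrix.one_apply_ne (one_ne_zero), sub_zero]
  ring

end Fermat.Agent.Cor.Katz
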