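import Fermat.Agent.Corollaries.Surj.Cheb
import Fermat.Agent.Corollaries.Katz.Group
import Fermat.Agent.Corollaries.Mazur.Defs

/-!
# Elliptic curves over `ℚ` with `p ∣ #W(𝔽_ℓ)` for almost all `ℓ`: the Galois module `W[p]`

`W` is any elliptic curve over `ℚ` (equation with integral coefficients) and `p` any prime number.

* `dens_range` : the distribution of `(a_ℓ, ℓ)` modulo `p` is the one of (trace, determinant) in
  the image of Galois;
* `exists_point_or_line` : if `p ∣ #W(𝔽_ℓ)` for a set of primes `ℓ` of density one, then `W` has a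
  rational point of order `p`, or a stable subgroup of order `p` with trivial action on the
  quotient of `W[p]`.
-/

set_option autoImplicit false

noncomputable section

open Filter Topology Matrix WeierstrassCurve WeierstrassCurve.Affine

namespace Fermat.Agent.Cor.Katz

open Fermat.Agent.Frob Fermat.Agent.FrobDensity Fermat.Agent.Classic
open Fermat.Agent.Cor.K1 (Gam Pts)
open Fermat.Agent.Cor.Mazur (Pt)

variable {W : WeierstrassCurve ℤ} (hΔ : W.Δ ≠ 0) {p : ℕ} [hp : Fact p.Prime]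

local notation "M2" => Matrix (Fin 2) (Fin 2) (ZMod p)
local notation "GL2" => GL (Fin 2) (ZMod p)

/-- The elements of the image of Galois whose trace and determinant satisfy `P`. -/
def imgSet (P : ZMod p → ZMod p → Prop) : Set (repP p hΔ).range :=
  {g | P ((g : GL2) : M2).trace ((g : GL2) : M2).det}

/-- **The distribution of the pairs `(a_ℓ, ℓ)` modulo `p`** for any elliptic curve over `ℚ`: the
density of the primes `ℓ` for which `(a_ℓ, ℓ)` satisfies `P` is the proportion of the elements of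
the image of Galois in `GL₂(𝔽_p)` whose trace and determinant satisfy `P`. -/
theorem dens_range (P : ZMod p → ZMod p → Prop) :
    HasDirichletDensity
      {ℓ | W.IsGoodPrimeFor ℓ ∧ P (W.apOfModel ℓ : ZMod p) (ℓ : ZMod p)}
      ((Nat.card (imgSet hΔ P) : ℝ) / Nat.card (repP p hΔ).range) := by
  have hC : ∀ g c : (repP p hΔ).range, c ∈ imgSet hΔ P → g * c * g⁻¹ ∈ imgSet hΔ P :=
    fun g c hc => trDetSet_conj P (g : GL2) (c : GL2) hc
  have hlevel : ∃ L : IntermediateField ℚ (AlgebraicClosure ℚ), FiniteDimensional ℚ L ∧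
      ∀ σ : Gam, (∀ x ∈ L, σ x = x) → (repP p hΔ).rangeRestrict σ = 1 := by
    obtain ⟨L, hL, h⟩ := repP_factors p hΔ
    exact ⟨L, hL, fun σ hσ => Subtype.ext (h σ hσ)⟩
  refine (chebotarev_dirichlet (repP p hΔ).rangeRestrict (repP p hΔ).rangeRestrict_surjective
    hlevel (imgSet hΔ P) hC).congr_of_finset (insert p W.Δ.natAbs.primeFactors) ?_
  intro ℓ hℓ hℓT
  rw [Finset.mem_insert, not_or] at hℓT
  obtain ⟨hne, hℓΔ⟩ := hℓT
  have hgood : W.IsGoodPrimeFor ℓ := fun h => hℓΔ (Nat.mem_primeFactors.mpr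
    ⟨hℓ, Int.natCast_dvd.mp h, Int.natAbs_ne_zero.mpr hΔ⟩)
  obtain ⟨A, hA, σ, hσ⟩ := exists_frobenius ℓ hℓ
  rw [LT.Period.mem_FrobIn_iff (repP p hΔ).rangeRestrict hC hℓ hA
    (fun τ hτ => Subtype.ext (repP_inertia hΔ hℓ hgood hne hA hτ)) hσ]
  change P (repP p hΔ σ : M2).trace (repP p hΔ σ : M2).det ↔ _
  rw [trace_repP_frobenius hΔ hℓ hgood hne hA hσ, det_repP_frobenius hΔ hℓ hgood hne hA hσ]
  exact (and_iff_right hgood).symm

/-- The number of points and the trace of Frobenius. -/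
lemma dvd_card_iff {ℓ : ℕ} : p ∣ (W.reductionMod ℓ).card ↔
    (W.apOfModel ℓ : ZMod p) = 1 + (ℓ : ZMod p) := by
  have h7 : W.apOfModel ℓ = (ℓ : ℤ) + 1 - ((W.reductionMod ℓ).card : ℤ) := by
    unfold apOfModel traceOfFrobenius
    rw [Nat.card_zmod]
  rw [h7, ← ZMod.natCast_eq_zero_iff]
  push_cast
  constructor
  · intro h8
    linear_combination -h8
  · intro h8
    linear_combination -h8

/-- **The density of the primes `ℓ` with `p ∣ #W(𝔽_ℓ)`** is the proportion of the elements of the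
image of Galois which have the eigenvalue `1`. -/
theorem dens_dvd_card_range :
    HasDirichletDensity {ℓ | W.IsGoodPrimeFor ℓ ∧ p ∣ (W.reductionMod ℓ).card}
      ((Nat.card (imgSet hΔ fun x y : ZMod p => x = 1 + y) : ℝ) /
        Nat.card (repP p hΔ).range) := by
  refine (dens_range hΔ fun x y : ZMod p => x = 1 + y).congr_of_finset ∅ fun ℓ _ _ => ?_
  exact and_congr_right fun _ => dvd_card_iff.symm

include hΔ in
lemma good_of_notMem {ℓ : ℕ} (hℓ : ℓ.Prime) (h : ℓ ∉ W.Δ.natAbs.primeFactors) :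
    W.IsGoodPrimeFor ℓ := fun h' => h (Nat.mem_primeFactors.mpr
    ⟨hℓ, Int.natCast_dvd.mp h', Int.natAbs_ne_zero.mpr hΔ⟩)

/-- If `p ∣ #W(𝔽_ℓ)` for a set of primes of density one, then all elements of the image of Galois
have the eigenvalue `1`. -/
theorem det_sub_one_eq_zero (h : HasDirichletDensity {ℓ | p ∣ (W.reductionMod ℓ).card} 1)
    (g : GL2) (hg : g ∈ (repP p hΔ).range) : ((g : M2) - 1).det = 0 := by
  have h1 : HasDirichletDensity {ℓ | W.IsGoodPrimeFor ℓ ∧ p ∣ (W.reductionMod ℓ).card} 1 := by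
    refine h.congr_of_finset W.Δ.natAbs.primeFactors fun ℓ hℓ hℓΔ => ?_
    exact (and_iff_right (good_of_notMem hΔ hℓ hℓΔ)).symm
  have h2 := (dens_dvd_card_range (p := p) hΔ).unique h1
  have h0 : (Nat.card (repP p hΔ).range : ℝ) ≠ 0 := by
    exact_mod_cast (Nat.card_pos (α := (repP p hΔ).range)).ne'
  rw [div_eq_one_iff_eq h0] at h2
  have h3 : (imgSet hΔ fun x y : ZMod p => x = 1 + y) = Set.univ := by
    rw [Set.eq_univ_iff_ncard, ← Nat.card_coe_set_eq]
    exact_mod_cast h2
  have h4 : (⟨g, hg⟩ : (repP p hΔ).range) ∈ imgSet hΔ fun x y : ZMod p => x = 1 + y := by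
    rw [h3]
    exact Set.mem_univ _
  have h5 : (g : M2).trace = 1 + (g : M2).det := h4
  rw [det_sub_one, h5, sub_self]

/-- The kernel of a non-zero linear form on `𝔽_p²`. -/
lemma card_ker {V : Type*} [AddCommGroup V] [Module (ZMod p) V] (e : V ≃ₗ[ZMod p] (Fin 2 → ZMod p))
    {w : Fin 2 → ZMod p} (hw : w ≠ 0) (f : V →ₗ[ZMod p] ZMod p) (hf : ∀ x, f x = w ⬝ᵥ e x) :
    Nat.card (LinearMap.ker f) = p := by
  have hfin : Finite V := Finite.of_equiv _ e.symm.toEquiv
  have hsurj : Function.Surjective f := by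
    obtain ⟨i, hi⟩ := Function.ne_iff.mp hw
    intro c
    refine ⟨e.symm (Pi.single i (c / w i)), ?_⟩
    rw [hf, e.apply_symm_apply, dotProduct_single]
    exact mul_div_cancel₀ _ hi
  have h1 := Submodule.card_eq_card_quotient_mul_card (LinearMap.ker f)
  rw [Nat.card_congr e.toEquiv, Nat.card_congr (f.quotKerEquivOfSurjective hsurj).toEquiv,
    Nat.card_zmod, Nat.card_fun, Nat.card_zmod, Nat.card_fin, pow_two] at h1
  exact (Nat.eq_of_mul_eq_mul_left hp.out.pos (h1.trans (mul_comm _ _))).symm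

include hΔ in
/-- **The dichotomy**: if `p ∣ #W(𝔽_ℓ)` for a set of primes `ℓ` of density one, then `W` has a
rational point of order `p`, or `W[p]` has a stable subgroup of order `p` with trivial action on
the quotient. -/
theorem exists_point_or_line (h : HasDirichletDensity {ℓ | p ∣ (W.reductionMod ℓ).card} 1) :
    (∃ P : Pt W, addOrderOf P = p ∧ ∀ σ : Gam, σ • P = P) ∨
      ∃ L : AddSubgroup (Pt W), Nat.card L = p ∧ (∀ σ : Gam, ∀ x ∈ L, σ • x ∈ L) ∧
        ∀ x : Pt W, p • x = 0 → ∀ σ : Gam, σ • x - x ∈ L := by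
  obtain ⟨e, he⟩ := exists_equiv p hΔ
  rcases exists_fixed (repP p hΔ).range (det_sub_one_eq_zero hΔ h) with ⟨v, hv0, hv⟩ | ⟨w, hw0, hw⟩
  · left
    refine ⟨(e.symm v : Pt W), addOrderOf_eq_prime ?_ ?_, fun σ => ?_⟩
    · have h1 := (Submodule.mem_torsionBy_iff _ _).mp (e.symm v).2
      rwa [natCast_zsmul] at h1
    · intro h0
      apply hv0
      have h1 : e.symm v = 0 := Subtype.ext h0
      rwa [LinearEquiv.map_eq_zero_iff] at h1
    · have h1 : σ • e.symm v = e.symm v := by
        apply e.injective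
        rw [he, e.apply_symm_apply]
        exact hv _ ⟨σ, rfl⟩
      exact congrArg Subtype.val h1
  · right
    let f : Submodule.torsionBy ℤ ((W.map (Int.castRingHom ℚ))⁄(AlgebraicClosure ℚ)).Point (p : ℕ)
        →ₗ[ZMod p] ZMod p := (dotProductBilin (ZMod p) (ZMod p) w).comp e.toLinearMap
    have hf : ∀ x, f x = w ⬝ᵥ e x := fun x => rfl
    have hfσ : ∀ (σ : Gam) x, f (σ • x) = f x := by
      intro σ x
      rw [hf, hf, he, Matrix.dotProduct_mulVec, hw _ ⟨σ, rfl⟩]
    refine ⟨(LinearMap.ker f).toAddSubgroup.map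
      (Submodule.torsionBy ℤ ((W.map (Int.castRingHom ℚ))⁄(AlgebraicClosure ℚ)).Point
        (p : ℕ)).toAddSubgroup.subtype, ?_, ?_, ?_⟩
    · rw [Nat.card_congr ((LinearMap.ker f).toAddSubgroup.equivMapOfInjective _
        (AddSubgroup.subtype_injective _)).symm.toEquiv]
      exact card_ker e hw0 f hf
    · rintro σ _ ⟨x, hx, rfl⟩
      let x' : Submodule.torsionBy ℤ
        ((W.map (Int.castRingHom ℚ))⁄(AlgebraicClosure ℚ)).Point (p : ℕ) := x
      refine ⟨σ • x', ?_, rfl⟩
      change f (σ • x') = 0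
      rw [hfσ]
      exact hx
    · intro x hx σ
      have hx' : x ∈ Submodule.torsionBy ℤ
          ((W.map (Int.castRingHom ℚ))⁄(AlgebraicClosure ℚ)).Point (p : ℕ) := by
        rw [Submodule.mem_torsionBy_iff, natCast_zsmul]
        exact hx
      let x' : Submodule.torsionBy ℤ
        ((W.map (Int.castRingHom ℚ))⁄(AlgebraicClosure ℚ)).Point (p : ℕ) := ⟨x, hx'⟩
      refine ⟨σ • x' - x', ?_, rfl⟩
      change f (σ • x' - x') = 0
      rw [map_sub, hfσ, sub_self]

end Fermat.Agent.Cor.Katz
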