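import Fermat.Agent.Corollaries.Katz.Ker
import Fermat.Agent.Corollaries.Mazur.FixFin

/-!
# Katz's theorem over `ℚ` for all `m`: the Galois modules

`W` is any elliptic curve over `ℚ` and `m` any positive integer.

* `katz_triv_tfae` : equivalent are: `m` divides the number of points of `W` modulo `ℓ` for all good
  primes `ℓ ∤ m`; for all but finitely many `ℓ`; for a set of `ℓ` of density one; there are finite
  subgroups `C ≤ F` of `W(ℚ̄)` with `[F : C] = m` and `σ x - x ∈ C` for all `x ∈ F`,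
  `σ ∈ Gal(ℚ̄/ℚ)`.
-/

set_option autoImplicit false

noncomputable section

open WeierstrassCurve WeierstrassCurve.Affine

namespace Fermat.Agent.Cor.Katz

open Fermat.Agent.ECRed
open Fermat.Agent.Cor.K1 (Gam Pts)
open Fermat.Agent.Cor.Mazur (Pt)

variable {W : WeierstrassCurve ℤ}

/-- The number of points killed by `m`. -/
lemma card_torsion_Pt (hΔ : W.Δ ≠ 0) {m : ℕ} (hm : m ≠ 0) :
    Nat.card {P : Pt W // m • P = 0} = m ^ 2 := by
  have hΔ' : ((W.map (Int.castRingHom ℚ))⁄(AlgebraicClosure ℚ) :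
      WeierstrassCurve (AlgebraicClosure ℚ)).Δ ≠ 0 := by
    rw [show ((W.map (Int.castRingHom ℚ))⁄(AlgebraicClosure ℚ) :
      WeierstrassCurve (AlgebraicClosure ℚ)) =
      (W.map (Int.castRingHom ℚ)).map (algebraMap ℚ (AlgebraicClosure ℚ)) from rfl,
      WeierstrassCurve.map_Δ]
    simpa using map_Δ_ne hΔ
  exact Torsion.card_torsion hΔ' (by exact_mod_cast hm)

/-- Prime powers. -/
theorem exists_triv_pow (hΔ : W.Δ ≠ 0) {p : ℕ} [hp : Fact p.Prime] {n : ℕ}
    (h : HasDirichletDensity {ℓ | p ^ n ∣ (W.reductionMod ℓ).card} 1) :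
    ∃ C F : AddSubgroup (Pt W), Triv Gam (p ^ n) C F ∧ ∃ k : ℕ, Nat.card F = p ^ k := by
  have hEll : (W.map (Int.castRingHom ℚ)).IsElliptic := ⟨isUnit_iff_ne_zero.mpr (map_Δ_ne hΔ)⟩
  obtain ⟨C, F, c, k, hk, hP⟩ := exists_pair (G := Gam) (A := Pt W) hp.out
    (fun y => K1.divisible hp.out (W.map (Int.castRingHom ℚ)) y)
    (fun m => card_torsion_Pt hΔ (pow_ne_zero m hp.out.ne_zero)) n
    (fun σ => card_fixed_ge hΔ h σ)
  obtain ⟨F', h1, h2, h3⟩ := exists_between hP.le hP.cardC hP.cardF hk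
  have hfin : Finite F' := Nat.finite_of_card_ne_zero (by
    rw [h3]
    exact pow_ne_zero _ hp.out.ne_zero)
  refine ⟨C, F', ⟨hfin, h1, ?_, fun σ x hx => hP.dif σ x (h2 hx)⟩, c + n, h3⟩
  rw [h3, hP.cardC, pow_add, mul_comm]

/-- **All `m`.** -/
theorem exists_triv (hΔ : W.Δ ≠ 0) (m : ℕ) : m ≠ 0 →
    HasDirichletDensity {ℓ | m ∣ (W.reductionMod ℓ).card} 1 →
    ∃ C F : AddSubgroup (Pt W), Triv Gam m C F ∧
      ∀ t : ℕ, m.Coprime t → (Nat.card F).Coprime t := by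
  induction m using Nat.recOnPosPrimePosCoprime with
  | prime_pow p n hp hn =>
    intro _ h
    have hF : Fact p.Prime := ⟨hp⟩
    obtain ⟨C, F, h1, k, hk⟩ := exists_triv_pow hΔ h
    refine ⟨C, F, h1, fun t ht => ?_⟩
    rw [hk]
    exact Nat.Coprime.pow_left k (Nat.Coprime.of_dvd_left (dvd_pow_self p hn.ne') ht)
  | zero => exact fun h => absurd rfl h
  | one =>
    intro _ _
    refine ⟨⊥, ⊥, ⟨inferInstance, le_rfl, (one_mul _).symm, fun g x hx => ?_⟩, fun t _ => ?_⟩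
    · rw [AddSubgroup.mem_bot] at hx ⊢
      rw [hx, smul_zero (A := Pt W) g, sub_zero]
    · rw [AddSubgroup.card_bot]
      exact Nat.coprime_one_left t
  | coprime a b ha hb hab iha ihb =>
    intro h0 h
    obtain ⟨C₁, F₁, h₁, hc₁⟩ :=
      iha (by omega) (h.of_one fun ℓ hℓ => (dvd_mul_right a b).trans hℓ)
    obtain ⟨C₂, F₂, h₂, hc₂⟩ :=
      ihb (by omega) (h.of_one fun ℓ hℓ => (dvd_mul_left b a).trans hℓ)
    have hco : (Nat.card F₁).Coprime (Nat.card F₂) := hc₁ _ (hc₂ a hab.symm).symm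
    refine ⟨C₁ ⊔ C₂, F₁ ⊔ F₂, h₁.sup h₂ hco, fun t ht => ?_⟩
    rw [card_sup hco]
    exact Nat.Coprime.mul_left (hc₁ t (Nat.Coprime.coprime_mul_right ht))
      (hc₂ t (Nat.Coprime.coprime_mul_left ht))

/-- **The converse.** -/
theorem dvd_card_of_triv {C F : AddSubgroup (Pt W)} {m : ℕ} (h : Triv Gam m C F) {ℓ : ℕ}
    (hℓ : ℓ.Prime) (hgood : W.IsGoodPrimeFor ℓ) (hne : ¬ ℓ ∣ Nat.card F) :
    m ∣ (W.reductionMod ℓ).card := by
  classical
  have : Fact ℓ.Prime := ⟨hℓ⟩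
  have fF := h.fin
  obtain ⟨A, hA, σ, hσ⟩ := Fermat.Agent.Frob.exists_frobenius ℓ hℓ
  have hchar := charP_residueField_of_liesOver hℓ hA
  let : Algebra (ZMod ℓ) (IsLocalRing.ResidueField A) := ZMod.algebra _ ℓ
  let r := redGood (redCurve_reductionMod W (A := A) (ℓ := ℓ)) (isPlace_valuationSubring A)
    (reductionMod_Δ_ne_zero' hgood)
  have hr : ∀ P, r (σ • P) = Fermat.Agent.ECFrob.frob (W.reductionMod ℓ)
      (IsLocalRing.ResidueField A) (r P) := redGood_smul_frobenius hgood hσ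
  -- the points fixed by Frobenius
  let T : AddSubgroup ((W.reductionMod ℓ)⁄(IsLocalRing.ResidueField A)).Point :=
    (Fermat.Agent.ECFrob.frob (W.reductionMod ℓ) (IsLocalRing.ResidueField A) -
      AddMonoidHom.id _).ker
  have hT : ∀ P, P ∈ T ↔ Fermat.Agent.ECFrob.frob (W.reductionMod ℓ)
      (IsLocalRing.ResidueField A) P = P := by
    intro P
    rw [AddMonoidHom.mem_ker, AddMonoidHom.sub_apply, AddMonoidHom.id_apply, sub_eq_zero]
  have hcT : Nat.card T = (W.reductionMod ℓ).card := by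
    have h1 := Fermat.Agent.ECFrob.card_frob_fixed (K := IsLocalRing.ResidueField A)
      (W.reductionMod ℓ)
    refine Eq.trans (Nat.card_congr (Equiv.subtypeEquivRight hT)) (h1.trans ?_)
    rfl
  rw [← hcT]
  refine (h.dvd_card_fixed σ).trans ?_
  set K := ((Katz.dif σ).comp F.subtype : F →+ Pt W).ker with hK
  have hKσ : ∀ x : K, σ • ((x : F) : Pt W) = ((x : F) : Pt W) := by
    intro x
    have h1 : σ • ((x : F) : Pt W) - ((x : F) : Pt W) = 0 := x.2
    exact sub_eq_zero.mp h1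
  let f : K →+ T :=
    { toFun := fun x => ⟨r ((x : F) : Pt W), by rw [hT, ← hr, hKσ]⟩
      map_zero' := Subtype.ext (map_zero r)
      map_add' := fun x y => Subtype.ext (map_add r _ _) }
  refine AddSubgroup.card_dvd_of_injective f ?_
  intro x y hxy
  have hxy' : r ((x : F) : Pt W) = r ((y : F) : Pt W) := congrArg Subtype.val hxy
  have hmn : ((Nat.card F : ℕ) : IsLocalRing.ResidueField A) ≠ 0 := by
    rw [Ne, CharP.cast_eq_zero_iff (IsLocalRing.ResidueField A) ℓ]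
    exact hne
  have hk : ∀ z : F, Nat.card F • (z : Pt W) = 0 := by
    intro z
    have h1 : Nat.card F • z = 0 := card_nsmul_eq_zero'
    exact congrArg Subtype.val h1
  exact Subtype.ext (Subtype.ext (redGood_injOn _ _ _ hmn (hk x) (hk y) hxy'))

/-- **Katz's theorem over `ℚ`, Galois modules**: `W` any elliptic curve over `ℚ`, `m ≠ 0`. -/
theorem katz_triv_tfae (hΔ : W.Δ ≠ 0) {m : ℕ} (hm : m ≠ 0) : List.TFAE
    [∀ ℓ : ℕ, ℓ.Prime → W.IsGoodPrimeFor ℓ → ¬ ℓ ∣ m → m ∣ (W.reductionMod ℓ).card,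
      {ℓ : ℕ | ℓ.Prime ∧ ¬ m ∣ (W.reductionMod ℓ).card}.Finite,
      HasDirichletDensity {ℓ | m ∣ (W.reductionMod ℓ).card} 1,
      ∃ C F : AddSubgroup (Pt W), Triv Gam m C F] := by
  have key : ∀ C F : AddSubgroup (Pt W), Triv Gam m C F →
      {ℓ : ℕ | ℓ.Prime ∧ ¬ m ∣ (W.reductionMod ℓ).card}.Finite := by
    intro C F h
    have fF := h.fin
    refine Set.Finite.subset ((Set.finite_le_nat (Nat.card F)).union
      (Set.finite_le_nat W.Δ.natAbs)) fun ℓ hℓ => ?_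
    by_cases hgood : W.IsGoodPrimeFor ℓ
    · left
      by_contra h1
      exact hℓ.2 (dvd_card_of_triv h hℓ.1 hgood fun h2 => h1 (Nat.le_of_dvd Nat.card_pos h2))
    · right
      have h1 : (ℓ : ℤ) ∣ W.Δ := not_not.mp hgood
      exact Nat.le_of_dvd (Int.natAbs_pos.mpr hΔ) (Int.natCast_dvd.mp h1)
  have h23 : {ℓ : ℕ | ℓ.Prime ∧ ¬ m ∣ (W.reductionMod ℓ).card}.Finite →
      HasDirichletDensity {ℓ | m ∣ (W.reductionMod ℓ).card} 1 := by
    intro h
    refine HasDirichletDensity.univ.congr_of_finset h.toFinset fun ℓ hℓ hℓT => ?_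
    have h1 : ¬ (ℓ.Prime ∧ ¬ m ∣ (W.reductionMod ℓ).card) := fun h' =>
      hℓT (h.mem_toFinset.mpr h')
    simp only [Set.mem_univ, true_iff]
    by_contra h2
    exact h1 ⟨hℓ, h2⟩
  tfae_have 1 → 2 := by
    intro h
    refine Set.Finite.subset ((Set.finite_le_nat m).union
      (Set.finite_le_nat W.Δ.natAbs)) fun ℓ hℓ => ?_
    by_cases hgood : W.IsGoodPrimeFor ℓ
    · left
      by_contra h1
      exact hℓ.2 (h ℓ hℓ.1 hgood fun h2 => h1 (Nat.le_of_dvd (Nat.pos_of_ne_zero hm) h2))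
    · right
      have h1 : (ℓ : ℤ) ∣ W.Δ := not_not.mp hgood
      exact Nat.le_of_dvd (Int.natAbs_pos.mpr hΔ) (Int.natCast_dvd.mp h1)
  tfae_have 2 → 3 := h23
  tfae_have 3 → 4 := by
    intro h
    obtain ⟨C, F, h1, -⟩ := exists_triv hΔ m hm h
    exact ⟨C, F, h1⟩
  tfae_have 4 → 1 := by
    rintro ⟨C, F, h⟩ ℓ hℓ hgood hne
    obtain ⟨C', F', h1, h2⟩ := exists_triv hΔ m hm (h23 (key C F h))
    refine dvd_card_of_triv h1 hℓ hgood fun h3 => ?_
    have h4 : (Nat.card F').Coprime ℓ :=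
      h2 ℓ ((Nat.Prime.coprime_iff_not_dvd hℓ).mpr hne).symm
    exact hℓ.one_lt.ne' (Nat.eq_one_of_dvd_coprimes h4 h3 dvd_rfl)
  tfae_finish

end Fermat.Agent.Cor.Katz
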