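import Fermat.Agent.Corollaries.Katz.Main

/-!
# Katz's theorem for primes: the equivalent conditions

`W` is any elliptic curve over `ℚ` and `p` any prime number. Equivalent are:

* `p ∣ #W(𝔽_ℓ)` for all primes `ℓ ≠ p` of good reduction;
* `p ∣ #W(𝔽_ℓ)` for a set of primes `ℓ` of Dirichlet density one;
* `W` has a rational point of order `p`, or `W[p]` has a Galois stable subgroup of order `p` with
  trivial action on the quotient.
-/

set_option autoImplicit false

noncomputable section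

open Matrix WeierstrassCurve WeierstrassCurve.Affine

namespace Fermat.Agent.Cor.Katz

open Fermat.Agent.Frob Fermat.Agent.Classic
open Fermat.Agent.Cor.K1 (Gam Pts)
open Fermat.Agent.Cor.Mazur (Pt)

variable {W : WeierstrassCurve ℤ} (hΔ : W.Δ ≠ 0) {p : ℕ} [hp : Fact p.Prime]

local notation "M2" => Matrix (Fin 2) (Fin 2) (ZMod p)

/-- `W` has a rational point of order `p`, or `W[p]` has a stable subgroup of order `p` with trivial
action on the quotient. -/
def PointOrLine (W : WeierstrassCurve ℤ) (p : ℕ) : Prop :=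
  (∃ P : Pt W, addOrderOf P = p ∧ ∀ σ : Gam, σ • P = P) ∨
    ∃ L : AddSubgroup (Pt W), Nat.card L = p ∧ (∀ σ : Gam, ∀ x ∈ L, σ • x ∈ L) ∧
      ∀ x : Pt W, p • x = 0 → ∀ σ : Gam, σ • x - x ∈ L

/-- All elements of the image of Galois have the eigenvalue `1`. -/
theorem det_repP_sub_one (h : PointOrLine W p) (σ : Gam) :
    ((repP p hΔ σ : M2) - 1).det = 0 := by
  obtain ⟨e, he⟩ := exists_equiv p hΔ
  have hmem : ∀ {x : Pt W}, x ∈ Submodule.torsionBy ℤ
      ((W.map (Int.castRingHom ℚ))⁄(AlgebraicClosure ℚ)).Point (p : ℕ) ↔ p • x = 0 := by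
    intro x
    rw [Submodule.mem_torsionBy_iff, natCast_zsmul]
  rcases h with ⟨P, hP, hfix⟩ | ⟨L, hL, -, hquot⟩
  · let x : Submodule.torsionBy ℤ
      ((W.map (Int.castRingHom ℚ))⁄(AlgebraicClosure ℚ)).Point (p : ℕ) :=
      ⟨P, hmem.mpr (by rw [← hP]; exact addOrderOf_nsmul_eq_zero P)⟩
    refine Matrix.exists_mulVec_eq_zero_iff.mp ⟨e x, fun h0 => ?_, ?_⟩
    · rw [LinearEquiv.map_eq_zero_iff] at h0
      have h1 : P = 0 := congrArg Subtype.val h0
      rw [h1, addOrderOf_zero] at hP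
      exact hp.out.one_lt.ne hP
    · have h1 : σ • x = x := Subtype.ext (hfix σ)
      rw [Matrix.sub_mulVec, Matrix.one_mulVec, ← he, h1, sub_self]
  · by_contra hdet
    have hfinL : Finite L := Nat.finite_of_card_ne_zero (by rw [hL]; exact hp.out.ne_zero)
    have hsub : ∀ S : Pt W, p • S = 0 → S ∈ L := by
      intro S hS
      let y : Submodule.torsionBy ℤ
        ((W.map (Int.castRingHom ℚ))⁄(AlgebraicClosure ℚ)).Point (p : ℕ) := ⟨S, hmem.mpr hS⟩
      have hu : IsUnit ((repP p hΔ σ : M2) - 1).det := isUnit_iff_ne_zero.mpr hdet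
      let z := e.symm (((repP p hΔ σ : M2) - 1)⁻¹ *ᵥ e y)
      have hz : σ • z - z = y := by
        apply e.injective
        have h4 : ((repP p hΔ σ : M2) - 1) *ᵥ (((repP p hΔ σ : M2) - 1)⁻¹ *ᵥ e y) = e y := by
          rw [Matrix.mulVec_mulVec, Matrix.mul_nonsing_inv _ hu, Matrix.one_mulVec]
        rw [Matrix.sub_mulVec, Matrix.one_mulVec] at h4
        rw [map_sub, he, e.apply_symm_apply]
        exact h4
      have h2 := hquot (z : Pt W) (hmem.mp z.2) σ
      have h3 : σ • (z : Pt W) - (z : Pt W) = S := congrArg Subtype.val hz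
      rwa [h3] at h2
    have h1 : Nat.card {P : Pt W // p • P = 0} ≤ Nat.card L :=
      Nat.card_le_card_of_injective
        (fun x : {P : Pt W // p • P = 0} => (⟨x.1, hsub x.1 x.2⟩ : L))
        fun a b hab => Subtype.ext (congrArg (fun z : L => (z : Pt W)) hab)
    rw [card_torsion hΔ, hL] at h1
    nlinarith [hp.out.two_le]

include hΔ in
/-- `p ∣ #W(𝔽_ℓ)` for all primes `ℓ ≠ p` of good reduction. -/
theorem dvd_card_of_pointOrLine (h : PointOrLine W p) {ℓ : ℕ} (hℓ : ℓ.Prime)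
    (hgood : W.IsGoodPrimeFor ℓ) (hne : ℓ ≠ p) : p ∣ (W.reductionMod ℓ).card := by
  obtain ⟨A, hA, σ, hσ⟩ := exists_frobenius ℓ hℓ
  rw [dvd_card_iff, ← trace_repP_frobenius hΔ hℓ hgood hne hA hσ,
    ← det_repP_frobenius hΔ hℓ hgood hne hA hσ]
  have h1 := det_repP_sub_one hΔ h σ
  rw [det_sub_one] at h1
  exact (sub_eq_zero.mp h1).symm

include hΔ in
/-- **Equivalence** of the three conditions. -/
theorem katz_tfae : List.TFAE
    [∀ ℓ : ℕ, ℓ.Prime → W.IsGoodPrimeFor ℓ → ℓ ≠ p → p ∣ (W.reductionMod ℓ).card,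
      {ℓ : ℕ | ℓ.Prime ∧ ¬ p ∣ (W.reductionMod ℓ).card}.Finite,
      HasDirichletDensity {ℓ | p ∣ (W.reductionMod ℓ).card} 1,
      PointOrLine W p] := by
  tfae_have 1 → 2 := by
    intro h
    refine (insert p W.Δ.natAbs.primeFactors).finite_toSet.subset ?_
    rintro ℓ ⟨hℓ, hnd⟩
    rw [Finset.mem_coe, Finset.mem_insert]
    by_contra hcon
    push Not at hcon
    exact hnd (h ℓ hℓ (good_of_notMem hΔ hℓ hcon.2) hcon.1)
  tfae_have 2 → 3 := by
    intro h
    refine HasDirichletDensity.univ.congr_of_finset h.toFinset fun ℓ hℓ hℓT => ?_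
    have h1 : ¬ (ℓ.Prime ∧ ¬ p ∣ (W.reductionMod ℓ).card) :=
      fun h' => hℓT (h.mem_toFinset.mpr h')
    simp only [Set.mem_univ, true_iff]
    by_contra h2
    exact h1 ⟨hℓ, h2⟩
  tfae_have 3 → 4 := fun h => exists_point_or_line hΔ h
  tfae_have 4 → 1 := fun h ℓ hℓ hgood hne => dvd_card_of_pointOrLine hΔ h hℓ hgood hne
  tfae_finish

end Fermat.Agent.Cor.Katz
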