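import Fermat.Agent.Corollaries.Katz.CountDisc
import Fermat.Agent.Corollaries.Katz.Iff
import Fermat.Agent.Corollaries.Surj.ChebNat
import Fermat.Agent.Corollaries.Surj.Main

/-!
# The local-global principle for isogenies of prime degree, semistable curves

`W` is an elliptic curve over `ℚ`, `p` a prime.

* `HasIsogeny W p` : `W(ℚ̄)` has a subgroup of order `p` stable under Galois;
* `HasIsogenyMod W p ℓ` : the polynomial `X² - a_ℓ X + ℓ` has a root modulo `p`; for `ℓ ≠ p` of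
  good reduction this means that a Frobenius at `ℓ` has a stable subgroup of order `p`
  (`hasIsogenyMod_iff`), for `p ≠ 2` that `a_ℓ² - 4 ℓ` is a square modulo `p`
  (`hasIsogenyMod_iff_isSquare`);
* `local_global` : for `W` semistable, `HasIsogeny W p` as soon as `HasIsogenyMod W p ℓ` for a set of
  primes `ℓ` of density one; `local_global_tfae`;
* `nat_dens_not_hasIsogenyMod` : if the mod `p` representation is surjective, `p ≠ 2`, then
  `HasIsogenyMod W p ℓ` fails for a set of primes of natural density `p / (2 (p + 1))`.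
-/

set_option autoImplicit false

noncomputable section

open Matrix WeierstrassCurve WeierstrassCurve.Affine

namespace Fermat.Agent.Cor.Katz

open Fermat.Agent.Frob Fermat.Agent.Classic
open Fermat.Agent.Cor.K1 (Gam Pts)
open Fermat.Agent.Cor.Mazur (Pt)

variable {W : WeierstrassCurve ℤ} (hΔ : W.Δ ≠ 0) {p : ℕ} [hp : Fact p.Prime]

local notation "M2" => Matrix (Fin 2) (Fin 2) (ZMod p)
local notation "GL2" => GL (Fin 2) (ZMod p)

/-- `W` has a rational isogeny of degree `p`: a subgroup of order `p` of `W(ℚ̄)` is stable under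
Galois. -/
def HasIsogeny (W : WeierstrassCurve ℤ) (p : ℕ) : Prop :=
  ∃ L : AddSubgroup (Pt W), Nat.card L = p ∧ ∀ σ : Gam, ∀ x ∈ L, σ • x ∈ L

/-- The characteristic polynomial `X² - a_ℓ X + ℓ` of Frobenius has a root modulo `p`. -/
def HasIsogenyMod (W : WeierstrassCurve ℤ) (p ℓ : ℕ) : Prop :=
  ∃ c : ZMod p, c ^ 2 - (W.apOfModel ℓ : ZMod p) * c + (ℓ : ZMod p) = 0

/-- From eigenvectors to stable subgroups. -/
lemma exists_subgroup {v : Fin 2 → ZMod p} (hv : v ≠ 0) (S : Set Gam)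
    (h : ∀ σ ∈ S, ∃ c : ZMod p, (repP p hΔ σ : M2) *ᵥ v = c • v) :
    ∃ L : AddSubgroup (Pt W), Nat.card L = p ∧ ∀ σ ∈ S, ∀ x ∈ L, σ • x ∈ L := by
  obtain ⟨e, he⟩ := exists_equiv p hΔ
  have hx0 : ((e.symm v : Submodule.torsionBy ℤ
      ((W.map (Int.castRingHom ℚ))⁄(AlgebraicClosure ℚ)).Point (p : ℕ)) : Pt W) ≠ 0 := by
    intro h0
    apply hv
    have h1 : e.symm v = 0 := Subtype.ext h0
    rwa [LinearEquiv.map_eq_zero_iff] at h1
  have hpx : p • (e.symm v : Pt W) = 0 := by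
    have h1 := (Submodule.mem_torsionBy_iff _ _).mp (e.symm v).2
    rwa [natCast_zsmul] at h1
  refine ⟨AddSubgroup.zmultiples (e.symm v : Pt W), ?_, ?_⟩
  · rw [Nat.card_zmultiples]
    exact addOrderOf_eq_prime hpx hx0
  · intro σ hσ y hy
    obtain ⟨k, rfl⟩ := AddSubgroup.mem_zmultiples_iff.mp hy
    obtain ⟨c, hc⟩ := h σ hσ
    have h1 : σ • e.symm v = c.val • e.symm v := by
      apply e.injective
      rw [he, e.apply_symm_apply, hc, map_nsmul, e.apply_symm_apply, ← Nat.cast_smul_eq_nsmul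
        (ZMod p), ZMod.natCast_zmod_val]
    have h2 : σ • (e.symm v : Pt W) = c.val • (e.symm v : Pt W) := congrArg Subtype.val h1
    rw [← smul_comm k σ, h2]
    exact AddSubgroup.zsmul_mem _ (AddSubgroup.nsmul_mem _ (AddSubgroup.mem_zmultiples _) _) _

include hΔ in
/-- A reducible mod `p` representation has a stable subgroup of order `p`. -/
theorem hasIsogeny_of_reducible (hred : ¬ W.ModRepIsIrreducible p) : HasIsogeny W p := by
  rw [noInvLine_range_iff p hΔ] at hred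
  unfold NoInvLine at hred
  push Not at hred
  obtain ⟨v, hv, h⟩ := hred
  obtain ⟨L, hL, hst⟩ := exists_subgroup hΔ hv Set.univ fun σ _ => h _ ⟨σ, rfl⟩
  exact ⟨L, hL, fun σ => hst σ (Set.mem_univ σ)⟩

/-- `det (A - c)` for a `2 × 2` matrix. -/
lemma det_sub_smul (A : M2) (c : ZMod p) : (A - c • (1 : M2)).det = c ^ 2 - A.trace * c + A.det := by
  rw [Matrix.det_fin_two, Matrix.det_fin_two, Matrix.trace_fin_two]
  simp only [Matrix.sub_apply, Matrix.smul_apply, Matrix.one_apply_eq,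
    Matrix.one_apply_ne (zero_ne_one), Matrix.one_apply_ne (one_ne_zero), smul_eq_mul, mul_one,
    mul_zero, sub_zero]
  ring

/-- An automorphism `σ` has a stable subgroup of order `p` iff its characteristic polynomial on
`W[p]` has a root. -/
theorem exists_stable_iff (σ : Gam) :
    (∃ L : AddSubgroup (Pt W), Nat.card L = p ∧ ∀ x ∈ L, σ • x ∈ L) ↔
      ∃ c : ZMod p, c ^ 2 - (repP p hΔ σ : M2).trace * c + (repP p hΔ σ : M2).det = 0 := by
  obtain ⟨e, he⟩ := exists_equiv p hΔ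
  constructor
  · rintro ⟨L, hL, hst⟩
    have hfinL : Finite L := Nat.finite_of_card_ne_zero (by rw [hL]; exact hp.out.ne_zero)
    have hnt : Nontrivial L := by
      rw [← Finite.one_lt_card_iff_nontrivial, hL]
      exact hp.out.one_lt
    obtain ⟨x, hx0⟩ := exists_ne (0 : L)
    have hpx : ∀ y : L, p • (y : Pt W) = 0 := by
      intro y
      have h1 : p • y = 0 := by
        rw [← hL]
        exact card_nsmul_eq_zero'
      exact congrArg (fun z : L => (z : Pt W)) h1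
    have hx0' : (x : Pt W) ≠ 0 := fun h => hx0 (Subtype.ext h)
    -- `x` generates `L`
    have hord : addOrderOf x = p := by
      refine addOrderOf_eq_prime ?_ hx0
      exact Subtype.ext (hpx x)
    have htop : AddSubgroup.zmultiples x = ⊤ := by
      apply AddSubgroup.eq_top_of_card_eq
      rw [Nat.card_zmultiples, hord, hL]
    obtain ⟨k, hk⟩ : ∃ k : ℤ, k • (x : Pt W) = σ • (x : Pt W) := by
      have h1 : (⟨σ • (x : Pt W), hst _ x.2⟩ : L) ∈ AddSubgroup.zmultiples x := by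
        rw [htop]
        exact AddSubgroup.mem_top _
      obtain ⟨k, hk⟩ := AddSubgroup.mem_zmultiples_iff.mp h1
      exact ⟨k, congrArg (fun z : L => (z : Pt W)) hk⟩
    let y : Submodule.torsionBy ℤ
      ((W.map (Int.castRingHom ℚ))⁄(AlgebraicClosure ℚ)).Point (p : ℕ) := ⟨x, by
        rw [Submodule.mem_torsionBy_iff, natCast_zsmul]
        exact hpx x⟩
    have hy0 : e y ≠ 0 := by
      intro h0
      rw [LinearEquiv.map_eq_zero_iff] at h0
      exact hx0' (congrArg Subtype.val h0)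
    have hσy : σ • y = k • y := Subtype.ext hk.symm
    refine ⟨(k : ZMod p), ?_⟩
    rw [← det_sub_smul]
    refine Matrix.exists_mulVec_eq_zero_iff.mp ⟨e y, hy0, ?_⟩
    rw [Matrix.sub_mulVec, ← he, hσy, Matrix.smul_mulVec, Matrix.one_mulVec, map_zsmul,
      Int.cast_smul_eq_zsmul, sub_self]
  · rintro ⟨c, hc⟩
    rw [← det_sub_smul] at hc
    obtain ⟨v, hv0, hv⟩ := Matrix.exists_mulVec_eq_zero_iff.mpr hc
    obtain ⟨L, hL, hst⟩ := exists_subgroup hΔ hv0 {σ} (by
      rintro τ rfl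
      refine ⟨c, ?_⟩
      rwa [Matrix.sub_mulVec, Matrix.smul_mulVec, Matrix.one_mulVec, sub_eq_zero] at hv)
    exact ⟨L, hL, hst σ rfl⟩

include hΔ in
/-- **The meaning of `HasIsogenyMod`**: a Frobenius at `ℓ` has a stable subgroup of order `p`. -/
theorem hasIsogenyMod_iff {ℓ : ℕ} (hℓ : ℓ.Prime) (hgood : W.IsGoodPrimeFor ℓ) (hne : ℓ ≠ p)
    {A : ValuationSubring (AlgebraicClosure ℚ)} (hA : A.LiesOverPrime ℓ) {σ : Gam}
    (hσ : A.IsFrobeniusAt σ ℓ) : HasIsogenyMod W p ℓ ↔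
      ∃ L : AddSubgroup (Pt W), Nat.card L = p ∧ ∀ x ∈ L, σ • x ∈ L := by
  rw [exists_stable_iff hΔ σ, trace_repP_frobenius hΔ hℓ hgood hne hA hσ,
    det_repP_frobenius hΔ hℓ hgood hne hA hσ]
  exact Iff.rfl

/-- For `p ≠ 2`: `a_ℓ² - 4 ℓ` is a square modulo `p`. -/
theorem hasIsogenyMod_iff_isSquare (hp2 : p ≠ 2) {ℓ : ℕ} : HasIsogenyMod W p ℓ ↔
    IsSquare ((W.apOfModel ℓ : ZMod p) ^ 2 - 4 * (ℓ : ZMod p)) := by
  have h2 : (2 : ZMod p) ≠ 0 := Ring.two_ne_zero (Cheb.ringChar_ne_two hp2)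
  constructor
  · rintro ⟨c, hc⟩
    exact ⟨2 * c - (W.apOfModel ℓ : ZMod p), by linear_combination -4 * hc⟩
  · rintro ⟨r, hr⟩
    refine ⟨((W.apOfModel ℓ : ZMod p) + r) / 2, ?_⟩
    field_simp
    linear_combination -hr

/-- A global isogeny is an isogeny at every good `ℓ ≠ p`. -/
theorem hasIsogenyMod_of_hasIsogeny (h : HasIsogeny W p) {ℓ : ℕ} (hℓ : ℓ.Prime)
    (hgood : W.IsGoodPrimeFor ℓ) (hne : ℓ ≠ p) : HasIsogenyMod W p ℓ := by
  have hΔ : W.Δ ≠ 0 := fun h0 => hgood (by rw [h0]; exact dvd_zero _)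
  obtain ⟨A, hA, σ, hσ⟩ := exists_frobenius ℓ hℓ
  obtain ⟨L, hL, hst⟩ := h
  exact (hasIsogenyMod_iff hΔ hℓ hgood hne hA hσ).mpr ⟨L, hL, hst σ⟩

/-! ### Densities in the surjective case -/

section dens

variable (hp2 : p ≠ 2)

include hp2

/-- **The natural density of the `ℓ` without isogeny** (`a_ℓ² - 4 ℓ` not a square modulo `p`) is
`p / (2 (p + 1))`. -/
theorem nat_dens_not_hasIsogenyMod (hs : Function.Surjective (repP p hΔ)) : HasNaturalDensity
    {ℓ | W.IsGoodPrimeFor ℓ ∧ ¬ HasIsogenyMod W p ℓ} (p / (2 * (p + 1))) := by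
  have h := nat_dens_of_surjective hΔ hs fun x y => quadraticChar (ZMod p) (x ^ 2 - 4 * y) = -1
  have h1 := Count.card_nonsplit (Cheb.ringChar_ne_two hp2)
  rw [ZMod.card] at h1
  have h2 : 2 * (Nat.card {g : GL2 | quadraticChar (ZMod p) ((g : M2).trace ^ 2 -
      4 * (g : M2).det) = -1} : ℝ) = p ^ 2 * (p - 1) ^ 2 := by exact_mod_cast h1
  rw [Cheb.card_GL2_real] at h
  have h3 := Cheb.real_pos (p := p) hp2
  have h4 : (p : ℝ) - 1 ≠ 0 := by linarith
  have h5 : (p : ℝ) + 1 ≠ 0 := by linarith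
  have h6 : (p : ℝ) ≠ 0 := by linarith
  have h7 : (p : ℝ) / (2 * (p + 1)) = (Nat.card {g : GL2 | quadraticChar (ZMod p)
      ((g : M2).trace ^ 2 - 4 * (g : M2).det) = -1} : ℝ) / (p * (p - 1) ^ 2 * (p + 1)) := by
    rw [div_eq_div_iff (by positivity) (by positivity)]
    linear_combination -((p : ℝ) + 1) * h2
  rw [h7]
  refine h.congr_of_finset ∅ fun ℓ _ _ => and_congr_right fun _ => ?_
  rw [hasIsogenyMod_iff_isSquare hp2]
  exact quadraticChar_neg_one_iff_not_isSquare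

/-- The natural density of the `ℓ` with exactly two isogenies (`a_ℓ² - 4 ℓ` a non-zero square modulo
`p`) is `(p - 2) / (2 (p - 1))`. -/
theorem nat_dens_split (hs : Function.Surjective (repP p hΔ)) : HasNaturalDensity
    {ℓ | W.IsGoodPrimeFor ℓ ∧
      quadraticChar (ZMod p) ((W.apOfModel ℓ : ZMod p) ^ 2 - 4 * (ℓ : ZMod p)) = 1}
    ((p - 2) / (2 * (p - 1))) := by
  have h := nat_dens_of_surjective hΔ hs fun x y => quadraticChar (ZMod p) (x ^ 2 - 4 * y) = 1
  have h1 := Count.card_split (Cheb.ringChar_ne_two hp2)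
  rw [ZMod.card] at h1
  have h2 : 2 * (Nat.card {g : GL2 | quadraticChar (ZMod p) ((g : M2).trace ^ 2 -
      4 * (g : M2).det) = 1} : ℝ) = p * (p + 1) * (p - 1) * (p - 2) := by exact_mod_cast h1
  rw [Cheb.card_GL2_real] at h
  have h3 := Cheb.real_pos (p := p) hp2
  have h4 : (p : ℝ) - 1 ≠ 0 := by linarith
  have h5 : (p : ℝ) + 1 ≠ 0 := by linarith
  have h6 : (p : ℝ) ≠ 0 := by linarith
  have h7 : ((p : ℝ) - 2) / (2 * (p - 1)) = (Nat.card {g : GL2 | quadraticChar (ZMod p)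
      ((g : M2).trace ^ 2 - 4 * (g : M2).det) = 1} : ℝ) / (p * (p - 1) ^ 2 * (p + 1)) := by
    rw [div_eq_div_iff (mul_ne_zero two_ne_zero h4)
      (mul_ne_zero (mul_ne_zero h6 (pow_ne_zero 2 h4)) h5)]
    linear_combination -((p : ℝ) - 1) * h2
  rw [h7]
  exact h

/-- The natural density of the `ℓ` with `a_ℓ² ≡ 4 ℓ` modulo `p` is `p / (p² - 1)`. -/
theorem nat_dens_double (hs : Function.Surjective (repP p hΔ)) : HasNaturalDensity
    {ℓ | W.IsGoodPrimeFor ℓ ∧ (p : ℤ) ∣ W.apOfModel ℓ ^ 2 - 4 * (ℓ : ℤ)} (p / (p ^ 2 - 1)) := by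
  have h := nat_dens_of_surjective hΔ hs fun x y => quadraticChar (ZMod p) (x ^ 2 - 4 * y) = 0
  have h1 := Count.card_double (Cheb.ringChar_ne_two hp2)
  rw [ZMod.card] at h1
  have h2 : (Nat.card {g : GL2 | quadraticChar (ZMod p) ((g : M2).trace ^ 2 -
      4 * (g : M2).det) = 0} : ℝ) = p ^ 2 * (p - 1) := by exact_mod_cast h1
  rw [h2, Cheb.card_GL2_real] at h
  have h3 := Cheb.real_pos (p := p) hp2
  have h4 : (p : ℝ) - 1 ≠ 0 := by linarith
  have h5 : (p : ℝ) + 1 ≠ 0 := by linarith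
  have h6 : (p : ℝ) ≠ 0 := by linarith
  have h7 : (p : ℝ) ^ 2 - 1 ≠ 0 := by
    rw [show (p : ℝ) ^ 2 - 1 = (p - 1) * (p + 1) by ring]
    exact mul_ne_zero h4 h5
  have h8 : (p : ℝ) / (p ^ 2 - 1) = p ^ 2 * (p - 1) / (p * (p - 1) ^ 2 * (p + 1)) := by
    field_simp
    ring
  rw [h8]
  refine h.congr_of_finset ∅ fun ℓ _ _ => and_congr_right fun _ => ?_
  rw [quadraticChar_eq_zero_iff, ← ZMod.intCast_zmod_eq_zero_iff_dvd]
  push_cast
  exact Iff.rfl

end dens

/-! ### The local-global principle -/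

lemma exists_root_two (a : ZMod 2) : (∃ c : ZMod 2, c ^ 2 - a * c + 1 = 0) ↔ a = 1 + 1 := by
  revert a
  decide

include hΔ in
/-- The case `p = 2`, for every elliptic curve. -/
theorem local_global_two (h : HasDirichletDensity {ℓ | HasIsogenyMod W 2 ℓ} 1) :
    HasIsogeny W 2 := by
  have hF : Fact (Nat.Prime 2) := ⟨Nat.prime_two⟩
  have h1 : HasDirichletDensity {ℓ | 2 ∣ (W.reductionMod ℓ).card} 1 := by
    refine h.congr_of_finset {2} fun ℓ hℓ hℓ2 => ?_
    have hodd : (ℓ : ZMod 2) = 1 := by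
      rw [← Nat.cast_one, ZMod.natCast_eq_natCast_iff]
      rcases hℓ.eq_two_or_odd with h2 | h2
      · exact absurd (Finset.mem_singleton.mpr h2) hℓ2
      · exact h2
    change (∃ c : ZMod 2, c ^ 2 - (W.apOfModel ℓ : ZMod 2) * c + (ℓ : ZMod 2) = 0) ↔
      2 ∣ (W.reductionMod ℓ).card
    rw [dvd_card_iff, hodd]
    exact exists_root_two _
  rcases exists_point_or_line hΔ h1 with ⟨P, hP, hfix⟩ | ⟨L, hL, hst, -⟩
  · refine ⟨AddSubgroup.zmultiples P, by rw [Nat.card_zmultiples, hP], fun σ x hx => ?_⟩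
    obtain ⟨k, rfl⟩ := AddSubgroup.mem_zmultiples_iff.mp hx
    rw [← smul_comm k σ, hfix]
    exact hx
  · exact ⟨L, hL, hst⟩

include hΔ in
/-- **The local-global principle for isogenies of prime degree**, semistable curves: if for a set of
primes `ℓ` of density one the Frobenius at `ℓ` has a stable subgroup of order `p`, then Galois has
one. -/
theorem local_global (hW : W.IsSemistableModel)
    (h : HasDirichletDensity {ℓ | HasIsogenyMod W p ℓ} 1) : HasIsogeny W p := by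
  by_cases hp2 : p = 2
  · subst hp2
    exact local_global_two hΔ h
  · by_contra hcon
    have hirr : W.ModRepIsIrreducible p := by
      by_contra hred
      exact hcon (hasIsogeny_of_reducible hΔ hred)
    have hs := repP_surjective hΔ hW hp2 hirr
    have h1 := dens_of_surjective hΔ hs
      fun x y => quadraticChar (ZMod p) (x ^ 2 - 4 * y) = -1
    have h2 : HasDirichletDensity {ℓ | W.IsGoodPrimeFor ℓ ∧ quadraticChar (ZMod p)
        ((W.apOfModel ℓ : ZMod p) ^ 2 - 4 * (ℓ : ZMod p)) = -1} (1 - 1) := by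
      refine h.compl.congr_of_finset W.Δ.natAbs.primeFactors fun ℓ hℓ hℓΔ => ?_
      have hgood := good_of_notMem hΔ hℓ hℓΔ
      change ¬ HasIsogenyMod W p ℓ ↔ _ ∧ _
      rw [hasIsogenyMod_iff_isSquare hp2, and_iff_right hgood,
        quadraticChar_neg_one_iff_not_isSquare]
    have h3 := h1.unique h2
    rw [sub_self, Cheb.card_GL2_real] at h3
    have h4 := Count.card_nonsplit (Cheb.ringChar_ne_two hp2)
    rw [ZMod.card] at h4
    have h5 : 2 * (Nat.card {g : GL2 | quadraticChar (ZMod p) ((g : M2).trace ^ 2 -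
        4 * (g : M2).det) = -1} : ℝ) = p ^ 2 * (p - 1) ^ 2 := by exact_mod_cast h4
    have h6 := Cheb.real_pos (p := p) hp2
    have h7 : (0 : ℝ) < (p : ℝ) - 1 := by linarith
    have h8 : (0 : ℝ) < p ^ 2 * (p - 1) ^ 2 := by positivity
    rw [div_eq_zero_iff] at h3
    rcases h3 with h3 | h3
    · rw [h3, mul_zero] at h5
      exact h8.ne h5
    · have h9 : (0 : ℝ) < (p : ℝ) * (p - 1) ^ 2 * (p + 1) := by positivity
      exact h9.ne' h3

include hΔ in
/-- **Equivalent conditions** for a semistable curve to have a rational isogeny of degree `p`. -/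
theorem local_global_tfae (hW : W.IsSemistableModel) : List.TFAE
    [HasIsogeny W p,
      ∀ ℓ : ℕ, ℓ.Prime → W.IsGoodPrimeFor ℓ → ℓ ≠ p → HasIsogenyMod W p ℓ,
      {ℓ : ℕ | ℓ.Prime ∧ ¬ HasIsogenyMod W p ℓ}.Finite,
      HasDirichletDensity {ℓ | HasIsogenyMod W p ℓ} 1] := by
  tfae_have 1 → 2 := fun h ℓ hℓ hgood hne => hasIsogenyMod_of_hasIsogeny h hℓ hgood hne
  tfae_have 2 → 3 := by
    intro h
    refine (insert p W.Δ.natAbs.primeFactors).finite_toSet.subset ?_
    rintro ℓ ⟨hℓ, hnd⟩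
    rw [Finset.mem_coe, Finset.mem_insert]
    by_contra hcon
    push Not at hcon
    exact hnd (h ℓ hℓ (good_of_notMem hΔ hℓ hcon.2) hcon.1)
  tfae_have 3 → 4 := by
    intro h
    refine HasDirichletDensity.univ.congr_of_finset h.toFinset fun ℓ hℓ hℓT => ?_
    have h1 : ¬ (ℓ.Prime ∧ ¬ HasIsogenyMod W p ℓ) := fun h' => hℓT (h.mem_toFinset.mpr h')
    simp only [Set.mem_univ, true_iff]
    by_contra h2
    exact h1 ⟨hℓ, h2⟩
  tfae_have 4 → 1 := fun h => local_global hΔ hW h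
  tfae_finish

include hΔ in
/-- For `p = 11` and `p ≥ 17`, and every semistable elliptic curve, the primes `ℓ` for which the
Frobenius at `ℓ` has no stable subgroup of order `p` have the natural density `p / (2 (p + 1))`. -/
theorem nat_dens_not_hasIsogenyMod_mazur (hW : W.IsSemistableModel) (h : p = 11 ∨ 17 ≤ p) :
    HasNaturalDensity {ℓ | W.IsGoodPrimeFor ℓ ∧ ¬ HasIsogenyMod W p ℓ} (p / (2 * (p + 1))) :=
  nat_dens_not_hasIsogenyMod hΔ (by omega)
    (repP_surjective hΔ hW (by omega) (modRepIsIrreducible hp.out h hΔ hW))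

end Fermat.Agent.Cor.Katz
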