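import Mathlib

/-!
# Katz's theorem: the group theory

`G` acts on an abelian group `A` which is `p`-divisible, with `p²ᵐ` elements killed by `pᵐ`. If
every element of `G` fixes at least `pⁿ` elements killed by `pⁿ`, then there are finite subgroups
`C ≤ F` of `p`-power order with `g x - x ∈ C` for all `x ∈ F` and `g ∈ G` and with `pⁿ ∣ [F : C]`
(`exists_pair`).

The pairs are constructed by induction on `[F : C] = pᵏ`, `k < n`. Let `H = {x | p x ∈ F}`. Then
every `g - 1` maps `H / F` to `{x | p x ∈ C} / C`, with a non-trivial kernel (`exists_notMem`).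
Two elements `g`, `h` with different proper kernels have the same image, otherwise `g h - 1` would be
injective on `H / F`. So either the kernels have a common element outside `F`, and `F` can be
enlarged, or all the images are contained in one subgroup `J / C` of order `p`, and `(J, H)` is a
larger pair (`Pair.step`).
-/

set_option autoImplicit false

noncomputable section

namespace Fermat.Agent.Cor.Katz

/-- The orders of the image and of the kernel. -/
lemma card_range_mul_card_ker {X Y : Type*} [AddGroup X] [AddGroup Y] (f : X →+ Y) :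
    Nat.card f.range * Nat.card f.ker = Nat.card X := by
  rw [← AddSubgroup.card_mul_index f.ker, AddSubgroup.index_ker, mul_comm]

variable {A : Type*} [AddCommGroup A]

/-- The elements `x` with `m x ∈ F`. -/
def lvl (F : AddSubgroup A) (m : ℕ) : AddSubgroup A := F.comap (nsmulAddMonoidHom m)

lemma mem_lvl {F : AddSubgroup A} {m : ℕ} {x : A} : x ∈ lvl F m ↔ m • x ∈ F := Iff.rfl

lemma le_lvl (F : AddSubgroup A) (m : ℕ) : F ≤ lvl F m := fun _ hx => F.nsmul_mem hx m

lemma lvl_mono {C F : AddSubgroup A} (h : C ≤ F) (m : ℕ) : lvl C m ≤ lvl F m :=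
  fun _ hx => h hx

/-- The order of `lvl F m`. -/
lemma card_lvl {m N : ℕ} (hdiv : ∀ x : A, ∃ y : A, m • y = x)
    (hcard : Nat.card {x : A // m • x = 0} = N) (F : AddSubgroup A) :
    Nat.card (lvl F m) = N * Nat.card F := by
  let f : lvl F m →+ F :=
    { toFun := fun x => ⟨m • (x : A), x.2⟩
      map_zero' := Subtype.ext (smul_zero m)
      map_add' := fun x y => Subtype.ext (smul_add m (x : A) (y : A)) }
  have h1 : f.range = ⊤ := by
    rw [AddMonoidHom.range_eq_top]
    intro y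
    obtain ⟨x, hx⟩ := hdiv y
    exact ⟨⟨x, by rw [mem_lvl, hx]; exact y.2⟩, Subtype.ext hx⟩
  rw [← card_range_mul_card_ker f, h1, mul_comm N]
  congr 1
  · exact Nat.card_congr AddSubgroup.topEquiv.toEquiv
  · rw [← hcard]
    refine Nat.card_congr
      { toFun := fun x => ⟨x.1.1, congrArg Subtype.val x.2⟩
        invFun := fun x => ⟨⟨x.1, by rw [mem_lvl, x.2]; exact F.zero_mem⟩, Subtype.ext x.2⟩
        left_inv := fun _ => rfl
        right_inv := fun _ => rfl }

/-- The elements of `H` sent to `C` by `D`. -/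
def kr (D : A →+ A) (H C : AddSubgroup A) : AddSubgroup A := H ⊓ C.comap D

/-- The group generated by `D H` and `C`. -/
def im (D : A →+ A) (H C : AddSubgroup A) : AddSubgroup A := H.map D ⊔ C

lemma mem_kr {D : A →+ A} {H C : AddSubgroup A} {x : A} : x ∈ kr D H C ↔ x ∈ H ∧ D x ∈ C :=
  Iff.rfl

lemma mem_im {D : A →+ A} {H C : AddSubgroup A} {x : A} :
    x ∈ im D H C ↔ ∃ h ∈ H, ∃ c ∈ C, D h + c = x := by
  rw [im, AddSubgroup.mem_sup]
  constructor
  · rintro ⟨_, ⟨h, hh, rfl⟩, c, hc, rfl⟩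
    exact ⟨h, hh, c, hc, rfl⟩
  · rintro ⟨h, hh, c, hc, rfl⟩
    exact ⟨D h, ⟨h, hh, rfl⟩, c, hc, rfl⟩

/-- Counting. -/
lemma card_im_mul_card_kr (D : A →+ A) (H C : AddSubgroup A) :
    Nat.card (im D H C) * Nat.card (kr D H C) = Nat.card H * Nat.card C := by
  let f : H × C →+ A := (D.comp H.subtype).coprod C.subtype
  have e : Nat.card (H × C) = Nat.card H * Nat.card C := Nat.card_prod _ _
  rw [← e, ← card_range_mul_card_ker f]
  congr 1
  · have h1 : f.range = im D H C := by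
      ext x
      rw [mem_im]
      constructor
      · rintro ⟨⟨h, c⟩, rfl⟩
        exact ⟨h, h.2, c, c.2, rfl⟩
      · rintro ⟨h, hh, c, hc, rfl⟩
        exact ⟨(⟨h, hh⟩, ⟨c, hc⟩), rfl⟩
    rw [h1]
  · refine Nat.card_congr
      { toFun := fun x => ⟨(⟨x.1, x.2.1⟩, ⟨-D x.1, C.neg_mem x.2.2⟩), ?_⟩
        invFun := fun x => ⟨x.1.1, x.1.1.2, ?_⟩
        left_inv := fun _ => rfl
        right_inv := ?_ }
    · exact add_neg_cancel (D (x : A))
    · have h1 : D (x.1.1 : A) + (x.1.2 : A) = 0 := x.2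
      change D (x.1.1 : A) ∈ C
      rw [eq_neg_of_add_eq_zero_left h1]
      exact C.neg_mem x.1.2.2
    · rintro ⟨⟨h, c⟩, hx⟩
      have h1 : D (h : A) + (c : A) = 0 := hx
      refine Subtype.ext (Prod.ext rfl (Subtype.ext ?_))
      exact (eq_neg_of_add_eq_zero_right h1).symm

/-- Between `X` and `Y` with `[Y : X] = p` there is nothing. -/
lemma eq_or_eq_of_card {p : ℕ} (hp : p.Prime) {X Z Y : AddSubgroup A} (hX : Nat.card X ≠ 0)
    (h : Nat.card Y = p * Nat.card X) (h1 : X ≤ Z) (h2 : Z ≤ Y) : Z = X ∨ Z = Y := by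
  obtain ⟨a, ha⟩ := AddSubgroup.card_dvd_of_le h1
  obtain ⟨b, hb⟩ := AddSubgroup.card_dvd_of_le h2
  have hY : Nat.card Y ≠ 0 := by
    rw [h]
    exact mul_ne_zero hp.ne_zero hX
  have hab : a * b = p := by
    apply Nat.eq_of_mul_eq_mul_left (Nat.pos_of_ne_zero hX)
    rw [← mul_assoc, ← ha, ← hb, h, mul_comm]
  have hZ : Nat.card Z ≠ 0 := fun h0 => hY (by rw [hb, h0, zero_mul])
  have fZ : Finite Z := Nat.finite_of_card_ne_zero hZ
  have fY : Finite Y := Nat.finite_of_card_ne_zero hY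
  rcases (Nat.dvd_prime hp).mp (Dvd.intro b hab) with h3 | h3
  · left
    symm
    apply AddSubgroup.eq_of_le_of_card_ge h1
    rw [ha, h3, mul_one]
  · right
    apply AddSubgroup.eq_of_le_of_card_ge h2
    rw [h, ha, h3, mul_comm]

/-- Between `X` and `Y` with `[Y : X] = p²`. -/
lemma card_of_lt_of_lt {p : ℕ} (hp : p.Prime) {X Z Y : AddSubgroup A} (hX : Nat.card X ≠ 0)
    (h : Nat.card Y = p ^ 2 * Nat.card X) (h1 : X < Z) (h2 : Z < Y) :
    Nat.card Z = p * Nat.card X := by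
  obtain ⟨a, ha⟩ := AddSubgroup.card_dvd_of_le h1.le
  obtain ⟨b, hb⟩ := AddSubgroup.card_dvd_of_le h2.le
  have hY : Nat.card Y ≠ 0 := by
    rw [h]
    exact mul_ne_zero (pow_ne_zero 2 hp.ne_zero) hX
  have hab : a * b = p ^ 2 := by
    apply Nat.eq_of_mul_eq_mul_left (Nat.pos_of_ne_zero hX)
    rw [← mul_assoc, ← ha, ← hb, h, mul_comm]
  have hZ : Nat.card Z ≠ 0 := fun h0 => hY (by rw [hb, h0, zero_mul])
  have fZ : Finite Z := Nat.finite_of_card_ne_zero hZ
  have fY : Finite Y := Nat.finite_of_card_ne_zero hY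
  obtain ⟨i, hi, rfl⟩ := (Nat.dvd_prime_pow hp).mp (Dvd.intro b hab)
  interval_cases i
  · exact absurd (AddSubgroup.eq_of_le_of_card_ge h1.le (by rw [ha, pow_zero, mul_one])) h1.ne
  · rw [ha, pow_one, mul_comm]
  · exact absurd (AddSubgroup.eq_of_le_of_card_ge h2.le (by rw [ha, h, mul_comm])) h2.ne

/-- **Elements outside `F`.** -/
lemma exists_notMem {p : ℕ} (hp : p.Prime) (hdiv : ∀ x : A, ∃ y : A, p • y = x)
    (hcard : ∀ m : ℕ, Nat.card {x : A // p ^ m • x = 0} = (p ^ m) ^ 2) {C F : AddSubgroup A}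
    {c k n : ℕ} (hC : Nat.card C = p ^ c) (hF : Nat.card F = p ^ (c + k))
    (hk : k < n) (D : A →+ A) (hD : ∀ x ∈ F, D x ∈ C)
    (hfix : p ^ n ≤ Nat.card {x : A // p ^ n • x = 0 ∧ D x = 0}) :
    ∃ z ∈ lvl F p, D z ∈ C ∧ z ∉ F := by
  by_contra hcon
  push Not at hcon
  have hdiv' : ∀ m : ℕ, ∀ x : A, ∃ y : A, p ^ m • y = x := by
    intro m
    induction m with
    | zero => exact fun x => ⟨x, by rw [pow_zero, one_smul]⟩
    | succ m ih =>
      intro x
      obtain ⟨y, hy⟩ := ih x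
      obtain ⟨z, hz⟩ := hdiv y
      exact ⟨z, by rw [pow_succ, mul_smul, hz, hy]⟩
  -- (1) `D z ∈ C` and `pᵐ z ∈ F` imply `z ∈ F`
  have h1 : ∀ m : ℕ, ∀ z : A, p ^ m • z ∈ F → D z ∈ C → z ∈ F := by
    intro m
    induction m with
    | zero =>
      intro z hz _
      rwa [pow_zero, one_smul] at hz
    | succ m ih =>
      intro z hz hDz
      refine ih z (hcon _ ?_ ?_) hDz
      · rw [mem_lvl, smul_smul, ← pow_succ']
        exact hz
      · rw [map_nsmul]
        exact C.nsmul_mem hDz _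
  -- (2) counting at the level `c`
  have hkr : kr D (lvl F (p ^ c)) C = F := by
    refine le_antisymm (fun z hz => h1 c z hz.1 hz.2) fun z hz => ⟨le_lvl F _ hz, hD z hz⟩
  have hF0 : Nat.card F ≠ 0 := by
    rw [hF]
    exact pow_ne_zero _ hp.ne_zero
  have hC0 : Nat.card C ≠ 0 := by
    rw [hC]
    exact pow_ne_zero _ hp.ne_zero
  have hcnt := card_im_mul_card_kr D (lvl F (p ^ c)) C
  rw [hkr, card_lvl (hdiv' c) (hcard c), mul_right_comm] at hcnt
  have him : Nat.card (im D (lvl F (p ^ c)) C) = Nat.card (lvl C (p ^ c)) := by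
    rw [card_lvl (hdiv' c) (hcard c)]
    exact Nat.eq_of_mul_eq_mul_right (Nat.pos_of_ne_zero hF0) hcnt
  have hle : im D (lvl F (p ^ c)) C ≤ lvl C (p ^ c) := by
    intro x hx
    obtain ⟨h, hh, c', hc', rfl⟩ := mem_im.mp hx
    rw [mem_lvl, smul_add, ← map_nsmul]
    exact C.add_mem (hD _ hh) (C.nsmul_mem hc' _)
  have hfl : Finite (lvl C (p ^ c)) := Nat.finite_of_card_ne_zero (by
    rw [card_lvl (hdiv' c) (hcard c)]
    exact mul_ne_zero (pow_ne_zero _ (pow_ne_zero _ hp.ne_zero)) hC0)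
  have heq : im D (lvl F (p ^ c)) C = lvl C (p ^ c) :=
    AddSubgroup.eq_of_le_of_card_ge hle him.ge
  -- (3) `D F = C`
  have hDF : C ≤ F.map D := by
    intro x hx
    obtain ⟨y, hy⟩ := hdiv' c x
    have hy1 : y ∈ lvl C (p ^ c) := by
      rw [mem_lvl, hy]
      exact hx
    rw [← heq, mem_im] at hy1
    obtain ⟨h, hh, c', hc', h2⟩ := hy1
    refine ⟨p ^ c • h, hh, ?_⟩
    have h3 : p ^ c • c' = 0 := by
      have h4 : Nat.card C • (⟨c', hc'⟩ : C) = 0 := card_nsmul_eq_zero'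
      rw [hC] at h4
      exact congrArg Subtype.val h4
    rw [map_nsmul, ← hy, ← h2, smul_add, h3, add_zero]
  -- (4) the elements of `F` killed by `D`
  have hfF : Finite F := Nat.finite_of_card_ne_zero hF0
  have h5 := card_range_mul_card_ker (D.comp F.subtype)
  have h6 : (D.comp F.subtype).range = C := by
    refine le_antisymm ?_ ?_
    · rintro _ ⟨x, rfl⟩
      exact hD x x.2
    · intro x hx
      obtain ⟨y, hy, rfl⟩ := hDF hx
      exact ⟨⟨y, hy⟩, rfl⟩
  rw [h6, hC, hF, pow_add] at h5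
  have h7 := Nat.eq_of_mul_eq_mul_left (pow_pos hp.pos c) h5
  have h8 : Nat.card {x : A // p ^ n • x = 0 ∧ D x = 0} ≤ Nat.card (D.comp F.subtype).ker := by
    refine Nat.card_le_card_of_injective
      (fun x => (⟨⟨x.1, h1 n x.1 (by rw [x.2.1]; exact F.zero_mem)
        (by rw [x.2.2]; exact C.zero_mem)⟩, x.2.2⟩ : (D.comp F.subtype).ker)) ?_
    intro x y hxy
    exact Subtype.ext (congrArg (fun z : (D.comp F.subtype).ker => ((z : F) : A)) hxy)
  rw [h7] at h8
  exact absurd (hfix.trans h8) (not_le.mpr (Nat.pow_lt_pow_right hp.one_lt hk))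

/-! ### The step -/

section Step

variable {G : Type*} [Group G] [DistribMulAction G A]

/-- `x ↦ g x - x`. -/
def dif (g : G) : A →+ A := DistribSMul.toAddMonoidHom A g - AddMonoidHom.id A

omit [Group G] [DistribMulAction G A] in
lemma dif_def {G : Type*} [Group G] [DistribMulAction G A] (g : G) (x : A) :
    dif g x = g • x - x := rfl

lemma dif_mul (g h : G) (x : A) : dif (g * h) x = dif g (x + dif h x) + dif h x := by
  simp only [dif_def, mul_smul, smul_add, smul_sub]
  abel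

/-- The pairs `C ≤ F` of finite `p`-groups with a trivial action on `F / C`. -/
structure Pair (G : Type*) {A : Type*} [AddCommGroup A] [Group G] [DistribMulAction G A] (p : ℕ)
    (C F : AddSubgroup A) (c k : ℕ) : Prop where
  le : C ≤ F
  cardC : Nat.card C = p ^ c
  cardF : Nat.card F = p ^ (c + k)
  dif : ∀ g : G, ∀ x ∈ F, dif g x ∈ C

theorem Pair.step {p : ℕ} (hp : p.Prime) (hdiv : ∀ x : A, ∃ y : A, p • y = x)
    (hcard : ∀ m : ℕ, Nat.card {x : A // p ^ m • x = 0} = (p ^ m) ^ 2) {C F : AddSubgroup A}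
    {c k n : ℕ} (hP : Pair G p C F c k) (hk : k < n)
    (hfix : ∀ g : G, p ^ n ≤ Nat.card {x : A // p ^ n • x = 0 ∧ g • x = x}) :
    ∃ (C' F' : AddSubgroup A) (c' k' : ℕ), k < k' ∧ Pair G p C' F' c' k' := by
  have hF0 : Nat.card F ≠ 0 := by
    rw [hP.cardF]
    exact pow_ne_zero _ hp.ne_zero
  have hC0 : Nat.card C ≠ 0 := by
    rw [hP.cardC]
    exact pow_ne_zero _ hp.ne_zero
  have hcard1 : Nat.card {x : A // p • x = 0} = p ^ 2 := by
    have := hcard 1
    simpa only [pow_one] using this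
  set H := lvl F p with hH
  have hHc : Nat.card H = p ^ 2 * Nat.card F := card_lvl hdiv hcard1 F
  have hPc : Nat.card (lvl C p) = p ^ 2 * Nat.card C := card_lvl hdiv hcard1 C
  have hH0 : Nat.card H ≠ 0 := by
    rw [hHc]
    exact mul_ne_zero (pow_ne_zero 2 hp.ne_zero) hF0
  have hFH : F ≤ H := le_lvl F p
  have fH : Finite H := Nat.finite_of_card_ne_zero hH0
  have fF : Finite F := Nat.finite_of_card_ne_zero hF0
  have fC : Finite C := Nat.finite_of_card_ne_zero hC0
  -- the subgroups `K g` and `J g`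
  let K : G → AddSubgroup A := fun g => kr (Katz.dif g) H C
  let J : G → AddSubgroup A := fun g => im (Katz.dif g) H C
  have hKH : ∀ g, K g ≤ H := fun g => inf_le_left
  have hFK : ∀ g, F ≤ K g := fun g x hx => ⟨hFH hx, hP.dif g x hx⟩
  have hex : ∀ g, ∃ z ∈ K g, z ∉ F := by
    intro g
    obtain ⟨z, h1, h2, h3⟩ := exists_notMem hp hdiv hcard hP.cardC hP.cardF hk (Katz.dif g)
      (hP.dif g) (by
        refine (hfix g).trans_eq (Nat.card_congr (Equiv.subtypeEquivRight fun x => ?_))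
        rw [dif_def, sub_eq_zero])
    exact ⟨z, ⟨h1, h2⟩, h3⟩
  have hFKlt : ∀ g, F < K g := fun g => by
    obtain ⟨z, h1, h2⟩ := hex g
    exact lt_of_le_of_ne (hFK g) fun h => h2 (by rw [h]; exact h1)
  have hKc : ∀ g, K g ≠ H → Nat.card (K g) = p * Nat.card F := fun g hg =>
    card_of_lt_of_lt hp hF0 hHc (hFKlt g) (lt_of_le_of_ne (hKH g) hg)
  have hJK : ∀ g, Nat.card (J g) * Nat.card (K g) = Nat.card H * Nat.card C := fun g =>
    card_im_mul_card_kr (Katz.dif g) H C
  have hCJ : ∀ g, C ≤ J g := fun g => le_sup_right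
  have hJP : ∀ g, J g ≤ lvl C p := by
    intro g x hx
    obtain ⟨h, hh, c', hc', rfl⟩ := mem_im.mp hx
    rw [mem_lvl, smul_add, ← map_nsmul]
    exact C.add_mem (hP.dif g _ hh) (C.nsmul_mem hc' _)
  have hPH : lvl C p ≤ H := lvl_mono hP.le p
  have hJc : ∀ g, K g ≠ H → Nat.card (J g) = p * Nat.card C := by
    intro g hg
    have h1 := hJK g
    rw [hKc g hg, hHc] at h1
    apply Nat.eq_of_mul_eq_mul_right (Nat.mul_pos hp.pos (Nat.pos_of_ne_zero hF0))
    rw [h1]
    ring
  have hJC : ∀ g, K g = H → J g = C := by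
    intro g hg
    have h1 := hJK g
    rw [hg, mul_comm] at h1
    have h2 := Nat.eq_of_mul_eq_mul_left (Nat.pos_of_ne_zero hH0) h1
    have fJ : Finite (J g) := Nat.finite_of_card_ne_zero (by rw [h2]; exact hC0)
    exact (AddSubgroup.eq_of_le_of_card_ge (hCJ g) h2.le).symm
  by_cases hcase : ∃ z ∈ H, z ∉ F ∧ ∀ g : G, Katz.dif g z ∈ C
  · -- a common element
    obtain ⟨z, hz, hzF, hzC⟩ := hcase
    let F' : AddSubgroup A := H ⊓ ⨅ g : G, C.comap (Katz.dif g)
    have hF' : ∀ x, x ∈ F' ↔ x ∈ H ∧ ∀ g : G, Katz.dif g x ∈ C := by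
      intro x
      rw [AddSubgroup.mem_inf, AddSubgroup.mem_iInf]
      rfl
    have h1 : F ≤ F' := fun x hx => (hF' x).mpr ⟨hFH hx, fun g => hP.dif g x hx⟩
    have h2 : F < F' := lt_of_le_of_ne h1 fun h =>
      hzF (by rw [h]; exact (hF' z).mpr ⟨hz, hzC⟩)
    have h3 : F' ≤ H := inf_le_left
    by_cases h4 : F' = H
    · refine ⟨C, F', c, k + 2, by omega, ⟨hP.le.trans h1, hP.cardC, ?_, fun g x hx =>
        ((hF' x).mp hx).2 g⟩⟩
      rw [h4, hHc, hP.cardF]
      ring
    · refine ⟨C, F', c, k + 1, by omega, ⟨hP.le.trans h1, hP.cardC, ?_, fun g x hx =>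
        ((hF' x).mp hx).2 g⟩⟩
      rw [card_of_lt_of_lt hp hF0 hHc h2 (lt_of_le_of_ne h3 h4), hP.cardF]
      ring
  · -- a common image
    push Not at hcase
    -- the pair lemma
    have hpair : ∀ g h : G, K g ≠ H → K h ≠ H → K g ≠ K h → J g = J h := by
      intro g h hg hh hne
      by_contra hJ
      have h1 : K g ⊓ K h = F := by
        rcases eq_or_eq_of_card hp hF0 (hKc g hg) (le_inf (hFK g) (hFK h)) inf_le_left with h1 | h1
        · exact h1
        · exfalso
          have h2 : K g ≤ K h := by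
            rw [← h1]
            exact inf_le_right
          have fK : Finite (K h) := Nat.finite_of_card_ne_zero (by
            rw [hKc h hh]
            exact mul_ne_zero hp.ne_zero hF0)
          exact hne (AddSubgroup.eq_of_le_of_card_ge h2 (by rw [hKc g hg, hKc h hh]))
      have h2 : J g ⊓ J h = C := by
        rcases eq_or_eq_of_card hp hC0 (hJc g hg) (le_inf (hCJ g) (hCJ h)) inf_le_left with h2 | h2
        · exact h2
        · exfalso
          have h3 : J g ≤ J h := by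
            rw [← h2]
            exact inf_le_right
          have fJ : Finite (J h) := Nat.finite_of_card_ne_zero (by
            rw [hJc h hh]
            exact mul_ne_zero hp.ne_zero hC0)
          exact hJ (AddSubgroup.eq_of_le_of_card_ge h3 (by rw [hJc g hg, hJc h hh]))
      obtain ⟨z, ⟨hzH, hzC⟩, hzF⟩ := hex (g * h)
      have hzC' : Katz.dif g (z + Katz.dif h z) + Katz.dif h z ∈ C := by
        rw [← dif_mul]
        exact hzC
      set w := Katz.dif h z with hw
      have hwJ : w ∈ J h := mem_im.mpr ⟨z, hzH, 0, C.zero_mem, add_zero _⟩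
      have hwH : w ∈ H := hPH (hJP h hwJ)
      set u := Katz.dif g (z + w) with hu
      have huJ : u ∈ J g := mem_im.mpr ⟨z + w, H.add_mem hzH hwH, 0, C.zero_mem, add_zero _⟩
      have hwJg : w ∈ J g := by
        have e : w = (u + w) - u := by abel
        rw [e]
        exact (J g).sub_mem (hCJ g hzC') huJ
      have hwC : w ∈ C := by
        rw [← h2]
        exact ⟨hwJg, hwJ⟩
      have huC : u ∈ C := by
        have e : u = (u + w) - w := by abel
        rw [e]
        exact C.sub_mem hzC' hwC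
      have hzg : z ∈ K g := by
        have e : z = (z + w) - w := by abel
        rw [e]
        exact (K g).sub_mem ⟨H.add_mem hzH hwH, huC⟩ (hFK g (hP.le hwC))
      exact hzF (by rw [← h1]; exact ⟨hzg, hzH, hwC⟩)
    -- two elements with different kernels
    have hnot : ∀ z ∈ H, z ∉ F → ∃ g : G, z ∉ K g := by
      intro z hz hzF
      obtain ⟨g, hg⟩ := hcase z hz hzF
      exact ⟨g, fun h => hg h.2⟩
    obtain ⟨z₀, hz₀, hz₀F⟩ := hex 1
    obtain ⟨g₁, hg₁⟩ := hnot z₀ (hKH 1 hz₀) hz₀F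
    have hne₁ : K g₁ ≠ H := fun h => hg₁ (by rw [h]; exact hKH 1 hz₀)
    obtain ⟨z₁, hz₁, hz₁F⟩ := hex g₁
    obtain ⟨g₂, hg₂⟩ := hnot z₁ (hKH g₁ hz₁) hz₁F
    have hne₂ : K g₂ ≠ H := fun h => hg₂ (by rw [h]; exact hKH g₁ hz₁)
    have h12 : K g₁ ≠ K g₂ := fun h => hg₂ (by rw [← h]; exact hz₁)
    have hJall : ∀ g : G, J g ≤ J g₁ := by
      intro g
      by_cases hg : K g = H
      · rw [hJC g hg]
        exact hCJ g₁
      · by_cases h3 : K g = K g₁
        · have h4 : K g ≠ K g₂ := by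
            rw [h3]
            exact h12
          rw [hpair g g₂ hg hne₂ h4, hpair g₁ g₂ hne₁ hne₂ h12]
        · rw [hpair g g₁ hg hne₁ h3]
    refine ⟨J g₁, H, c + 1, k + 1, by omega, ⟨(hJP g₁).trans hPH, ?_, ?_, fun g x hx =>
      hJall g (mem_im.mpr ⟨x, hx, 0, C.zero_mem, add_zero _⟩)⟩⟩
    · rw [hJc g₁ hne₁, hP.cardC]
      ring
    · rw [hHc, hP.cardF]
      ring

/-- **The group theory of Katz's theorem.** -/
theorem exists_pair {p : ℕ} (hp : p.Prime) (hdiv : ∀ x : A, ∃ y : A, p • y = x)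
    (hcard : ∀ m : ℕ, Nat.card {x : A // p ^ m • x = 0} = (p ^ m) ^ 2) (n : ℕ)
    (hfix : ∀ g : G, p ^ n ≤ Nat.card {x : A // p ^ n • x = 0 ∧ g • x = x}) :
    ∃ (C F : AddSubgroup A) (c k : ℕ), n ≤ k ∧ Pair G p C F c k := by
  have key : ∀ j ≤ n, ∃ (C F : AddSubgroup A) (c k : ℕ), j ≤ k ∧ Pair G p C F c k := by
    intro j
    induction j with
    | zero =>
      intro _
      refine ⟨⊥, ⊥, 0, 0, le_rfl, ⟨le_rfl, ?_, ?_, fun g x hx => ?_⟩⟩
      · rw [AddSubgroup.card_bot, pow_zero]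
      · rw [AddSubgroup.card_bot, pow_zero]
      · rw [AddSubgroup.mem_bot] at hx ⊢
        rw [hx, map_zero]
    | succ j ih =>
      intro hj
      obtain ⟨C, F, c, k, hjk, hP⟩ := ih (by omega)
      by_cases hk : j + 1 ≤ k
      · exact ⟨C, F, c, k, hk, hP⟩
      · obtain ⟨C', F', c', k', hk', hP'⟩ := hP.step hp hdiv hcard (n := n) (by omega) hfix
        exact ⟨C', F', c', k', by omega, hP'⟩
  exact key n le_rfl

end Step

/-! ### All orders -/

/-- Subgroups of a finite `p`-group. -/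
lemma exists_between {p : ℕ} [Fact p.Prime] {C F : AddSubgroup A} (hCF : C ≤ F) {c k n : ℕ}
    (hC : Nat.card C = p ^ c) (hF : Nat.card F = p ^ (c + k)) (hn : n ≤ k) :
    ∃ F' : AddSubgroup A, C ≤ F' ∧ F' ≤ F ∧ Nat.card F' = p ^ (c + n) := by
  have hfin : Finite F := Nat.finite_of_card_ne_zero (by
    rw [hF]
    exact pow_ne_zero _ (Fact.out (p := p.Prime)).ne_zero)
  have hfin' : Finite (Multiplicative F) := hfin
  have h1 : Nat.card (Multiplicative F) = p ^ (c + k) := hF
  have h2 : Nat.card (AddSubgroup.toSubgroup (C.addSubgroupOf F)) = p ^ c := by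
    rw [← hC]
    exact Nat.card_congr (AddSubgroup.addSubgroupOfEquivOfLe hCF).toEquiv
  obtain ⟨K, hK, hle⟩ := Sylow.exists_subgroup_card_pow_prime_le (G := Multiplicative F) p
    (n := c) (m := c + n) (by rw [h1]; exact pow_dvd_pow p (by omega))
    (AddSubgroup.toSubgroup (C.addSubgroupOf F)) h2 (by omega)
  refine ⟨(AddSubgroup.toSubgroup.symm K).map F.subtype, ?_, ?_, ?_⟩
  · intro x hx
    exact ⟨⟨x, hCF hx⟩, hle (show (⟨x, hCF hx⟩ : F) ∈ C.addSubgroupOf F from hx), rfl⟩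
  · rintro _ ⟨x, -, rfl⟩
    exact x.2
  · rw [← hK]
    exact (Nat.card_congr
      ((AddSubgroup.toSubgroup.symm K).equivMapOfInjective F.subtype
        F.subtype_injective).toEquiv).symm

/-- Sums of subgroups of coprime orders. -/
lemma card_sup {F₁ F₂ : AddSubgroup A} (h : (Nat.card F₁).Coprime (Nat.card F₂)) :
    Nat.card (F₁ ⊔ F₂ : AddSubgroup A) = Nat.card F₁ * Nat.card F₂ := by
  have h1 := card_im_mul_card_kr (AddMonoidHom.id A) F₁ F₂
  have h2 : im (AddMonoidHom.id A) F₁ F₂ = F₁ ⊔ F₂ := by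
    rw [im, AddSubgroup.map_id]
  have h3 : kr (AddMonoidHom.id A) F₁ F₂ = F₁ ⊓ F₂ := rfl
  have h4 : Nat.card (F₁ ⊓ F₂ : AddSubgroup A) = 1 :=
    Nat.eq_one_of_dvd_coprimes h (AddSubgroup.card_dvd_of_le inf_le_left)
      (AddSubgroup.card_dvd_of_le inf_le_right)
  rw [h2, h3, h4, mul_one] at h1
  exact h1

section Triv

variable {G : Type*} [Group G] [DistribMulAction G A]

/-- Finite subgroups `C ≤ F` with `[F : C] = m` and a trivial action on `F / C`. -/
structure Triv (G : Type*) {A : Type*} [AddCommGroup A] [Group G] [DistribMulAction G A] (m : ℕ)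
    (C F : AddSubgroup A) : Prop where
  fin : Finite F
  le : C ≤ F
  card : Nat.card F = m * Nat.card C
  dif : ∀ g : G, ∀ x ∈ F, g • x - x ∈ C

lemma Triv.finC {m : ℕ} {C F : AddSubgroup A} (h : Triv G m C F) : Finite C :=
  have := h.fin
  Finite.of_injective (AddSubgroup.inclusion h.le) (AddSubgroup.inclusion_injective h.le)

/-- `C` is stable. -/
lemma Triv.smul_mem {m : ℕ} {C F : AddSubgroup A} (h : Triv G m C F) (g : G) {x : A}
    (hx : x ∈ C) : g • x ∈ C := by
  have e : g • x = (g • x - x) + x := by abel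
  rw [e]
  exact C.add_mem (h.dif g x (h.le hx)) hx

lemma Triv.sup {a b : ℕ} {C₁ C₂ F₁ F₂ : AddSubgroup A} (h₁ : Triv G a C₁ F₁)
    (h₂ : Triv G b C₂ F₂) (h : (Nat.card F₁).Coprime (Nat.card F₂)) :
    Triv G (a * b) (C₁ ⊔ C₂) (F₁ ⊔ F₂) := by
  have hC : (Nat.card C₁).Coprime (Nat.card C₂) :=
    Nat.Coprime.of_dvd (AddSubgroup.card_dvd_of_le h₁.le) (AddSubgroup.card_dvd_of_le h₂.le) h
  have f₁ := h₁.fin
  have f₂ := h₂.fin
  refine ⟨Nat.finite_of_card_ne_zero ?_, sup_le_sup h₁.le h₂.le, ?_, ?_⟩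
  · rw [card_sup h]
    exact mul_ne_zero Nat.card_pos.ne' Nat.card_pos.ne'
  · rw [card_sup h, card_sup hC, h₁.card, h₂.card]
    ring
  · intro g x hx
    obtain ⟨x₁, hx₁, x₂, hx₂, rfl⟩ := AddSubgroup.mem_sup.mp hx
    have e : g • (x₁ + x₂) - (x₁ + x₂) = (g • x₁ - x₁) + (g • x₂ - x₂) := by
      rw [smul_add]
      abel
    rw [e]
    exact AddSubgroup.add_mem_sup (h₁.dif g x₁ hx₁) (h₂.dif g x₂ hx₂)

/-- The number of elements of `F` fixed by `g` is divisible by `[F : C]`. -/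
lemma Triv.dvd_card_fixed {m : ℕ} {C F : AddSubgroup A} (h : Triv G m C F) (g : G) :
    m ∣ Nat.card ((Katz.dif g).comp F.subtype : F →+ A).ker := by
  have fF := h.fin
  have fC := h.finC
  set f : F →+ A := (Katz.dif g).comp F.subtype with hf
  have h1 := card_range_mul_card_ker f
  have h2 : f.range ≤ C := by
    rintro _ ⟨x, rfl⟩
    exact h.dif g x x.2
  obtain ⟨e, he⟩ := AddSubgroup.card_dvd_of_le h2
  have h3 : Nat.card f.range ≠ 0 := fun h0 => by
    rw [h0, zero_mul] at he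
    exact Nat.card_pos.ne' he
  rw [h.card, he, mul_left_comm] at h1
  exact ⟨e, Nat.eq_of_mul_eq_mul_left (Nat.pos_of_ne_zero h3) h1⟩

end Triv

end Fermat.Agent.Cor.Katz
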