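import Fermat.Agent.Corollaries.Katz.Odd
import Fermat.Agent.Corollaries.Katz.Lattice

/-!
# The number of points of `W[pⁿ]` fixed by an element of Galois

* `card_ker_mulVec` : a singular `2 × 2` matrix over `ℤ/pⁿ` kills at least `pⁿ` vectors;
* `card_fixed_ge` : if `pⁿ` divides the number of points of `W` modulo `ℓ` for a set of primes `ℓ`
  of density one, then every element of `Gal(ℚ̄/ℚ)` fixes at least `pⁿ` points of `W[pⁿ]`.
-/

set_option autoImplicit false

noncomputable section

open Matrix WeierstrassCurve WeierstrassCurve.Affine WeierstrassCurve.Affine.Point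
open Fermat.Agent.Tate Fermat.Agent.S30aux

namespace Fermat.Agent.Cor.Katz

open Fermat.Agent.Classic
open Fermat.Agent.Cor.K1 (Gam Pts)
open Fermat.Agent.Cor.Mazur (Pt)

section Ring

variable {R : Type*} [CommRing R]

/-- The solutions of two linear equations. -/
abbrev Sol (a b c d : R) : Type _ := {v : R × R // a * v.1 + b * v.2 = 0 ∧ c * v.1 + d * v.2 = 0}

lemma card_sol_swap (a b c d : R) : Nat.card (Sol a b c d) = Nat.card (Sol b a d c) :=
  Nat.card_congr
    { toFun := fun v => ⟨(v.1.2, v.1.1), by rw [add_comm]; exact v.2.1, by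
        rw [add_comm]; exact v.2.2⟩
      invFun := fun v => ⟨(v.1.2, v.1.1), by rw [add_comm]; exact v.2.1, by
        rw [add_comm]; exact v.2.2⟩
      left_inv := fun _ => rfl
      right_inv := fun _ => rfl }

lemma card_sol_rows (a b c d : R) : Nat.card (Sol a b c d) = Nat.card (Sol c d a b) :=
  Nat.card_congr
    { toFun := fun v => ⟨v.1, v.2.2, v.2.1⟩
      invFun := fun v => ⟨v.1, v.2.2, v.2.1⟩
      left_inv := fun _ => rfl
      right_inv := fun _ => rfl }

lemma card_sol_aux [Finite R] {a b c d : R} (h : a * d - b * c = 0) (hb : a ∣ b) (hc : a ∣ c)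
    (hd : a ∣ d) : Nat.card R ≤ Nat.card (Sol a b c d) := by
  obtain ⟨b, rfl⟩ := hb
  obtain ⟨c, rfl⟩ := hc
  obtain ⟨d, rfl⟩ := hd
  let f : R →+ R := AddMonoidHom.mulLeft a
  rw [← card_range_mul_card_ker f, ← Nat.card_prod]
  refine Nat.card_le_card_of_injective
    (fun v : f.range × f.ker => (⟨((v.2 : R) - b * v.1, (v.1 : R)), ?_, ?_⟩ : Sol a _ _ _)) ?_
  · have h1 : a * (v.2 : R) = 0 := v.2.2
    linear_combination h1
  · have h1 : a * (v.2 : R) = 0 := v.2.2
    obtain ⟨r, hr⟩ := v.1.2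
    have h2 : a * r = (v.1 : R) := hr
    linear_combination c * h1 + r * h - (a * d - a * c * b) * h2
  · rintro ⟨⟨x, hx⟩, ⟨y, hy⟩⟩ ⟨⟨x', hx'⟩, ⟨y', hy'⟩⟩ he
    have h1 := congrArg (fun v : Sol a (a * b) (a * c) (a * d) => v.1) he
    simp only [Prod.mk.injEq] at h1
    obtain ⟨h2, rfl⟩ := h1
    have h3 : y = y' := sub_left_injective h2
    subst h3
    rfl

/-- Over a finite ring in which divisibility is total. -/
lemma card_sol [Finite R] (htot : ∀ x y : R, x ∣ y ∨ y ∣ x) {a b c d : R} (h : a * d - b * c = 0) :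
    Nat.card R ≤ Nat.card (Sol a b c d) := by
  rcases htot a b with h1 | h1 <;> rcases htot c d with h2 | h2
  · rcases htot a c with h3 | h3
    · exact card_sol_aux h h1 h3 (h3.trans h2)
    · rw [card_sol_rows]
      exact card_sol_aux (by linear_combination -h) h2 h3 (h3.trans h1)
  · rcases htot a d with h3 | h3
    · exact card_sol_aux h h1 (h3.trans h2) h3
    · rw [card_sol_rows, card_sol_swap]
      exact card_sol_aux (by linear_combination h) h2 (h3.trans h1) h3
  · rcases htot b c with h3 | h3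
    · rw [card_sol_swap]
      exact card_sol_aux (by linear_combination -h) h1 (h3.trans h2) h3
    · rw [card_sol_rows]
      exact card_sol_aux (by linear_combination -h) h2 (h3.trans h1) h3
  · rcases htot b d with h3 | h3
    · rw [card_sol_swap]
      exact card_sol_aux (by linear_combination -h) h1 h3 (h3.trans h2)
    · rw [card_sol_rows, card_sol_swap]
      exact card_sol_aux (by linear_combination h) h2 h3 (h3.trans h1)

/-- **A singular `2 × 2` matrix kills many vectors.** -/
theorem card_ker_mulVec [Finite R] (htot : ∀ x y : R, x ∣ y ∨ y ∣ x)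
    {M : Matrix (Fin 2) (Fin 2) R} (h : M.det = 0) :
    Nat.card R ≤ Nat.card {v : Fin 2 → R // M *ᵥ v = 0} := by
  rw [Matrix.det_fin_two] at h
  refine (card_sol htot h).trans_eq (Nat.card_congr ?_)
  exact
    { toFun := fun v => ⟨![v.1.1, v.1.2], by
        ext i
        fin_cases i
        · simpa [Matrix.mulVec, dotProduct, Fin.sum_univ_two] using v.2.1
        · simpa [Matrix.mulVec, dotProduct, Fin.sum_univ_two] using v.2.2⟩
      invFun := fun v => ⟨(v.1 0, v.1 1), by
        simpa [Matrix.mulVec, dotProduct, Fin.sum_univ_two] using congrFun v.2 0, by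
        simpa [Matrix.mulVec, dotProduct, Fin.sum_univ_two] using congrFun v.2 1⟩
      left_inv := fun v => rfl
      right_inv := fun v => Subtype.ext (by
        ext i
        fin_cases i <;> rfl) }

end Ring

/-- Divisibility in `ℤ/pⁿ` is total. -/
lemma zmod_dvd_total {p : ℕ} [Fact p.Prime] {n : ℕ} (a b : ZMod (p ^ n)) : a ∣ b ∨ b ∣ a := by
  obtain ⟨a, rfl⟩ := ZMod.ringHom_surjective (PadicInt.toZModPow (p := p) n) a
  obtain ⟨b, rfl⟩ := ZMod.ringHom_surjective (PadicInt.toZModPow (p := p) n) b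
  rcases ValuationRing.dvd_total a b with h | h
  · exact Or.inl (map_dvd _ h)
  · exact Or.inr (map_dvd _ h)

variable {W : WeierstrassCurve ℤ}

/-- **Fixed points.** -/
theorem card_fixed_ge (hΔ : W.Δ ≠ 0) {p : ℕ} [hp : Fact p.Prime] {n : ℕ}
    (h : HasDirichletDensity {ℓ | p ^ n ∣ (W.reductionMod ℓ).card} 1) (σ : Gam) :
    p ^ n ≤ Nat.card {x : Pt W // p ^ n • x = 0 ∧ σ • x = x} := by
  obtain ⟨X⟩ := exists_tb (p := p) hΔ
  have h1 : HasDirichletDensity
      {ℓ | ((W.apOfModel ℓ : ℤ) : ZMod (p ^ n)) = 1 + (ℓ : ZMod (p ^ n))} 1 :=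
    h.congr_of_finset ∅ fun ℓ _ _ => dvd_card_iff'
  have htr : (rhoN X n σ : Matrix (Fin 2) (Fin 2) (ZMod (p ^ n))).trace =
      1 + (rhoN X n σ : Matrix (Fin 2) (Fin 2) (ZMod (p ^ n))).det :=
    of_dens_one X n hΔ (P := fun x y => x = 1 + y) h1 σ
  set M := (rhoN X n σ : Matrix (Fin 2) (Fin 2) (ZMod (p ^ n))) with hM
  have hdet : (M - 1).det = 0 := by
    rw [Matrix.det_fin_two, Matrix.trace_fin_two] at htr
    rw [Matrix.det_fin_two]
    simp only [Matrix.sub_apply, Matrix.one_apply_eq, Matrix.one_apply_ne (zero_ne_one),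
      Matrix.one_apply_ne (one_ne_zero), sub_zero]
    linear_combination -htr
  have hfin : Finite (ZMod (p ^ n)) := by
    have : NeZero (p ^ n) := ⟨pow_ne_zero n hp.out.ne_zero⟩
    infer_instance
  have h2 := card_ker_mulVec zmod_dvd_total hdet
  rw [Nat.card_zmod] at h2
  have hfx : Finite {x : Pt W // p ^ n • x = 0 ∧ σ • x = x} := by
    have h1 : Finite {P : Pt W // p ^ n • P = 0} := by
      have hΔ' : ((W.map (Int.castRingHom ℚ))⁄(AlgebraicClosure ℚ) :
          WeierstrassCurve (AlgebraicClosure ℚ)).Δ ≠ 0 := by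
        rw [show ((W.map (Int.castRingHom ℚ))⁄(AlgebraicClosure ℚ) :
          WeierstrassCurve (AlgebraicClosure ℚ)) =
          (W.map (Int.castRingHom ℚ)).map (algebraMap ℚ (AlgebraicClosure ℚ)) from rfl,
          WeierstrassCurve.map_Δ]
        simpa using map_Δ_ne hΔ
      have h2 : Nat.card {P : Pt W // p ^ n • P = 0} = (p ^ n) ^ 2 :=
        Torsion.card_torsion hΔ' (by exact_mod_cast pow_ne_zero n hp.out.ne_zero)
      exact Nat.finite_of_card_ne_zero (by
        rw [h2]; exact pow_ne_zero 2 (pow_ne_zero n hp.out.ne_zero))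
    exact Finite.of_injective
      (fun z : {x : Pt W // p ^ n • x = 0 ∧ σ • x = x} =>
        (⟨z, z.2.1⟩ : {P : Pt W // p ^ n • P = 0}))
      fun a b hab => Subtype.ext (congrArg (fun z : {P : Pt W // p ^ n • P = 0} => (z : Pt W)) hab)
  refine h2.trans (Nat.card_le_card_of_injective
    (fun v : {v : Fin 2 → ZMod (p ^ n) // (M - 1) *ᵥ v = 0} =>
      (⟨(((X.bn n).equivFun.symm v.1 : Submodule.torsionBy ℤ
        ((W.map (Int.castRingHom ℚ))⁄(AlgebraicClosure ℚ)).Point ((p ^ n : ℕ) : ℤ)) : Pt W),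
        ?_, ?_⟩ : {x : Pt W // p ^ n • x = 0 ∧ σ • x = x})) ?_)
  · have h1 := (Submodule.mem_torsionBy_iff _ _).mp ((X.bn n).equivFun.symm v.1).2
    rwa [natCast_zsmul] at h1
  · have hv : M *ᵥ v.1 = v.1 := by
      have := v.2
      rwa [Matrix.sub_mulVec, Matrix.one_mulVec, sub_eq_zero] at this
    have hT : LinearMap.toMatrix (X.bn n) (X.bn n)
        (galoisRepModuleEnd (K := AlgebraicClosure ℚ) ℚ (W.map (Int.castRingHom ℚ)) (p ^ n) σ) =
        M := X.map_M σ n
    have h3 : galoisRepModuleEnd (K := AlgebraicClosure ℚ) ℚ (W.map (Int.castRingHom ℚ)) (p ^ n) σ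
        ((X.bn n).equivFun.symm v.1) = (X.bn n).equivFun.symm v.1 := by
      apply (X.bn n).equivFun.injective
      have h4 := LinearMap.toMatrix_mulVec_repr (X.bn n) (X.bn n)
        (galoisRepModuleEnd (K := AlgebraicClosure ℚ) ℚ (W.map (Int.castRingHom ℚ)) (p ^ n) σ)
        ((X.bn n).equivFun.symm v.1)
      rw [hT] at h4
      have h5 : ((X.bn n).repr ((X.bn n).equivFun.symm v.1) : Fin 2 → ZMod (p ^ n)) = v.1 :=
        (X.bn n).equivFun.apply_symm_apply v.1
      rw [h5, hv] at h4
      rw [(X.bn n).equivFun.apply_symm_apply]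
      exact h4.symm
    exact congrArg (fun z : Submodule.torsionBy ℤ
      ((W.map (Int.castRingHom ℚ))⁄(AlgebraicClosure ℚ)).Point ((p ^ n : ℕ) : ℤ) => (z : Pt W)) h3
  · intro v w hvw
    have h1 := congrArg (fun z : {x : Pt W // p ^ n • x = 0 ∧ σ • x = x} => (z : Pt W)) hvw
    have h2 := (X.bn n).equivFun.symm.injective (Subtype.ext h1)
    exact Subtype.ext h2

end Fermat.Agent.Cor.Katz
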