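import Fermat.Agent.Corollaries.Surj.Open
import Fermat.Agent.Corollaries.Surj.Dens
import Fermat.Agent.Corollaries.Surj.NatDens
import Fermat.Agent.EC.TateFrob
import Fermat.Agent.EC.MultInertia
import Fermat.Agent.LT.Period.Cheb

/-!
# The distribution of `(a_ℓ, ℓ)` modulo a prime power

`W` is any elliptic curve over `ℚ`, `p` a prime, `n : ℕ`. The representation `rhoN X n` of
`Gal(ℚ̄/ℚ)` on `W[pⁿ]` in a basis (the reduction of a basis of the Tate module, `X : Tb W p`) has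
finite level, is unramified at the primes `ℓ ≠ p` of good reduction, and the Frobenius at `ℓ` has the
trace `a_ℓ` and the determinant `ℓ`.

* `dens_level`, `nat_dens_level` : the density of the primes `ℓ` for which `(a_ℓ, ℓ)` modulo `pⁿ`
  satisfies `P` is the proportion of the elements of the image of Galois in `GL₂(ℤ/pⁿ)` whose trace
  and determinant satisfy `P`;
* `of_dens_one` : if it is one, then all elements of the image satisfy `P`.
-/

set_option autoImplicit false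

noncomputable section

open Matrix WeierstrassCurve WeierstrassCurve.Affine WeierstrassCurve.Affine.Point
open Fermat.Agent.Tate Fermat.Agent.S30aux

namespace Fermat.Agent.Cor.Katz

open Fermat.Agent.Frob Fermat.Agent.FrobDensity

local notation "Γℚ" => (AlgebraicClosure ℚ ≃ₐ[ℚ] AlgebraicClosure ℚ)

variable {W : WeierstrassCurve ℤ} {p : ℕ} [hp : Fact p.Prime] (X : Tb W p) (n : ℕ)

local notation "Mn" => Matrix (Fin 2) (Fin 2) (ZMod (p ^ n))
local notation "GLn" => GL (Fin 2) (ZMod (p ^ n))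

/-- The representation on `W[pⁿ]` in a basis. -/
def rhoN : Γℚ →* GLn :=
  MonoidHom.toHomUnits (((PadicInt.toZModPow n).mapMatrix.toMonoidHom.comp X.M :
    Γℚ →* Matrix (Fin 2) (Fin 2) (ZMod (p ^ n))))

lemma rhoN_val (σ : Γℚ) : (rhoN X n σ : Mn) = (X.M σ).map (PadicInt.toZModPow n) := rfl

/-- Finite level. -/
theorem rhoN_level : ∃ L : IntermediateField ℚ (AlgebraicClosure ℚ), FiniteDimensional ℚ L ∧
    ∀ σ : Γℚ, (∀ x ∈ L, σ x = x) → rhoN X n σ = 1 := by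
  obtain ⟨L, hL, h⟩ := X.exists_level n
  refine ⟨L, hL, fun σ hσ => Units.ext ?_⟩
  rw [rhoN_val, Units.val_one,
    Tb.cg_iff_map.mp (h σ ((IntermediateField.mem_fixingSubgroup_iff L σ).mpr hσ))]
  exact Matrix.map_one _ (map_zero _) (map_one _)

/-- The matrix on the Tate module is the identity for `σ` in inertia at a good prime. -/
theorem M_inertia {ℓ : ℕ} (hℓ : ℓ.Prime) (hgood : W.IsGoodPrimeFor ℓ) (hne : ℓ ≠ p)
    {A : ValuationSubring (AlgebraicClosure ℚ)} (hA : A.LiesOverPrime ℓ) {σ : Γℚ}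
    (hσ : σ ∈ A.inertiaSubgroupIn ℚ) : X.M σ = 1 := by
  have h1 := tateRep_unramified X.hE p hℓ hgood hne A hA σ hσ
  change LinearMap.toMatrix X.b X.b (TMod.rep p _ _ σ) = 1
  have h2 : TMod.rep p (AlgebraicClosure ℚ ≃ₐ[ℚ] AlgebraicClosure ℚ)
    ((W.map (Int.castRingHom ℚ))⁄(AlgebraicClosure ℚ)).Point σ = 1 := h1
  rw [h2]
  exact LinearMap.toMatrix_one _

/-- The characteristic polynomial of Frobenius. -/
theorem M_frobenius {ℓ : ℕ} (hℓ : ℓ.Prime) (hgood : W.IsGoodPrimeFor ℓ) (hne : ℓ ≠ p)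
    {A : ValuationSubring (AlgebraicClosure ℚ)} (hA : A.LiesOverPrime ℓ) {σ : Γℚ}
    (hσ : A.IsFrobeniusAt σ ℓ) : (X.M σ).trace = ((W.apOfModel ℓ : ℤ) : ℤ_[p]) ∧
      (X.M σ).det = (ℓ : ℤ_[p]) := by
  have hT := hasTwoRank_curve X.hE p
  have hfree := hT.free
  have hfin := hT.finite_tmod
  have hFℓ : Fact ℓ.Prime := ⟨hℓ⟩
  have h1 := charpoly_tateRep_frobenius (p := p) X.hE hgood (Ne.symm hne) hA hσ
  have h2 : (X.M σ).charpoly =
      LinearMap.charpoly ((tateRep (W.map (Int.castRingHom ℚ)) X.hE p).ρ σ) :=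
    LinearMap.charpoly_toMatrix _ X.b
  rw [h1, Matrix.charpoly_fin_two] at h2
  have h3 := congrArg (fun f : Polynomial ℤ_[p] => f.coeff 0) h2
  have h4 := congrArg (fun f : Polynomial ℤ_[p] => f.coeff 1) h2
  simp only [Polynomial.coeff_add, Polynomial.coeff_sub, Polynomial.coeff_C_mul,
    Polynomial.coeff_X_pow, Polynomial.coeff_X_zero, Polynomial.coeff_X_one, Polynomial.coeff_C_zero,
    mul_zero, mul_one, sub_zero] at h3 h4
  norm_num [Polynomial.coeff_C] at h3 h4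
  exact ⟨h4, h3⟩

theorem rhoN_inertia {ℓ : ℕ} (hℓ : ℓ.Prime) (hgood : W.IsGoodPrimeFor ℓ) (hne : ℓ ≠ p)
    {A : ValuationSubring (AlgebraicClosure ℚ)} (hA : A.LiesOverPrime ℓ) {σ : Γℚ}
    (hσ : σ ∈ A.inertiaSubgroupIn ℚ) : rhoN X n σ = 1 := by
  refine Units.ext ?_
  rw [rhoN_val, Units.val_one, M_inertia X hℓ hgood hne hA hσ]
  exact Matrix.map_one _ (map_zero _) (map_one _)

lemma trace_rhoN (σ : Γℚ) : (rhoN X n σ : Mn).trace = PadicInt.toZModPow n (X.M σ).trace := by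
  rw [rhoN_val]
  exact (AddMonoidHom.map_trace (PadicInt.toZModPow n).toAddMonoidHom (X.M σ)).symm

lemma det_rhoN (σ : Γℚ) : (rhoN X n σ : Mn).det = PadicInt.toZModPow n (X.M σ).det := by
  rw [rhoN_val]
  exact ((PadicInt.toZModPow n).map_det (X.M σ)).symm

/-- Trace and determinant of Frobenius. -/
theorem rhoN_frobenius {ℓ : ℕ} (hℓ : ℓ.Prime) (hgood : W.IsGoodPrimeFor ℓ) (hne : ℓ ≠ p)
    {A : ValuationSubring (AlgebraicClosure ℚ)} (hA : A.LiesOverPrime ℓ) {σ : Γℚ}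
    (hσ : A.IsFrobeniusAt σ ℓ) : (rhoN X n σ : Mn).trace = ((W.apOfModel ℓ : ℤ) : ZMod (p ^ n)) ∧
      (rhoN X n σ : Mn).det = (ℓ : ZMod (p ^ n)) := by
  obtain ⟨h1, h2⟩ := M_frobenius X hℓ hgood hne hA hσ
  rw [trace_rhoN, det_rhoN, h1, h2, map_intCast, map_natCast]
  exact ⟨rfl, rfl⟩

/-- The elements of the image of Galois modulo `pⁿ` whose trace and determinant satisfy `P`. -/
def imgSetN (P : ZMod (p ^ n) → ZMod (p ^ n) → Prop) : Set (rhoN X n).range :=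
  {g | P ((g : GLn) : Mn).trace ((g : GLn) : Mn).det}

lemma imgSetN_conj (P : ZMod (p ^ n) → ZMod (p ^ n) → Prop) (g c : (rhoN X n).range)
    (hc : c ∈ imgSetN X n P) : g * c * g⁻¹ ∈ imgSetN X n P := by
  have h2 : (((g : GLn)⁻¹ : GLn) : Mn) * ((g : GLn) : Mn) = 1 := by
    rw [← Units.val_mul, inv_mul_cancel, Units.val_one]
  have h3 : ((g : GLn) : Mn) * (((g : GLn)⁻¹ : GLn) : Mn) = 1 := by
    rw [← Units.val_mul, mul_inv_cancel, Units.val_one]
  have ht : (((g : GLn) : Mn) * ((c : GLn) : Mn) * (((g : GLn)⁻¹ : GLn) : Mn)).trace =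
      ((c : GLn) : Mn).trace := by
    rw [Matrix.trace_mul_comm, ← Matrix.mul_assoc, h2, Matrix.one_mul]
  have hd : (((g : GLn) : Mn) * ((c : GLn) : Mn) * (((g : GLn)⁻¹ : GLn) : Mn)).det =
      ((c : GLn) : Mn).det := by
    rw [Matrix.det_mul, Matrix.det_mul, mul_right_comm, ← Matrix.det_mul, h3, Matrix.det_one,
      one_mul]
  change P (((g : GLn) : Mn) * ((c : GLn) : Mn) * (((g : GLn)⁻¹ : GLn) : Mn)).trace
    (((g : GLn) : Mn) * ((c : GLn) : Mn) * (((g : GLn)⁻¹ : GLn) : Mn)).det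
  rw [ht, hd]
  exact hc

lemma level_range : ∃ L : IntermediateField ℚ (AlgebraicClosure ℚ), FiniteDimensional ℚ L ∧
      ∀ σ : Γℚ, (∀ x ∈ L, σ x = x) → (rhoN X n).rangeRestrict σ = 1 := by
  obtain ⟨L, hL, h⟩ := rhoN_level X n
  exact ⟨L, hL, fun σ hσ => Subtype.ext (h σ hσ)⟩

lemma mem_FrobIn_rhoN (P : ZMod (p ^ n) → ZMod (p ^ n) → Prop) {ℓ : ℕ} (hℓ : ℓ.Prime)
    (hgood : W.IsGoodPrimeFor ℓ) (hne : ℓ ≠ p) :
    ℓ ∈ FrobIn (rhoN X n).rangeRestrict (imgSetN X n P) ↔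
      P ((W.apOfModel ℓ : ℤ) : ZMod (p ^ n)) (ℓ : ZMod (p ^ n)) := by
  obtain ⟨A, hA, σ, hσ⟩ := exists_frobenius ℓ hℓ
  rw [LT.Period.mem_FrobIn_iff (rhoN X n).rangeRestrict (imgSetN_conj X n P) hℓ hA
    (fun τ hτ => Subtype.ext (rhoN_inertia X n hℓ hgood hne hA hτ)) hσ]
  obtain ⟨h1, h2⟩ := rhoN_frobenius X n hℓ hgood hne hA hσ
  change P (rhoN X n σ : Mn).trace (rhoN X n σ : Mn).det ↔ _
  rw [h1, h2]

instance : NeZero (p ^ n) := ⟨pow_ne_zero n hp.out.ne_zero⟩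

/-- **The distribution of the pairs `(a_ℓ, ℓ)` modulo `pⁿ`**, Dirichlet density. -/
theorem dens_level (hΔ : W.Δ ≠ 0) (P : ZMod (p ^ n) → ZMod (p ^ n) → Prop) : HasDirichletDensity
    {ℓ | W.IsGoodPrimeFor ℓ ∧ P ((W.apOfModel ℓ : ℤ) : ZMod (p ^ n)) (ℓ : ZMod (p ^ n))}
    ((Nat.card (imgSetN X n P) : ℝ) / Nat.card (rhoN X n).range) := by
  refine (chebotarev_dirichlet (rhoN X n).rangeRestrict (rhoN X n).rangeRestrict_surjective
    (level_range X n) (imgSetN X n P) (imgSetN_conj X n P)).congr_of_finset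
      (insert p W.Δ.natAbs.primeFactors) ?_
  intro ℓ hℓ hℓT
  rw [Finset.mem_insert, not_or] at hℓT
  have hgood : W.IsGoodPrimeFor ℓ := fun h => hℓT.2 (Nat.mem_primeFactors.mpr
    ⟨hℓ, Int.natCast_dvd.mp h, Int.natAbs_ne_zero.mpr hΔ⟩)
  rw [mem_FrobIn_rhoN X n P hℓ hgood hℓT.1]
  exact (and_iff_right hgood).symm

/-- **The distribution of the pairs `(a_ℓ, ℓ)` modulo `pⁿ`**, natural density. -/
theorem nat_dens_level (hΔ : W.Δ ≠ 0) (P : ZMod (p ^ n) → ZMod (p ^ n) → Prop) :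
    HasNaturalDensity
    {ℓ | W.IsGoodPrimeFor ℓ ∧ P ((W.apOfModel ℓ : ℤ) : ZMod (p ^ n)) (ℓ : ZMod (p ^ n))}
    ((Nat.card (imgSetN X n P) : ℝ) / Nat.card (rhoN X n).range) := by
  refine (chebotarev_nat (rhoN X n).rangeRestrict (rhoN X n).rangeRestrict_surjective
    (level_range X n) (imgSetN X n P) (imgSetN_conj X n P)).congr_of_finset
      (insert p W.Δ.natAbs.primeFactors) ?_
  intro ℓ hℓ hℓT
  rw [Finset.mem_insert, not_or] at hℓT
  have hgood : W.IsGoodPrimeFor ℓ := fun h => hℓT.2 (Nat.mem_primeFactors.mpr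
    ⟨hℓ, Int.natCast_dvd.mp h, Int.natAbs_ne_zero.mpr hΔ⟩)
  rw [mem_FrobIn_rhoN X n P hℓ hgood hℓT.1]
  exact (and_iff_right hgood).symm

/-- If the primes `ℓ` for which `(a_ℓ, ℓ)` modulo `pⁿ` satisfies `P` have density one, then all
elements of the image of Galois satisfy `P`. -/
theorem of_dens_one (hΔ : W.Δ ≠ 0) {P : ZMod (p ^ n) → ZMod (p ^ n) → Prop}
    (h : HasDirichletDensity
      {ℓ | P ((W.apOfModel ℓ : ℤ) : ZMod (p ^ n)) (ℓ : ZMod (p ^ n))} 1) (σ : Γℚ) :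
    P (rhoN X n σ : Mn).trace (rhoN X n σ : Mn).det := by
  have h1 : HasDirichletDensity {ℓ | W.IsGoodPrimeFor ℓ ∧
      P ((W.apOfModel ℓ : ℤ) : ZMod (p ^ n)) (ℓ : ZMod (p ^ n))} 1 := by
    refine h.congr_of_finset W.Δ.natAbs.primeFactors fun ℓ hℓ hℓΔ => ?_
    refine (and_iff_right fun h' => hℓΔ (Nat.mem_primeFactors.mpr
      ⟨hℓ, Int.natCast_dvd.mp h', Int.natAbs_ne_zero.mpr hΔ⟩)).symm
  have h2 := (dens_level X n hΔ P).unique h1
  have h0 : (Nat.card (rhoN X n).range : ℝ) ≠ 0 := by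
    exact_mod_cast (Nat.card_pos (α := (rhoN X n).range)).ne'
  rw [div_eq_one_iff_eq h0] at h2
  have h3 : imgSetN X n P = Set.univ := by
    rw [Set.eq_univ_iff_ncard, ← Nat.card_coe_set_eq]
    exact_mod_cast h2
  have h4 : (⟨rhoN X n σ, σ, rfl⟩ : (rhoN X n).range) ∈ imgSetN X n P := by
    rw [h3]
    exact Set.mem_univ _
  exact h4

end Fermat.Agent.Cor.Katz
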