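import Fermat.Agent.Corollaries.Katz.Curves
import Fermat.Agent.Corollaries.MordellWeil.Par

/-!
# The rational torsion in an isogeny class over `ℚ`

`W` is any elliptic curve over `ℚ`.

* `exists_max` : there is an integer `N ≥ 1` such that an integer `m` divides the number of points
  of `W` modulo `ℓ` for all but finitely many primes `ℓ` if and only if `m ∣ N`; one of the elliptic
  curves isogenous to `W` over `ℚ` has exactly `N` rational torsion points, and the number of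
  rational torsion points of any of them divides `N`; the prime divisors of `N` are in
  `{2, 3, 5, 7, 13}`.
-/

set_option autoImplicit false

noncomputable section

open WeierstrassCurve WeierstrassCurve.Affine

namespace Fermat.Agent.Cor.Katz

open Fermat.Agent.Cor.K1 (Gam Pts)
open Fermat.Agent.Cor.Mazur (Pt)

/-- The greatest `N` dividing almost all terms of a sequence. -/
lemma exists_greatest (c : ℕ → ℕ) {B : ℕ} (hB0 : B ≠ 0)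
    (hB : ∀ m : ℕ, m ≠ 0 → {ℓ : ℕ | ℓ.Prime ∧ ¬ m ∣ c ℓ}.Finite → m ∣ B) :
    ∃ N : ℕ, N ≠ 0 ∧ ∀ m : ℕ, {ℓ : ℕ | ℓ.Prime ∧ ¬ m ∣ c ℓ}.Finite ↔ m ∣ N := by
  classical
  have hmono : ∀ m n : ℕ, m ∣ n → {ℓ : ℕ | ℓ.Prime ∧ ¬ n ∣ c ℓ}.Finite →
      {ℓ : ℕ | ℓ.Prime ∧ ¬ m ∣ c ℓ}.Finite := fun m n h h1 =>
    h1.subset fun ℓ hℓ => ⟨hℓ.1, fun h2 => hℓ.2 (h.trans h2)⟩
  have h0 : ∀ m : ℕ, {ℓ : ℕ | ℓ.Prime ∧ ¬ m ∣ c ℓ}.Finite → m ≠ 0 := by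
    rintro _ h rfl
    have h1 := hB (B + 1) (by omega) (hmono _ 0 (dvd_zero _) h)
    have h2 := Nat.le_of_dvd (Nat.pos_of_ne_zero hB0) h1
    omega
  have hle : ∀ m : ℕ, {ℓ : ℕ | ℓ.Prime ∧ ¬ m ∣ c ℓ}.Finite → m ≤ B := fun m h =>
    Nat.le_of_dvd (Nat.pos_of_ne_zero hB0) (hB m (h0 m h) h)
  have h1 : {ℓ : ℕ | ℓ.Prime ∧ ¬ 1 ∣ c ℓ}.Finite := by
    refine Set.finite_empty.subset fun ℓ hℓ => ?_
    exact hℓ.2 (one_dvd _)
  set N := Nat.findGreatest (fun m => {ℓ : ℕ | ℓ.Prime ∧ ¬ m ∣ c ℓ}.Finite) B with hN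
  have hNP : {ℓ : ℕ | ℓ.Prime ∧ ¬ N ∣ c ℓ}.Finite :=
    Nat.findGreatest_spec (P := fun m => {ℓ : ℕ | ℓ.Prime ∧ ¬ m ∣ c ℓ}.Finite) (hle 1 h1) h1
  refine ⟨N, h0 N hNP, fun m => ⟨fun hm => ?_, fun hm => hmono m N hm hNP⟩⟩
  have h2 : {ℓ : ℕ | ℓ.Prime ∧ ¬ Nat.lcm m N ∣ c ℓ}.Finite := by
    refine (hm.union hNP).subset fun ℓ hℓ => ?_
    by_cases h3 : m ∣ c ℓ
    · exact Or.inr ⟨hℓ.1, fun h4 => hℓ.2 (Nat.lcm_dvd h3 h4)⟩
    · exact Or.inl ⟨hℓ.1, h3⟩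
  have h3 : Nat.lcm m N ≤ N := Nat.le_findGreatest (hle _ h2) h2
  have h4 : Nat.lcm m N = N :=
    le_antisymm h3 (Nat.le_of_dvd (Nat.pos_of_ne_zero (h0 _ h2)) (Nat.dvd_lcm_right m N))
  rw [← h4]
  exact Nat.dvd_lcm_left m N

variable {W : WeierstrassCurve ℤ}

/-- The reduction has a positive number of points. -/
lemma card_ne_zero {ℓ : ℕ} (hℓ : ℓ.Prime) : (W.reductionMod ℓ).card ≠ 0 := by
  classical
  have : Fact ℓ.Prime := ⟨hℓ⟩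
  have h1 := Fermat.Agent.ECFrob.card_frob_fixed (k := ZMod ℓ) (K := AlgebraicClosure (ZMod ℓ))
    (W.reductionMod ℓ)
  have h2 : (W.reductionMod ℓ).card = Nat.card (W.reductionMod ℓ).toAffine.Point := rfl
  rw [h2]
  have h3 : Nat.card {P : ((W.reductionMod ℓ)⁄(AlgebraicClosure (ZMod ℓ))).Point //
      Fermat.Agent.ECFrob.frob (W.reductionMod ℓ) (AlgebraicClosure (ZMod ℓ)) P = P} ≠ 0 := by
    have hfin : Finite {P : ((W.reductionMod ℓ)⁄(AlgebraicClosure (ZMod ℓ))).Point //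
        Fermat.Agent.ECFrob.frob (W.reductionMod ℓ) (AlgebraicClosure (ZMod ℓ)) P = P} :=
      (Mazur.finite_frob_fixed (W.reductionMod ℓ) (AlgebraicClosure (ZMod ℓ))).to_subtype
    have hne : Nonempty {P : ((W.reductionMod ℓ)⁄(AlgebraicClosure (ZMod ℓ))).Point //
        Fermat.Agent.ECFrob.frob (W.reductionMod ℓ) (AlgebraicClosure (ZMod ℓ)) P = P} :=
      ⟨⟨0, map_zero _⟩⟩
    exact (Nat.card_pos (α := {P : ((W.reductionMod ℓ)⁄(AlgebraicClosure (ZMod ℓ))).Point //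
      Fermat.Agent.ECFrob.frob (W.reductionMod ℓ) (AlgebraicClosure (ZMod ℓ)) P = P})).ne'
  intro h4
  exact h3 (h1.trans h4)

/-- The `m` dividing almost all the numbers of points are bounded. -/
lemma exists_bound (hΔ : W.Δ ≠ 0) : ∃ B : ℕ, B ≠ 0 ∧
    ∀ m : ℕ, m ≠ 0 → {ℓ : ℕ | ℓ.Prime ∧ ¬ m ∣ (W.reductionMod ℓ).card}.Finite → m ∣ B := by
  have hgood : ∀ ℓ : ℕ, W.Δ.natAbs < ℓ → W.IsGoodPrimeFor ℓ := by
    intro ℓ hℓ h
    have h1 := Nat.le_of_dvd (Int.natAbs_pos.mpr hΔ) (Int.natCast_dvd.mp h)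
    omega
  obtain ⟨ℓ₁, h1, hℓ₁⟩ := Nat.exists_infinite_primes (W.Δ.natAbs + 1)
  obtain ⟨ℓ₂, h2, hℓ₂⟩ := Nat.exists_infinite_primes (ℓ₁ + 1)
  have hg₁ := hgood ℓ₁ (by omega)
  have hg₂ := hgood ℓ₂ (by omega)
  refine ⟨(W.reductionMod ℓ₁).card * (W.reductionMod ℓ₂).card,
    mul_ne_zero (card_ne_zero hℓ₁) (card_ne_zero hℓ₂), fun m hm h => ?_⟩
  rw [Nat.dvd_iff_prime_pow_dvd_dvd]
  intro p k hp hpk
  have h3 : {ℓ : ℕ | ℓ.Prime ∧ ¬ p ^ k ∣ (W.reductionMod ℓ).card}.Finite :=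
    h.subset fun ℓ hℓ => ⟨hℓ.1, fun h4 => hℓ.2 (hpk.trans h4)⟩
  have h4 := ((katz_triv_tfae hΔ (pow_ne_zero k hp.ne_zero)).out 1 0).mp h3
  by_cases h5 : p = ℓ₁
  · refine (h4 ℓ₂ hℓ₂ hg₂ fun h6 => ?_).mul_left _
    have h7 := (Nat.prime_dvd_prime_iff_eq hℓ₂ hp).mp (hℓ₂.dvd_of_dvd_pow h6)
    omega
  · refine (h4 ℓ₁ hℓ₁ hg₁ fun h6 => ?_).mul_right _
    exact h5 ((Nat.prime_dvd_prime_iff_eq hℓ₁ hp).mp (hℓ₁.dvd_of_dvd_pow h6)).symm

/-- **The rational torsion in an isogeny class.** -/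
theorem exists_max (hΔ : W.Δ ≠ 0) : ∃ N : ℕ, N ≠ 0 ∧
    (∀ m : ℕ, {ℓ : ℕ | ℓ.Prime ∧ ¬ m ∣ (W.reductionMod ℓ).card}.Finite ↔ m ∣ N) ∧
    (∀ ℓ : ℕ, ℓ.Prime → W.IsGoodPrimeFor ℓ → ¬ ℓ ∣ N → N ∣ (W.reductionMod ℓ).card) ∧
    (∃ (E' : WeierstrassCurve ℚ) (_ : E'.IsElliptic),
      IsIsogenous (W.map (Int.castRingHom ℚ)) E' ∧
      Nat.card (AddCommGroup.torsion E'.toAffine.Point) = N) ∧
    (∀ (E' : WeierstrassCurve ℚ), E'.IsElliptic → IsIsogenous (W.map (Int.castRingHom ℚ)) E' →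
      Finite (AddCommGroup.torsion E'.toAffine.Point) ∧
      Nat.card (AddCommGroup.torsion E'.toAffine.Point) ∣ N) ∧
    ∀ p : ℕ, p.Prime → p ∣ N → p ∈ ({2, 3, 5, 7, 13} : Set ℕ) := by
  obtain ⟨B, hB0, hB⟩ := exists_bound hΔ
  obtain ⟨N, hN0, hN⟩ := exists_greatest (fun ℓ => (W.reductionMod ℓ).card) hB0 hB
  have hNfin := (hN N).mpr dvd_rfl
  -- the orders of the torsion groups divide `N`
  have hdvd : ∀ (E' : WeierstrassCurve ℚ), E'.IsElliptic →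
      IsIsogenous (W.map (Int.castRingHom ℚ)) E' →
      Finite (AddCommGroup.torsion E'.toAffine.Point) ∧
      Nat.card (AddCommGroup.torsion E'.toAffine.Point) ∣ N := by
    intro E' hE' hiso
    have hfin : Finite (AddCommGroup.torsion E'.toAffine.Point) := MordellWeil.finite_torsion E'
    refine ⟨hfin, (hN _).mp ?_⟩
    have h1 := (katz_tfae_all hΔ (m := Nat.card (AddCommGroup.torsion E'.toAffine.Point))
      Nat.card_pos.ne').out 4 1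
    exact h1.mp ⟨E', hE', hiso, _, rfl⟩
  refine ⟨N, hN0, hN, ((katz_triv_tfae hΔ hN0).out 1 0).mp hNfin, ?_, hdvd, ?_⟩
  · obtain ⟨E', hE', hiso, T, hT⟩ := ((katz_tfae_all hΔ hN0).out 1 4).mp hNfin
    obtain ⟨hfin, h1⟩ := hdvd E' hE' hiso
    refine ⟨E', hE', hiso, Nat.dvd_antisymm h1 ?_⟩
    rw [← hT]
    refine AddSubgroup.card_dvd_of_le fun x hx => ?_
    have hTfin : Finite T := Nat.finite_of_card_ne_zero (by rw [hT]; exact hN0)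
    have h2 : IsOfFinAddOrder (⟨x, hx⟩ : T) := isOfFinAddOrder_of_finite _
    exact (T.subtype.isOfFinAddOrder h2 : IsOfFinAddOrder x)
  · intro p hp hpN
    have hF : Fact p.Prime := ⟨hp⟩
    have h1 := (hN p).mpr hpN
    by_contra h2
    have h3 : p = 11 ∨ 17 ≤ p := by
      by_contra h4
      push Not at h4
      obtain ⟨h5, h6⟩ := h4
      simp only [Set.mem_insert_iff, Set.mem_singleton_iff, not_or] at h2
      have h7 : p < 17 := h6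
      interval_cases p <;> first | omega | (revert hp; decide)
    refine (infinite_not_dvd_card hΔ h3) (h1.subset fun ℓ hℓ => ⟨hℓ.1, hℓ.2.2⟩)

end Fermat.Agent.Cor.Katz
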