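import Fermat.Agent.Corollaries.Katz.RedTors
import Fermat.Agent.Corollaries.Surj.DivPoly
import Fermat.Agent.Corollaries.Surj.Mazur

/-!
# The mean of the torsion of the reductions

`W` is any elliptic curve over `ℚ` and `N ≥ 1`.

* `mean_redTors` : the mean over the primes `ℓ` of the number of elements of `W(𝔽_ℓ)[N]` is the
  number of orbits of `Gal(ℚ̄/ℚ)` in `W[N]`;
* `mean_redTors_of_ge` : it is `2` if `W` is semistable and `N` is `11` or a prime `≥ 17`;
* `exists_dens_not_isAddCyclic` : `W(𝔽_ℓ)` is not cyclic for a set of primes `ℓ` of density at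
  least `1/6`.
-/

set_option autoImplicit false

noncomputable section

open WeierstrassCurve WeierstrassCurve.Affine Filter Topology

namespace Fermat.Agent.Cor.Katz

open Fermat.Agent.Classic
open Fermat.Agent.Cor.K1 (Gam Pts)
open Fermat.Agent.Cor.Mazur (Pt)

/-! ### Mean values -/

/-- The mean over the primes of a sequence with finitely many values outside a finite set, each of
them with a density. -/
theorem tendsto_mean {t : ℕ → ℕ} {B : ℕ} (T : Finset ℕ)
    (hB : ∀ ℓ : ℕ, ℓ.Prime → ℓ ∉ T → t ℓ ≤ B) {δ : ℕ → ℝ}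
    (hδ : ∀ k, HasNaturalDensity {ℓ | t ℓ = k} (δ k)) :
    Tendsto (fun x : ℕ => (∑ ℓ ∈ (Finset.range (x + 1)).filter Nat.Prime, (t ℓ : ℝ)) /
      Nat.primeCounting x) atTop (𝓝 (∑ k ∈ Finset.range (B + 1), (k : ℝ) * δ k)) := by
  -- the main part
  have hm : Tendsto (fun x : ℕ => ∑ k ∈ Finset.range (B + 1),
      (k : ℝ) * ((NatDens.cnt {ℓ | t ℓ = k} x : ℝ) / Nat.primeCounting x)) atTop
      (𝓝 (∑ k ∈ Finset.range (B + 1), (k : ℝ) * δ k)) :=
    tendsto_finsetSum _ fun k _ => Tendsto.const_mul (k : ℝ) (hδ k)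
  have hid : ∀ x : ℕ, ∑ k ∈ Finset.range (B + 1),
      (k : ℝ) * ((NatDens.cnt {ℓ | t ℓ = k} x : ℝ) / Nat.primeCounting x) =
      (∑ ℓ ∈ ((Finset.range (x + 1)).filter Nat.Prime).filter (fun ℓ => t ℓ ≤ B), (t ℓ : ℝ)) /
        Nat.primeCounting x := by
    intro x
    rw [← Finset.sum_fiberwise_of_maps_to (t := Finset.range (B + 1)) (g := t)
      (s := ((Finset.range (x + 1)).filter Nat.Prime).filter (fun ℓ => t ℓ ≤ B))
      (fun ℓ hℓ => Finset.mem_range.mpr (Nat.lt_succ_of_le (Finset.mem_filter.mp hℓ).2)),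
      Finset.sum_div]
    refine Finset.sum_congr rfl fun k hk => ?_
    rw [← mul_div_assoc]
    congr 1
    have h1 : NatDens.cnt {ℓ | t ℓ = k} x =
        ((((Finset.range (x + 1)).filter Nat.Prime).filter (fun ℓ => t ℓ ≤ B)).filter
          (fun ℓ => t ℓ = k)).card := by
      unfold NatDens.cnt
      congr 1
      ext ℓ
      simp only [Finset.mem_filter, Finset.mem_range, Set.mem_ofPred_eq]
      constructor
      · rintro ⟨h1, h2, h4⟩
        exact ⟨⟨⟨h1, h2⟩, by rw [h4]; exact Nat.lt_succ_iff.mp (Finset.mem_range.mp hk)⟩, h4⟩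
      · rintro ⟨⟨⟨h1, h2⟩, -⟩, h4⟩
        exact ⟨h1, h2, h4⟩
    rw [h1, Finset.sum_congr rfl fun ℓ hℓ => by
      rw [show t ℓ = k from (Finset.mem_filter.mp hℓ).2], Finset.sum_const, nsmul_eq_mul,
      mul_comm]
  -- the rest
  have hr : Tendsto (fun x : ℕ =>
      (∑ ℓ ∈ ((Finset.range (x + 1)).filter Nat.Prime).filter (fun ℓ => ¬ t ℓ ≤ B), (t ℓ : ℝ)) /
        Nat.primeCounting x) atTop (𝓝 0) := by
    refine squeeze_zero (fun x => by positivity) (fun x => ?_)
      (NatDens.tendsto_const_div (∑ ℓ ∈ T, (t ℓ : ℝ)))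
    refine div_le_div_of_nonneg_right ?_ (Nat.cast_nonneg _)
    refine Finset.sum_le_sum_of_subset_of_nonneg (fun ℓ hℓ => ?_) fun _ _ _ => Nat.cast_nonneg _
    obtain ⟨h1, h2⟩ := Finset.mem_filter.mp hℓ
    by_contra h3
    exact h2 (hB ℓ (Finset.mem_filter.mp h1).2 h3)
  have h := hm.add hr
  rw [add_zero] at h
  refine h.congr fun x => ?_
  rw [hid, ← add_div, Finset.sum_filter_add_sum_filter_not]

variable {W : WeierstrassCurve ℤ} {N : ℕ}

lemma fx_le (hΔ : W.Δ ≠ 0) (hN : N ≠ 0) (g : Equiv.Perm (TorsPt W N)) : fx g ≤ N ^ 2 := by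
  have hfin := finite_torsPt hΔ hN
  rw [← card_torsPt hΔ hN]
  exact Nat.card_le_card_of_injective _ Subtype.val_injective

lemma redTors_le (hΔ : W.Δ ≠ 0) (hN : N ≠ 0) {ℓ : ℕ} (hℓ : ℓ.Prime) (hgood : W.IsGoodPrimeFor ℓ)
    (hne : ¬ ℓ ∣ N) : redTors W N ℓ ≤ N ^ 2 := by
  obtain ⟨A, hA, σ, hσ⟩ := Fermat.Agent.Frob.exists_frobenius ℓ hℓ
  rw [← fx_frobenius hℓ hgood hne hA hσ]
  exact fx_le hΔ hN _

/-- The number of Galois orbits in `W[N]`. -/
def orbits (W : WeierstrassCurve ℤ) (N : ℕ) : ℕ :=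
  Nat.card (MulAction.orbitRel.Quotient (act W N).range (TorsPt W N))

/-- Burnside's lemma. -/
lemma sum_fx (hΔ : W.Δ ≠ 0) (hN : N ≠ 0) :
    ∑ k ∈ Finset.range (N ^ 2 + 1), k * Nat.card (fxSet W N fun x => x = k) =
      orbits W N * Nat.card (act W N).range := by
  classical
  have hfin := finite_torsPt hΔ hN
  have : Fintype (act W N).range := Fintype.ofFinite _
  have : ∀ g : (act W N).range, Fintype (MulAction.fixedBy (TorsPt W N) g) := fun g =>
    Fintype.ofFinite _
  have : Fintype (MulAction.orbitRel.Quotient (act W N).range (TorsPt W N)) :=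
    Fintype.ofFinite _
  have h1 := MulAction.sum_card_fixedBy_eq_card_orbits_mul_card_group (act W N).range
    (TorsPt W N)
  rw [orbits, Nat.card_eq_fintype_card, Nat.card_eq_fintype_card]
  refine Eq.trans ?_ h1
  have h2 : ∀ g : (act W N).range, Fintype.card (MulAction.fixedBy (TorsPt W N) g) =
      fx (g : Equiv.Perm (TorsPt W N)) := fun g => (Nat.card_eq_fintype_card).symm
  rw [Finset.sum_congr rfl fun g _ => h2 g]
  rw [← Finset.sum_fiberwise_of_maps_to (t := Finset.range (N ^ 2 + 1))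
    (g := fun g : (act W N).range => fx (g : Equiv.Perm (TorsPt W N))) (s := Finset.univ)
    (fun g _ => Finset.mem_range.mpr (Nat.lt_succ_of_le (fx_le hΔ hN _)))]
  refine Finset.sum_congr rfl fun k _ => ?_
  rw [Finset.sum_congr rfl fun g hg => (Finset.mem_filter.mp hg).2, Finset.sum_const,
    smul_eq_mul, mul_comm]
  congr 1
  rw [Nat.card_coe_set_eq, ← Set.ncard_coe_finset]
  congr 1
  ext g
  simp only [fxSet, Finset.coe_filter, Finset.mem_univ, true_and]

/-- **The mean of `#W(𝔽_ℓ)[N]` over the primes `ℓ` is the number of Galois orbits in `W[N]`.** -/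
theorem mean_redTors (hΔ : W.Δ ≠ 0) (hN : N ≠ 0) :
    Tendsto (fun x : ℕ => (∑ ℓ ∈ (Finset.range (x + 1)).filter Nat.Prime,
      (redTors W N ℓ : ℝ)) / Nat.primeCounting x) atTop (𝓝 (orbits W N)) := by
  have hfin := finite_torsPt hΔ hN
  have h1 := tendsto_mean (t := redTors W N) (B := N ^ 2)
    (W.Δ.natAbs.primeFactors ∪ N.primeFactors)
    (fun ℓ hℓ hℓT => by
      obtain ⟨h1, h2⟩ := good_of_notMem_union hΔ hN hℓ hℓT
      exact redTors_le hΔ hN hℓ h1 h2)
    (fun k => nat_dens_redTors hΔ hN fun x => x = k)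
  have h2 : ∑ k ∈ Finset.range (N ^ 2 + 1), (k : ℝ) *
      ((Nat.card (fxSet W N fun x => x = k) : ℝ) / Nat.card (act W N).range) = orbits W N := by
    have h3 : (Nat.card (act W N).range : ℝ) ≠ 0 := by
      exact_mod_cast (Nat.card_pos (α := (act W N).range)).ne'
    simp only [← mul_div_assoc]
    rw [← Finset.sum_div, div_eq_iff h3]
    exact_mod_cast sum_fx hΔ hN
  rw [h2] at h1
  exact h1

/-! ### Two orbits -/

/-- If the mod `p` representation is surjective, there are two orbits in `W[p]`. -/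
theorem orbits_eq_two (hΔ : W.Δ ≠ 0) {p : ℕ} [hp : Fact p.Prime]
    (hs : Function.Surjective (repP p hΔ)) : orbits W p = 2 := by
  classical
  have hfin := finite_torsPt hΔ hp.out.ne_zero
  have hzero : ∀ σ : Gam, ∀ P : TorsPt W p, (σ • P.1 = 0 ↔ P.1 = 0) := by
    intro σ P
    constructor
    · intro h
      have h1 := congrArg (fun z : Pt W => σ⁻¹ • z) h
      have h2 : σ⁻¹ • (0 : Pt W) = 0 := Div.smul_zero' σ⁻¹
      rw [inv_smul_smul, h2] at h1
      exact h1
    · intro h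
      rw [h]
      exact Div.smul_zero' σ
  let f : MulAction.orbitRel.Quotient (act W p).range (TorsPt W p) → Bool :=
    Quotient.lift (fun P : TorsPt W p => decide (P.1 = 0)) (by
      rintro P Q ⟨⟨_, σ, rfl⟩, h⟩
      have h1 : σ • Q.1 = P.1 := congrArg Subtype.val h
      have h2 := hzero σ Q
      rw [h1] at h2
      exact decide_eq_decide.mpr h2)
  have hf : Function.Bijective f := by
    constructor
    · intro a b
      refine Quotient.inductionOn₂ a b fun P Q h => ?_
      have h1 : (P.1 = 0 ↔ Q.1 = 0) := decide_eq_decide.mp h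
      apply Quotient.sound
      by_cases hP : P.1 = 0
      · have hQ := h1.mp hP
        have h2 : P = Q := Subtype.ext (hP.trans hQ.symm)
        rw [h2]
      · have hQ : Q.1 ≠ 0 := fun h2 => hP (h1.mpr h2)
        obtain ⟨σ, hσ⟩ := exists_smul_point_eq hΔ hs Q.2 hQ P.2 hP
        exact ⟨⟨act W p σ, σ, rfl⟩, Subtype.ext hσ⟩
    · intro b
      cases b
      · obtain ⟨P, hP⟩ : ∃ P : TorsPt W p, P.1 ≠ 0 := by
          by_contra hcon
          push Not at hcon
          have h1 : Nat.card (TorsPt W p) ≤ Nat.card Unit :=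
            Nat.card_le_card_of_injective (fun _ => ()) fun P Q _ =>
              Subtype.ext ((hcon P).trans (hcon Q).symm)
          rw [card_torsPt hΔ hp.out.ne_zero, Nat.card_unique] at h1
          have h2 := hp.out.two_le
          nlinarith
        exact ⟨⟦P⟧, decide_eq_false hP⟩
      · exact ⟨⟦⟨0, nsmul_zero _⟩⟧, decide_eq_true rfl⟩
  rw [orbits, Nat.card_congr (Equiv.ofBijective f hf), Nat.card_eq_fintype_card,
    Fintype.card_bool]

/-- The mean of `#W(𝔽_ℓ)[p]` is `2` if the mod `p` representation is surjective. -/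
theorem mean_redTors_of_surjective (hΔ : W.Δ ≠ 0) {p : ℕ} [hp : Fact p.Prime]
    (hs : Function.Surjective (repP p hΔ)) :
    Tendsto (fun x : ℕ => (∑ ℓ ∈ (Finset.range (x + 1)).filter Nat.Prime,
      (redTors W p ℓ : ℝ)) / Nat.primeCounting x) atTop (𝓝 2) := by
  have h := mean_redTors (N := p) hΔ hp.out.ne_zero
  rw [orbits_eq_two hΔ hs] at h
  exact_mod_cast h

/-- **For a semistable elliptic curve `W` over `ℚ` and `p = 11` or `p ≥ 17` prime the mean of
`#W(𝔽_ℓ)[p]` over the primes `ℓ` is `2`.** -/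
theorem mean_redTors_of_ge (hΔ : W.Δ ≠ 0) (hW : W.IsSemistableModel) {p : ℕ} [hp : Fact p.Prime]
    (h : p = 11 ∨ 17 ≤ p) :
    Tendsto (fun x : ℕ => (∑ ℓ ∈ (Finset.range (x + 1)).filter Nat.Prime,
      (redTors W p ℓ : ℝ)) / Nat.primeCounting x) atTop (𝓝 2) :=
  mean_redTors_of_surjective hΔ (repP_surjective_of_ge hΔ h hW)

/-! ### Non cyclic reductions -/

/-- `Gal(ℚ(W[2])/ℚ)` has at most six elements. -/
lemma card_range_two_le (hΔ : W.Δ ≠ 0) : Nat.card (act W 2).range ≤ 6 := by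
  classical
  have hfin := finite_torsPt hΔ two_ne_zero (N := 2)
  let Z : TorsPt W 2 := ⟨0, nsmul_zero _⟩
  have hZ : ∀ g ∈ (act W 2).range, g Z = Z := by
    rintro _ ⟨σ, rfl⟩
    exact Subtype.ext (Div.smul_zero' σ)
  have hcard : Nat.card {P : TorsPt W 2 // P ≠ Z} = 3 := by
    have h1 := card_torsPt (N := 2) hΔ two_ne_zero
    have : Fintype (TorsPt W 2) := Fintype.ofFinite _
    rw [Nat.card_eq_fintype_card] at h1 ⊢
    rw [Fintype.card_subtype_compl, Fintype.card_subtype_eq, h1]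
    norm_num
  have h3 : Nat.card (Equiv.Perm {P : TorsPt W 2 // P ≠ Z}) = 6 := by
    have : Fintype {P : TorsPt W 2 // P ≠ Z} := Fintype.ofFinite _
    rw [Nat.card_eq_fintype_card] at hcard
    rw [Nat.card_eq_fintype_card, Fintype.card_perm, hcard]
    rfl
  rw [← h3]
  refine Nat.card_le_card_of_injective (fun g : (act W 2).range =>
    (g : Equiv.Perm (TorsPt W 2)).subtypePerm (p := fun P => P ≠ Z) fun P => ?_) ?_
  · rw [not_iff_not]
    constructor
    · intro h
      have h1 := hZ _ g.2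
      exact (g : Equiv.Perm (TorsPt W 2)).injective (h.trans h1.symm)
    · rintro rfl
      exact hZ _ g.2
  · intro g g' h
    refine Subtype.ext (Equiv.ext fun P => ?_)
    by_cases hP : P = Z
    · rw [hP, hZ _ g.2, hZ _ g'.2]
    · have h1 := congrArg (fun e : Equiv.Perm {P : TorsPt W 2 // P ≠ Z} => (e ⟨P, hP⟩).1) h
      exact h1

lemma finite_point {ℓ : ℕ} [hℓ : Fact ℓ.Prime] : Finite (W.reductionMod ℓ).toAffine.Point := by
  classical
  refine Nat.finite_of_card_ne_zero ?_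
  rw [← Fermat.Agent.ECFrob.card_frob_fixed (k := ZMod ℓ) (K := AlgebraicClosure (ZMod ℓ))
    (W.reductionMod ℓ)]
  have hfin : Finite {P : ((W.reductionMod ℓ)⁄(AlgebraicClosure (ZMod ℓ))).Point //
      Fermat.Agent.ECFrob.frob (W.reductionMod ℓ) (AlgebraicClosure (ZMod ℓ)) P = P} :=
    (Mazur.finite_frob_fixed (W.reductionMod ℓ) (AlgebraicClosure (ZMod ℓ))).to_subtype
  have hne : Nonempty {P : ((W.reductionMod ℓ)⁄(AlgebraicClosure (ZMod ℓ))).Point //
      Fermat.Agent.ECFrob.frob (W.reductionMod ℓ) (AlgebraicClosure (ZMod ℓ)) P = P} :=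
    ⟨⟨0, map_zero _⟩⟩
  exact Nat.card_pos.ne'

/-- **`W(𝔽_ℓ)` is not cyclic for a set of primes `ℓ` of density at least `1/6`**: it contains
`(ℤ/2)²`. -/
theorem exists_dens_not_isAddCyclic (hΔ : W.Δ ≠ 0) : ∃ (S : Set ℕ) (δ : ℝ), 1 / 6 ≤ δ ∧
    HasNaturalDensity S δ ∧ ∀ ℓ ∈ S, ∃ _ : Fact ℓ.Prime,
      ¬ IsAddCyclic (W.reductionMod ℓ).toAffine.Point := by
  classical
  have hfin := finite_torsPt (N := 2) hΔ two_ne_zero
  refine ⟨{ℓ | redTors W 2 ℓ = 2 ^ 2}, _, ?_, nat_dens_full hΔ two_ne_zero, fun ℓ hℓ => ?_⟩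
  · refine one_div_le_one_div_of_le ?_ ?_
    · exact_mod_cast Nat.card_pos (α := (act W 2).range)
    · exact_mod_cast card_range_two_le hΔ
  · have hℓp : ℓ.Prime := by
      by_contra h
      have h1 : redTors W 2 ℓ = 0 := dif_neg h
      have h2 : redTors W 2 ℓ = 2 ^ 2 := hℓ
      rw [h1] at h2
      norm_num at h2
    have hF : Fact ℓ.Prime := ⟨hℓp⟩
    refine ⟨hF, fun hcyc => ?_⟩
    have h2 : redTors W 2 ℓ = 2 ^ 2 := hℓ
    rw [redTors_eq] at h2
    have hfin' : Finite (W.reductionMod ℓ).toAffine.Point := finite_point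
    have : Fintype (W.reductionMod ℓ).toAffine.Point := Fintype.ofFinite _
    have h3 := IsAddCyclic.card_nsmul_eq_zero_le (α := (W.reductionMod ℓ).toAffine.Point)
      (n := 2) (by norm_num)
    rw [Nat.card_eq_fintype_card, Fintype.card_subtype] at h2
    omega

end Fermat.Agent.Cor.Katz
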