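import Fermat.Agent.Corollaries.Katz.Level
import Fermat.Agent.Corollaries.Katz.Main

/-!
# Katz's theorem over `ℚ` for composite `m`

`W` is any elliptic curve over `ℚ` and `m` a positive integer not divisible by `4`.

* `katz_of_not_four_dvd` : if `m ∣ #W(𝔽_ℓ)` for a set of primes `ℓ` of density one, then `W` is
  isogenous over `ℚ` to an elliptic curve with a rational point of order `m`.

Let `c` be the complex conjugation and `m` odd. Every `g ∈ Gal(ℚ̄/ℚ)` has on `W[m]` the trace
`1 + det g`, hence `(1 + c) g (1 + c) = 2 (1 + c)` on `W[m]`. For a point `x` of order `m` with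
`c x = x` the points `g x - x` are in the `-1` part of `c`; they generate a stable subgroup `N`,
and the image of `x` in the quotient of `W` by `N` is rational of order `m`.
-/

set_option autoImplicit false

noncomputable section

open Matrix WeierstrassCurve WeierstrassCurve.Affine WeierstrassCurve.Affine.Point
open Fermat.Agent.Tate Fermat.Agent.S30aux

namespace Fermat.Agent.Cor.Katz

open Fermat.Agent.Classic
open Fermat.Agent.Cor.K1 (Gam Pts)
open Fermat.Agent.Cor.Mazur (Pt)

/-! ### Matrices -/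

section Mat

variable {R : Type*} [CommRing R]

lemma singular_sandwich {A : Matrix (Fin 2) (Fin 2) R} (hA : A.det = 0)
    (G : Matrix (Fin 2) (Fin 2) R) : A * G * A = (G * A).trace • A := by
  rw [Matrix.det_fin_two] at hA
  ext i j
  simp only [Matrix.mul_apply, Fin.sum_univ_two, Matrix.trace_fin_two, Matrix.smul_apply,
    smul_eq_mul]
  fin_cases i <;> fin_cases j <;> simp only [Fin.zero_eta, Fin.mk_one]
  · linear_combination (-G 1 1) * hA
  · linear_combination (G 0 1) * hA
  · linear_combination (G 1 0) * hA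
  · linear_combination (-G 0 0) * hA

/-- If the traces are `1 + det` and `det C = -1`, then `(1 + C) G (1 + C) = 2 (1 + C)`. -/
lemma sandwich {C G : Matrix (Fin 2) (Fin 2) R} (hC : C.det = -1) (htC : C.trace = 1 + C.det)
    (h1 : G.trace = 1 + G.det) (h2 : (G * C).trace = 1 + (G * C).det) :
    (1 + C) * G * (1 + C) = (2 : R) • (1 + C) := by
  have hA : (1 + C).det = 0 := by
    rw [hC, add_neg_cancel] at htC
    rw [Matrix.det_fin_two] at hC ⊢
    rw [Matrix.trace_fin_two] at htC
    simp only [Matrix.add_apply, Matrix.one_apply_eq, Matrix.one_apply_ne (zero_ne_one),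
      Matrix.one_apply_ne (one_ne_zero), zero_add]
    linear_combination hC + htC
  rw [singular_sandwich hA, Matrix.mul_add, Matrix.mul_one, Matrix.trace_add, h1, h2,
    Matrix.det_mul, hC]
  congr 1
  ring

end Mat

/-! ### Groups with an action -/

section Alg

variable {G A : Type*} [Group G] [AddCommGroup A] [DistribMulAction G A]

/-- The property `(1 + c) g (1 + c) = 2 (1 + c)` at `x`. -/
def Plus (c g : G) (x : A) : Prop :=
  g • (x + c • x) + c • g • (x + c • x) = (x + c • x) + (x + c • x)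

lemma Plus.add {c g : G} {x y : A} (hx : Plus c g x) (hy : Plus c g y) : Plus c g (x + y) := by
  unfold Plus at hx hy ⊢
  have e : x + y + c • (x + y) = (x + c • x) + (y + c • y) := by
    rw [smul_add]
    abel
  rw [e, smul_add g, smul_add c (g • (x + c • x))]
  calc _ = (g • (x + c • x) + c • g • (x + c • x)) +
      (g • (y + c • y) + c • g • (y + c • y)) := by abel
    _ = _ := by
      rw [hx, hy]
      abel

lemma Plus.zero (c g : G) : Plus c g (0 : A) := by
  unfold Plus
  simp only [smul_zero, add_zero]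

lemma Plus.of_coprime {c g : G} {a b : ℕ} (hab : a.Coprime b)
    (ha : ∀ x : A, a • x = 0 → Plus c g x) (hb : ∀ x : A, b • x = 0 → Plus c g x) {x : A}
    (hx : (a * b) • x = 0) : Plus c g x := by
  obtain ⟨r, s, hrs⟩ := Nat.isCoprime_iff_coprime.mpr hab
  have e : x = (s * b : ℤ) • x + (r * a : ℤ) • x := by
    rw [← add_smul, add_comm (s * (b : ℤ)), hrs, one_smul]
  rw [e]
  refine (ha _ ?_).add (hb _ ?_)
  · rw [← natCast_zsmul, smul_smul, show (a : ℤ) * (s * b) = s * ((a * b : ℕ) : ℤ) by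
      push_cast; ring, mul_smul, natCast_zsmul, hx, smul_zero]
  · rw [← natCast_zsmul, smul_smul, show (b : ℤ) * (r * a) = r * ((a * b : ℕ) : ℤ) by
      push_cast; ring, mul_smul, natCast_zsmul, hx, smul_zero]

/-- If `z + z = 0` and `m z = 0` with `m` odd, then `z = 0`. -/
lemma eq_zero_of_odd {m : ℕ} (hm : Odd m) {z : A} (h1 : m • z = 0) (h2 : z + z = 0) : z = 0 := by
  obtain ⟨k, rfl⟩ := hm
  rw [add_smul, mul_comm, mul_smul, two_smul, h2, smul_zero, zero_add, one_smul] at h1
  exact h1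

/-- The subgroup generated by the `g x - x`. -/
def moved (G : Type*) {A : Type*} [Group G] [AddCommGroup A] [DistribMulAction G A] (x : A) :
    AddSubgroup A :=
  AddSubgroup.closure (Set.range fun g : G => g • x - x)

lemma sub_mem_moved (x : A) (g : G) : g • x - x ∈ moved G x :=
  AddSubgroup.subset_closure ⟨g, rfl⟩

/-- It is stable. -/
lemma smul_mem_moved (x : A) (g : G) {z : A} (hz : z ∈ moved G x) : g • z ∈ moved G x := by
  refine AddSubgroup.closure_induction (p := fun z _ => g • z ∈ moved G x) ?_ ?_ ?_ ?_ hz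
  · rintro _ ⟨h, rfl⟩
    have e : g • (h • x - x) = ((g * h) • x - x) - (g • x - x) := by
      rw [smul_sub, smul_smul]
      abel
    change g • (h • x - x) ∈ moved G x
    rw [e]
    exact (moved G x).sub_mem (sub_mem_moved x _) (sub_mem_moved x _)
  · rw [smul_zero]
    exact (moved G x).zero_mem
  · rintro y z - - h1 h2
    rw [smul_add]
    exact (moved G x).add_mem h1 h2
  · rintro y - h1
    rw [smul_neg]
    exact (moved G x).neg_mem h1

/-- If `c x = x`, `m x = 0` with `m` odd and `(1 + c) g (1 + c) = 2 (1 + c)` on `x`, then the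
`g x - x` generate a group killed by `m` and by `1 + c`. -/
lemma moved_spec {c : G} {m : ℕ} (hm : Odd m) {x : A} (hx : m • x = 0) (hcx : c • x = x)
    (hP : ∀ g : G, Plus c g x) {z : A} (hz : z ∈ moved G x) : m • z = 0 ∧ c • z = -z := by
  refine AddSubgroup.closure_induction (p := fun z _ => m • z = 0 ∧ c • z = -z) ?_ ?_ ?_ ?_ hz
  · rintro _ ⟨g, rfl⟩
    have h1 : m • (g • x - x) = 0 := by
      rw [smul_sub, smul_comm m g x, hx, smul_zero, sub_zero]
    refine ⟨h1, ?_⟩
    have h2 := hP g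
    unfold Plus at h2
    rw [hcx] at h2
    have h3 : g • x + c • g • x - x - x = 0 := by
      apply eq_zero_of_odd hm
      · rw [smul_sub, smul_sub, smul_add, smul_comm m c, smul_comm m g x, hx]
        simp only [smul_zero, add_zero, sub_zero]
      · have h4 : g • (x + x) + c • g • (x + x) - (x + x) - (x + x) = 0 := by
          rw [h2]
          abel
        rw [smul_add, smul_add] at h4
        rw [← h4]
        abel
    change c • (g • x - x) = -(g • x - x)
    rw [smul_sub, hcx, eq_neg_iff_add_eq_zero, ← h3]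
    abel
  · exact ⟨smul_zero _, by rw [smul_zero, _root_.neg_zero]⟩
  · rintro y z - - ⟨h1, h2⟩ ⟨h3, h4⟩
    exact ⟨by rw [smul_add, h1, h3, add_zero], by rw [smul_add, h2, h4, neg_add]⟩
  · rintro y - ⟨h1, h2⟩
    exact ⟨by rw [smul_neg, h1, _root_.neg_zero], by rw [smul_neg, h2]⟩

/-- A point of order `pⁿ⁺¹` fixed by the involution `c`. -/
lemma exists_fixed_pow {p : ℕ} [Fact p.Prime] {c : G} (hc : c * c = 1)
    (hdiv : ∀ x : A, ∃ y : A, p • y = x) {x₁ : A} (hx₁ : p • x₁ = 0) (hne : x₁ + c • x₁ ≠ 0)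
    (n : ℕ) : ∃ x : A, addOrderOf x = p ^ (n + 1) ∧ c • x = x := by
  obtain ⟨y, hy⟩ : ∃ y : A, p ^ n • y = x₁ := by
    induction n with
    | zero => exact ⟨x₁, by rw [pow_zero, one_smul]⟩
    | succ k ih =>
      obtain ⟨y, hy⟩ := ih
      obtain ⟨z, hz⟩ := hdiv y
      exact ⟨z, by rw [pow_succ, mul_smul, hz, hy]⟩
  refine ⟨y + c • y, addOrderOf_eq_prime_pow ?_ ?_, ?_⟩
  · rw [smul_add, smul_comm (p ^ n) c y, hy]
    exact hne
  · rw [pow_succ', mul_smul, smul_add (p ^ n), smul_comm (p ^ n) c y, hy, smul_add,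
      smul_comm p c x₁, hx₁, smul_zero, add_zero]
  · rw [smul_add, smul_smul, hc, one_smul, add_comm]

/-- Sums of fixed points of coprime orders. -/
lemma exists_fixed_mul {c : G} {a b : ℕ} (hab : a.Coprime b)
    (ha : ∃ x : A, addOrderOf x = a ∧ c • x = x) (hb : ∃ x : A, addOrderOf x = b ∧ c • x = x) :
    ∃ x : A, addOrderOf x = a * b ∧ c • x = x := by
  obtain ⟨x, hx, hcx⟩ := ha
  obtain ⟨y, hy, hcy⟩ := hb
  refine ⟨x + y, ?_, by rw [smul_add, hcx, hcy]⟩
  rw [(AddCommute.all x y).addOrderOf_add_eq_mul_addOrderOf_of_coprime (by rwa [hx, hy]), hx, hy]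

/-- The order of the image of `x` under a surjection with kernel `moved G x`. -/
lemma addOrderOf_map {B : Type*} [AddCommGroup B] {c : G} {m : ℕ} (hm : Odd m) {x : A}
    (hx : addOrderOf x = m) (hcx : c • x = x) (hP : ∀ g : G, Plus c g x) (φ : A →+ B)
    (hφ : φ.ker = moved G x) : addOrderOf (φ x) = m := by
  have hmx : m • x = 0 := by
    rw [← hx]
    exact addOrderOf_nsmul_eq_zero x
  refine Nat.dvd_antisymm ?_ ?_
  · rw [addOrderOf_dvd_iff_nsmul_eq_zero, ← map_nsmul, hmx, _root_.map_zero]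
  · have h1 : φ (addOrderOf (φ x) • x) = 0 := by
      rw [map_nsmul]
      exact addOrderOf_nsmul_eq_zero _
    have h2 : addOrderOf (φ x) • x ∈ moved G x := by
      rw [← hφ]
      exact h1
    obtain ⟨h3, h4⟩ := moved_spec hm hmx hcx hP h2
    rw [smul_comm c, hcx] at h4
    have h5 : addOrderOf (φ x) • x = 0 :=
      eq_zero_of_odd hm h3 (eq_neg_iff_add_eq_zero.mp h4)
    have h6 := addOrderOf_dvd_of_nsmul_eq_zero h5
    rwa [hx] at h6

end Alg

/-- The complex conjugation. -/
local notation "cc" => (complexConjugation : AlgebraicClosure ℚ ≃ₐ[ℚ] AlgebraicClosure ℚ)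

variable {W : WeierstrassCurve ℤ}

/-- A set of primes containing a set of density one has density one. -/
theorem _root_.Fermat.Agent.Cor.HasDirichletDensity.of_one {S S' : Set ℕ}
    (h : HasDirichletDensity S 1) (hSS : S ⊆ S') : HasDirichletDensity S' 1 := by
  have h0 := HasDirichletDensity.univ
  rw [hasDirichletDensity_iff] at h h0 ⊢
  refine tendsto_of_tendsto_of_tendsto_of_le_of_le' h h0 ?_ ?_
  · filter_upwards [self_mem_nhdsWithin,
      FrobDensity.tendsto_log_atTop.eventually_gt_atTop 0] with s h1 h2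
    refine div_le_div_of_nonneg_right (FrobDensity.PS_mono (Dens.abs_chi_le S)
      (Dens.abs_chi_le S') ?_ h1) h2.le
    intro n _
    unfold Dens.chi
    split_ifs with h3 h4
    · exact le_rfl
    · exact absurd (hSS h3) h4
    · exact zero_le_one
    · exact le_rfl
  · filter_upwards [self_mem_nhdsWithin,
      FrobDensity.tendsto_log_atTop.eventually_gt_atTop 0] with s h1 h2
    refine div_le_div_of_nonneg_right (FrobDensity.PS_mono (Dens.abs_chi_le S')
      (Dens.abs_chi_le Set.univ) ?_ h1) h2.le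
    intro n _
    unfold Dens.chi
    split_ifs with h3 h4
    · exact le_rfl
    · exact absurd (Set.mem_univ _) h4
    · exact zero_le_one
    · exact le_rfl

/-- The number of points modulo `ℓ`, in `ℤ/m`. -/
lemma dvd_card_iff' {m ℓ : ℕ} : m ∣ (W.reductionMod ℓ).card ↔
    ((W.apOfModel ℓ : ℤ) : ZMod m) = 1 + (ℓ : ZMod m) := by
  have h7 : W.apOfModel ℓ = (ℓ : ℤ) + 1 - ((W.reductionMod ℓ).card : ℤ) := by
    unfold apOfModel traceOfFrobenius
    rw [Nat.card_zmod]
  rw [h7, ← ZMod.natCast_eq_zero_iff]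
  push_cast
  constructor
  · intro h8
    linear_combination -h8
  · intro h8
    linear_combination -h8

/-- Prime powers. -/
theorem plus_pow (hΔ : W.Δ ≠ 0) {p : ℕ} [hp : Fact p.Prime] {n : ℕ}
    (h : HasDirichletDensity {ℓ | p ^ n ∣ (W.reductionMod ℓ).card} 1) (σ : Gam) {x : Pt W}
    (hx : p ^ n • x = 0) : Plus cc σ x := by
  obtain ⟨X⟩ := exists_tb (p := p) hΔ
  have h1 : HasDirichletDensity
      {ℓ | ((W.apOfModel ℓ : ℤ) : ZMod (p ^ n)) = 1 + (ℓ : ZMod (p ^ n))} 1 :=
    h.congr_of_finset ∅ fun ℓ _ _ => dvd_card_iff'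
  have htr : ∀ τ : Gam, (rhoN X n τ : Matrix (Fin 2) (Fin 2) (ZMod (p ^ n))).trace =
      1 + (rhoN X n τ : Matrix (Fin 2) (Fin 2) (ZMod (p ^ n))).det := fun τ =>
    of_dens_one X n hΔ (P := fun x y => x = 1 + y) h1 τ
  have hdet : (rhoN X n cc : Matrix (Fin 2) (Fin 2) (ZMod (p ^ n))).det = -1 := by
    rw [det_rhoN, X.det_M, cyc_complexConjugation, map_neg, map_one]
  have hmul : (rhoN X n (σ * cc) : Matrix (Fin 2) (Fin 2) (ZMod (p ^ n))) =
      (rhoN X n σ : Matrix (Fin 2) (Fin 2) (ZMod (p ^ n))) * (rhoN X n cc : _) := by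
    rw [map_mul, Units.val_mul]
  have h2 := htr (σ * cc)
  rw [hmul] at h2
  have key := sandwich hdet (htr cc) (htr σ) h2
  -- transfer to the endomorphisms of `W[pⁿ]`
  let T : Gam → Module.End (ZMod (p ^ n)) (Submodule.torsionBy ℤ
    ((W.map (Int.castRingHom ℚ))⁄(AlgebraicClosure ℚ)).Point ((p ^ n : ℕ) : ℤ)) := fun τ =>
    galoisRepModuleEnd (K := AlgebraicClosure ℚ) ℚ (W.map (Int.castRingHom ℚ)) (p ^ n) τ
  have hT : ∀ τ, LinearMap.toMatrix (X.bn n) (X.bn n) (T τ) = (rhoN X n τ : _) := fun τ =>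
    X.map_M τ n
  have key2 : (1 + T cc) * T σ * (1 + T cc) = (2 : ZMod (p ^ n)) • (1 + T cc) := by
    apply (LinearMap.toMatrix (X.bn n) (X.bn n)).injective
    rw [LinearMap.toMatrix_mul, LinearMap.toMatrix_mul, map_smul, map_add, LinearMap.toMatrix_one,
      hT, hT]
    exact key
  let x' : Submodule.torsionBy ℤ ((W.map (Int.castRingHom ℚ))⁄(AlgebraicClosure ℚ)).Point
    ((p ^ n : ℕ) : ℤ) := ⟨x, by
      rw [Submodule.mem_torsionBy_iff, natCast_zsmul]
      exact hx⟩
  have key3 := LinearMap.congr_fun key2 x'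
  have key4 := congrArg (fun z : Submodule.torsionBy ℤ
    ((W.map (Int.castRingHom ℚ))⁄(AlgebraicClosure ℚ)).Point ((p ^ n : ℕ) : ℤ) => (z : Pt W)) key3
  rw [two_smul] at key4
  exact key4

/-- All `m`. -/
theorem plus_of_dens (hΔ : W.Δ ≠ 0) (m : ℕ) : m ≠ 0 →
    HasDirichletDensity {ℓ | m ∣ (W.reductionMod ℓ).card} 1 →
    ∀ (σ : Gam) (x : Pt W), m • x = 0 → Plus cc σ x := by
  induction m using Nat.recOnPosPrimePosCoprime with
  | prime_pow p n hp hn =>
    intro _ h σ x hx
    have hF : Fact p.Prime := ⟨hp⟩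
    exact plus_pow hΔ h σ hx
  | zero => exact fun h => absurd rfl h
  | one =>
    intro _ _ σ x hx
    rw [one_smul] at hx
    rw [hx]
    exact Plus.zero cc σ
  | coprime a b ha hb hab iha ihb =>
    intro h0 h σ x hx
    exact Plus.of_coprime hab
      (iha (by omega) (h.of_one fun ℓ hℓ => (dvd_mul_right a b).trans hℓ) σ)
      (ihb (by omega) (h.of_one fun ℓ hℓ => (dvd_mul_left b a).trans hℓ) σ) hx

/-! ### A real point of order `m` -/

/-- Complex conjugation is not `-1` on `W[p]`, `p` odd. -/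
lemma exists_conj_ne (hΔ : W.Δ ≠ 0) {p : ℕ} [hp : Fact p.Prime] (hp2 : p ≠ 2) :
    ∃ x : Pt W, p • x = 0 ∧ x + cc • x ≠ 0 := by
  by_contra hcon
  push Not at hcon
  obtain ⟨e, he⟩ := exists_equiv p hΔ
  have h1 : (repP p hΔ cc : Matrix (Fin 2) (Fin 2) (ZMod p)) = -1 := by
    refine GalW.mulVec_ext fun v => ?_
    have h2 := hcon (e.symm v : Pt W) (by
      have h1 := (Submodule.mem_torsionBy_iff _ _).mp (e.symm v).2
      rwa [natCast_zsmul] at h1)
    have h3 : e.symm v + cc • e.symm v = 0 := Subtype.ext h2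
    have h4 := congrArg e h3
    rw [map_add, he, e.apply_symm_apply, _root_.map_zero] at h4
    rw [Matrix.neg_mulVec, Matrix.one_mulVec]
    exact eq_neg_of_add_eq_zero_right h4
  have h5 := det_repP_involution (p := p) hΔ complexConjugation_mul_self
    S41neh.complexConjugation_ne_one
  rw [h1, Matrix.det_neg, Matrix.det_one, Fintype.card_fin] at h5
  norm_num at h5
  have h6 : (2 : ZMod p) = 0 := by linear_combination h5
  exact Ring.two_ne_zero (Cheb.ringChar_ne_two hp2) h6

/-- **A point of order `m` fixed by complex conjugation**, `m` odd. -/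
theorem exists_real_point (hΔ : W.Δ ≠ 0) (m : ℕ) : Odd m →
    ∃ x : Pt W, addOrderOf x = m ∧ cc • x = x := by
  induction m using Nat.recOnPosPrimePosCoprime with
  | prime_pow p n hp hn =>
    intro hodd
    have hF : Fact p.Prime := ⟨hp⟩
    have hp2 : p ≠ 2 := by
      rintro rfl
      exact (Nat.not_odd_iff_even.mpr ((even_two).pow_of_ne_zero hn.ne')) hodd
    obtain ⟨n, rfl⟩ : ∃ k, n = k + 1 := ⟨n - 1, by omega⟩
    obtain ⟨x₁, hx₁, hne⟩ := exists_conj_ne hΔ hp2
    have hEll : (W.map (Int.castRingHom ℚ)).IsElliptic := ⟨isUnit_iff_ne_zero.mpr (map_Δ_ne hΔ)⟩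
    exact exists_fixed_pow complexConjugation_mul_self
      (fun y => K1.divisible hp (W.map (Int.castRingHom ℚ)) y) hx₁ hne n
  | zero => exact fun h => absurd h (by decide)
  | one => exact fun _ => ⟨0, addOrderOf_zero, smul_zero (A := Pt W) cc⟩
  | coprime a b ha hb hab iha ihb =>
    intro hodd
    exact exists_fixed_mul hab (iha (Nat.Odd.of_mul_left hodd)) (ihb (Nat.Odd.of_mul_right hodd))

/-! ### The theorem -/

/-- **The quotient**, `m` odd: an isogeny of odd degree to a curve with a rational point of order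
`m`. -/
theorem exists_quotient_of_dens (hΔ : W.Δ ≠ 0) {m : ℕ} (hm : Odd m)
    (h : HasDirichletDensity {ℓ | m ∣ (W.reductionMod ℓ).card} 1) :
    ∃ (E' : WeierstrassCurve ℚ) (_ : E'.IsElliptic) (φ : Pt W →+ Pts E'),
      Function.Surjective φ ∧ (∀ (σ : Gam) (x : Pt W), φ (σ • x) = σ • φ x) ∧ Finite φ.ker ∧
      Odd (Nat.card φ.ker) ∧ ∃ x : Pt W, addOrderOf (φ x) = m ∧ ∀ σ : Gam, σ • φ x = φ x := by
  have hm0 : m ≠ 0 := fun h0 => by
    rw [h0] at hm
    exact absurd hm (by decide)
  obtain ⟨x, hx, hcx⟩ := exists_real_point hΔ m hm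
  have hmx : m • x = 0 := by
    rw [← hx]
    exact addOrderOf_nsmul_eq_zero x
  have hP : ∀ σ : Gam, Plus cc σ x := fun σ => plus_of_dens hΔ m hm0 h σ x hmx
  -- the subgroup generated by the `σ x - x`
  have hN1 : ∀ z ∈ moved Gam x, m • z = 0 ∧ cc • z = -z := fun z hz =>
    moved_spec hm hmx hcx hP hz
  have hfin : Finite (moved Gam x) := by
    have h1 : Finite {P : Pt W // m • P = 0} := by
      have hΔ' : ((W.map (Int.castRingHom ℚ))⁄(AlgebraicClosure ℚ) :
          WeierstrassCurve (AlgebraicClosure ℚ)).Δ ≠ 0 := by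
        rw [show ((W.map (Int.castRingHom ℚ))⁄(AlgebraicClosure ℚ) :
          WeierstrassCurve (AlgebraicClosure ℚ)) =
          (W.map (Int.castRingHom ℚ)).map (algebraMap ℚ (AlgebraicClosure ℚ)) from rfl,
          WeierstrassCurve.map_Δ]
        simpa using map_Δ_ne hΔ
      have h2 : Nat.card {P : Pt W // m • P = 0} = m ^ 2 :=
        Torsion.card_torsion hΔ' (by exact_mod_cast hm0)
      exact Nat.finite_of_card_ne_zero (by rw [h2]; exact pow_ne_zero 2 hm0)
    exact Finite.of_injective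
      (fun z : moved Gam x => (⟨z, (hN1 z z.2).1⟩ : {P : Pt W // m • P = 0}))
      fun a b hab => Subtype.ext (congrArg (fun z : {P : Pt W // m • P = 0} => (z : Pt W)) hab)
  have hodd : Odd (Nat.card (moved Gam x)) := by
    rw [← Nat.not_even_iff_odd, even_iff_two_dvd]
    intro h2
    have : Fact (Nat.Prime 2) := ⟨Nat.prime_two⟩
    obtain ⟨z, hz⟩ := exists_prime_addOrderOf_dvd_card' 2 h2
    have h3 : z + z = 0 := by
      have := addOrderOf_nsmul_eq_zero z
      rwa [hz, two_smul] at this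
    have h4 : m • z = 0 := Subtype.ext (hN1 z z.2).1
    have h5 : z = 0 := eq_zero_of_odd hm h4 h3
    rw [h5, addOrderOf_zero] at hz
    exact absurd hz (by decide)
  obtain ⟨E', hE', φ, hφ, hker, hsurj⟩ :=
    exists_quotient (W.map (Int.castRingHom ℚ)) (map_Δ_ne hΔ) (moved Gam x) hodd
      (fun σ z hz => smul_mem_moved x σ hz)
  refine ⟨E', ⟨isUnit_iff_ne_zero.mpr hE'⟩, φ, hsurj, hφ, by rw [hker]; exact hfin,
    by rw [hker]; exact hodd, x, addOrderOf_map hm hx hcx hP φ hker, fun σ => ?_⟩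
  have h1 : σ • x - x ∈ φ.ker := by
    rw [hker]
    exact sub_mem_moved x σ
  rw [AddMonoidHom.mem_ker, _root_.map_sub, hφ, sub_eq_zero] at h1
  exact h1

/-- **Katz's theorem over `ℚ`**, `m` not divisible by `4`: if the number of points of `W` modulo
`ℓ` is divisible by `m` for a set of primes `ℓ` of density one, then `W` is isogenous over `ℚ` to an
elliptic curve with a rational point of order `m`. -/
theorem katz_of_not_four_dvd (hΔ : W.Δ ≠ 0) {m : ℕ} (hm : ¬ 4 ∣ m)
    (h : HasDirichletDensity {ℓ | m ∣ (W.reductionMod ℓ).card} 1) :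
    ∃ (E' : WeierstrassCurve ℚ) (_ : E'.IsElliptic),
      IsIsogenous (W.map (Int.castRingHom ℚ)) E' ∧ ∃ P : E'.toAffine.Point, addOrderOf P = m := by
  rcases Nat.even_or_odd m with heven | hodd
  · obtain ⟨k, rfl⟩ : ∃ k, m = 2 * k := even_iff_two_dvd.mp heven
    have hk : Odd k := by
      rw [← Nat.not_even_iff_odd]
      rintro ⟨j, rfl⟩
      exact hm ⟨j, by ring⟩
    obtain ⟨E', hE', φ, hsurj, hφ, hfin, hcard, x, hx, hfix⟩ :=
      exists_quotient_of_dens hΔ hk (h.of_one fun ℓ hℓ => (dvd_mul_left k 2).trans hℓ)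
    -- a rational point of order two
    obtain ⟨Q, hQ, hfixQ⟩ : ∃ Q : Pt W, addOrderOf Q = 2 ∧ ∀ σ : Gam, σ • Q = Q := by
      have hF : Fact (Nat.Prime 2) := ⟨Nat.prime_two⟩
      rcases exists_point_or_line (p := 2) hΔ
        (h.of_one fun ℓ hℓ => (dvd_mul_right 2 k).trans hℓ) with h1 | ⟨L, hL, hst, -⟩
      · exact h1
      · exact exists_point_of_card_two L hL hst
    have hQ2 : addOrderOf (φ Q) = 2 := by
      have hF : Fact (Nat.Prime 2) := ⟨Nat.prime_two⟩
      have h2Q : 2 • Q = 0 := by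
        rw [← hQ]
        exact addOrderOf_nsmul_eq_zero Q
      refine addOrderOf_eq_prime (by rw [← map_nsmul, h2Q, _root_.map_zero]) fun h0 => ?_
      have h1 : (⟨Q, h0⟩ : φ.ker) = 0 := by
        refine eq_zero_of_odd hcard ?_ (Subtype.ext (by
          have h3 : Q + Q = 0 := by rw [← two_smul ℕ]; exact h2Q
          exact h3))
        exact card_nsmul_eq_zero'
      have h2 : Q = 0 := congrArg (fun z : φ.ker => (z : Pt W)) h1
      rw [h2, addOrderOf_zero] at hQ
      exact absurd hQ (by decide)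
    have hord : addOrderOf (φ Q + φ x) = 2 * k := by
      rw [(AddCommute.all (φ Q) (φ x)).addOrderOf_add_eq_mul_addOrderOf_of_coprime
        (by rw [hQ2, hx]; exact (Nat.coprime_two_left).mpr hk), hQ2, hx]
    obtain ⟨R, hR⟩ := exists_point E' (φ Q + φ x) fun σ => by
      rw [smul_add σ (φ Q) (φ x), hfix, ← hφ, hfixQ]
    exact ⟨E', hE', ⟨φ, hsurj, hφ, hfin⟩, R, hR.trans hord⟩
  · obtain ⟨E', hE', φ, hsurj, hφ, hfin, -, x, hx, hfix⟩ := exists_quotient_of_dens hΔ hodd h
    obtain ⟨R, hR⟩ := exists_point E' (φ x) hfix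
    exact ⟨E', hE', ⟨φ, hsurj, hφ, hfin⟩, R, hR.trans hx⟩

/-- **Katz's theorem over `ℚ`**, for all but finitely many `ℓ`. -/
theorem katz_of_not_four_dvd_of_finite (hΔ : W.Δ ≠ 0) {m : ℕ} (hm : ¬ 4 ∣ m)
    (h : {ℓ : ℕ | ℓ.Prime ∧ ¬ m ∣ (W.reductionMod ℓ).card}.Finite) :
    ∃ (E' : WeierstrassCurve ℚ) (_ : E'.IsElliptic),
      IsIsogenous (W.map (Int.castRingHom ℚ)) E' ∧ ∃ P : E'.toAffine.Point, addOrderOf P = m := by
  refine katz_of_not_four_dvd hΔ hm
    (HasDirichletDensity.univ.congr_of_finset h.toFinset fun ℓ hℓ hℓT => ?_)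
  have h1 : ¬ (ℓ.Prime ∧ ¬ m ∣ (W.reductionMod ℓ).card) := fun h' => hℓT (h.mem_toFinset.mpr h')
  simp only [Set.mem_univ, true_iff]
  by_contra h2
  exact h1 ⟨hℓ, h2⟩

end Fermat.Agent.Cor.Katz
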