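import Fermat.Agent.Corollaries.Katz.Mean
import Fermat.Agent.Corollaries.Katz.Ker
import Fermat.Agent.Corollaries.Surj.Semi
import Fermat.Agent.Corollaries.InvGal.Open37All

/-!
# The Galois orbits of torsion points

`W` is an elliptic curve over `ℚ` for which every automorphism of `W[M]` comes from `Gal(ℚ̄/ℚ)`,
for all `M ∣ N`.

* `exists_smul_eq` : two points of `W[N]` are conjugate if and only if they have the same order;
* `orbits_eq` : there are `d(N)` orbits, the number of divisors of `N`;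
* `mean_eq_card_divisors` : the mean of `#W(𝔽_ℓ)[N]` over the primes `ℓ` is `d(N)`.

This applies to semistable `W` if the primes dividing `N` are `11` or `≥ 17`, and to the curve
`y² + y = x³ - x` of conductor `37` for every odd `N`.
-/

set_option autoImplicit false

noncomputable section

open Matrix WeierstrassCurve WeierstrassCurve.Affine Filter Topology

namespace Fermat.Agent.Cor.Katz

open Fermat.Agent.Classic
open Fermat.Agent.Cor.K1 (Gam Pts)
open Fermat.Agent.Cor.Mazur (Pt)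

/-! ### Vectors over `ℤ/pⁿ` -/

section Vec

variable {R : Type*} [CommRing R]

lemma mulVec_injective (g : GL (Fin 2) R) :
    Function.Injective fun v : Fin 2 → R => (g : Matrix (Fin 2) (Fin 2) R) *ᵥ v := by
  intro v w h
  have h1 := congrArg (fun u => ((g⁻¹ : GL (Fin 2) R) : Matrix (Fin 2) (Fin 2) R) *ᵥ u) h
  simp only [Matrix.mulVec_mulVec, ← Units.val_mul, inv_mul_cancel, Units.val_one,
    Matrix.one_mulVec] at h1
  exact h1

lemma addOrderOf_mulVec (g : GL (Fin 2) R) (v : Fin 2 → R) :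
    addOrderOf ((g : Matrix (Fin 2) (Fin 2) R) *ᵥ v) = addOrderOf v :=
  addOrderOf_injective (Matrix.mulVecLin (g : Matrix (Fin 2) (Fin 2) R)).toAddMonoidHom
    (mulVec_injective g) v

lemma addOrderOf_vec (x : R) : addOrderOf (![x, 0] : Fin 2 → R) = addOrderOf x := by
  rw [addOrderOf_eq_addOrderOf_iff]
  intro n
  constructor
  · intro h
    simpa using congrFun h 0
  · intro h
    ext i
    fin_cases i
    · simpa using h
    · simp

variable {p : ℕ} [hp : Fact p.Prime] {n : ℕ}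

/-- Every element of `ℤ/pⁿ` is a power of `p` times a unit. -/
lemma exists_eq_pow_mul (a : ZMod (p ^ n)) :
    ∃ i ≤ n, ∃ u : (ZMod (p ^ n))ˣ, a = (p : ZMod (p ^ n)) ^ i * u := by
  by_cases ha : a = 0
  · refine ⟨n, le_rfl, 1, ?_⟩
    rw [ha, Units.val_one, mul_one, ← Nat.cast_pow, ZMod.natCast_self]
  · have hv : a.val ≠ 0 := fun h => ha ((ZMod.val_eq_zero a).mp h)
    obtain ⟨e, m, hm, he⟩ := Nat.exists_eq_pow_mul_and_not_dvd hv p hp.out.ne_one
    have hlt : p ^ e < p ^ n := by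
      have h1 : a.val < p ^ n := ZMod.val_lt a
      have h2 : 0 < m := Nat.pos_of_ne_zero (by
        rintro rfl
        exact hm (dvd_zero p))
      calc p ^ e ≤ p ^ e * m := Nat.le_mul_of_pos_right _ h2
        _ = a.val := he.symm
        _ < p ^ n := h1
    have hen : e < n := (Nat.pow_lt_pow_iff_right hp.out.one_lt).mp hlt
    have hco : m.Coprime (p ^ n) :=
      Nat.Coprime.pow_right n ((Nat.Prime.coprime_iff_not_dvd hp.out).mpr hm).symm
    refine ⟨e, hen.le, ZMod.unitOfCoprime m hco, ?_⟩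
    rw [ZMod.coe_unitOfCoprime, ← Nat.cast_pow, ← Nat.cast_mul, ← he, ZMod.natCast_zmod_val]

/-- Normal form of a vector. -/
lemma exists_normal (v : Fin 2 → ZMod (p ^ n)) : ∃ i ≤ n, ∃ g : GL (Fin 2) (ZMod (p ^ n)),
    (g : Matrix (Fin 2) (Fin 2) (ZMod (p ^ n))) *ᵥ v = ![(p : ZMod (p ^ n)) ^ i, 0] := by
  rcases zmod_dvd_total (v 0) (v 1) with ⟨c, hc⟩ | ⟨c, hc⟩
  · obtain ⟨i, hi, u, hu⟩ := exists_eq_pow_mul (v 0)
    have hdet : IsUnit (!![((u⁻¹ : (ZMod (p ^ n))ˣ) : ZMod (p ^ n)), 0; -c, 1]).det := by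
      rw [Matrix.det_fin_two_of, mul_one, zero_mul, sub_zero]
      exact Units.isUnit _
    refine ⟨i, hi, Matrix.nonsingInvUnit _ hdet, ?_⟩
    change !![((u⁻¹ : (ZMod (p ^ n))ˣ) : ZMod (p ^ n)), 0; -c, 1] *ᵥ v = _
    ext j
    fin_cases j
    · simp only [Matrix.mulVec, dotProduct, Fin.sum_univ_two, Fin.zero_eta, Matrix.of_apply,
        Matrix.cons_val', Matrix.cons_val_zero, Matrix.cons_val_one, Matrix.cons_val_fin_one,
        zero_mul, add_zero]
      rw [hu, mul_comm, mul_assoc, Units.mul_inv, mul_one]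
    · simp only [Matrix.mulVec, dotProduct, Fin.sum_univ_two, Fin.mk_one, Matrix.of_apply,
        Matrix.cons_val', Matrix.cons_val_zero, Matrix.cons_val_one, Matrix.cons_val_fin_one,
        one_mul]
      rw [hc]
      ring
  · obtain ⟨i, hi, u, hu⟩ := exists_eq_pow_mul (v 1)
    have hdet : IsUnit (!![0, ((u⁻¹ : (ZMod (p ^ n))ˣ) : ZMod (p ^ n)); 1, -c]).det := by
      rw [Matrix.det_fin_two_of, zero_mul, mul_one, zero_sub]
      exact (Units.isUnit _).neg
    refine ⟨i, hi, Matrix.nonsingInvUnit _ hdet, ?_⟩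
    change !![0, ((u⁻¹ : (ZMod (p ^ n))ˣ) : ZMod (p ^ n)); 1, -c] *ᵥ v = _
    ext j
    fin_cases j
    · simp only [Matrix.mulVec, dotProduct, Fin.sum_univ_two, Fin.zero_eta, Matrix.of_apply,
        Matrix.cons_val', Matrix.cons_val_zero, Matrix.cons_val_one, Matrix.cons_val_fin_one,
        zero_mul, zero_add]
      rw [hu, mul_comm, mul_assoc, Units.mul_inv, mul_one]
    · simp only [Matrix.mulVec, dotProduct, Fin.sum_univ_two, Fin.mk_one, Matrix.of_apply,
        Matrix.cons_val', Matrix.cons_val_zero, Matrix.cons_val_one, Matrix.cons_val_fin_one,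
        one_mul]
      rw [hc]
      ring

/-- The vectors of a given order are equivalent. -/
lemma exists_GL_of_addOrderOf_eq {v w : Fin 2 → ZMod (p ^ n)} (h : addOrderOf v = addOrderOf w) :
    ∃ g : GL (Fin 2) (ZMod (p ^ n)), (g : Matrix (Fin 2) (Fin 2) (ZMod (p ^ n))) *ᵥ v = w := by
  obtain ⟨i, hi, a, ha⟩ := exists_normal v
  obtain ⟨j, hj, b, hb⟩ := exists_normal w
  have hord : ∀ k ≤ n, addOrderOf (![(p : ZMod (p ^ n)) ^ k, 0] : Fin 2 → ZMod (p ^ n)) =
      p ^ (n - k) := by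
    intro k hk
    rw [addOrderOf_vec, ← Nat.cast_pow, ZMod.addOrderOf_coe _ (pow_ne_zero n hp.out.ne_zero),
      Nat.gcd_eq_right (pow_dvd_pow p hk), Nat.pow_div hk hp.out.pos]
  rw [← addOrderOf_mulVec a v, ← addOrderOf_mulVec b w, ha, hb, hord i hi, hord j hj] at h
  have h1 := Nat.pow_right_injective hp.out.two_le h
  have hij : i = j := by
    have h2 : n - i = n - j := h1
    omega
  subst hij
  refine ⟨b⁻¹ * a, ?_⟩
  rw [Units.val_mul, ← Matrix.mulVec_mulVec, ha, ← hb, Matrix.mulVec_mulVec, ← Units.val_mul,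
    inv_mul_cancel, Units.val_one, Matrix.one_mulVec]

/-- The linear automorphism given by an element of `GL₂`. -/
def glEquiv (g : GL (Fin 2) R) : (Fin 2 → R) ≃ₗ[R] (Fin 2 → R) :=
  LinearEquiv.ofLinearMap (Matrix.mulVecLin (g : Matrix (Fin 2) (Fin 2) R))
    (Matrix.mulVecLin ((g⁻¹ : GL (Fin 2) R) : Matrix (Fin 2) (Fin 2) R))
    (by rw [← Matrix.mulVecLin_mul, ← Units.val_mul, mul_inv_cancel, Units.val_one,
      Matrix.mulVecLin_one])
    (by rw [← Matrix.mulVecLin_mul, ← Units.val_mul, inv_mul_cancel, Units.val_one,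
      Matrix.mulVecLin_one])

end Vec

variable {W : WeierstrassCurve ℤ}

/-! ### Points of the same order are conjugate -/

lemma addOrderOf_smul_eq (σ : Gam) (x : Pt W) : addOrderOf (σ • x) = addOrderOf x :=
  addOrderOf_injective (DistribSMul.toAddMonoidHom (Pt W) σ) (MulAction.injective σ) x

/-- Prime powers. -/
theorem exists_smul_eq_pow (hΔ : W.Δ ≠ 0) {p : ℕ} [hp : Fact p.Prime] {n : ℕ}
    (h : SurjMod W (p ^ n)) {x y : Pt W} (hx : p ^ n • x = 0) (hy : p ^ n • y = 0)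
    (hxy : addOrderOf x = addOrderOf y) : ∃ σ : Gam, σ • x = y := by
  obtain ⟨X⟩ := exists_tb (p := p) hΔ
  set e := (X.bn n).equivFun with he
  let x' : Submodule.torsionBy ℤ ((W.map (Int.castRingHom ℚ))⁄(AlgebraicClosure ℚ)).Point
    ((p ^ n : ℕ) : ℤ) := ⟨x, (Torsion.mem_torsionBy_nat_iff _ _).mpr hx⟩
  let y' : Submodule.torsionBy ℤ ((W.map (Int.castRingHom ℚ))⁄(AlgebraicClosure ℚ)).Point
    ((p ^ n : ℕ) : ℤ) := ⟨y, (Torsion.mem_torsionBy_nat_iff _ _).mpr hy⟩
  have h1 : addOrderOf (e x') = addOrderOf (e y') := by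
    have h4 : addOrderOf (e x') = addOrderOf x' :=
      addOrderOf_injective e.toLinearMap.toAddMonoidHom e.injective x'
    have h5 : addOrderOf (e y') = addOrderOf y' :=
      addOrderOf_injective e.toLinearMap.toAddMonoidHom e.injective y'
    have h2 : addOrderOf x' = addOrderOf x :=
      (addOrderOf_injective (Submodule.subtype _).toAddMonoidHom Subtype.val_injective x').symm
    have h3 : addOrderOf y' = addOrderOf y :=
      (addOrderOf_injective (Submodule.subtype _).toAddMonoidHom Subtype.val_injective y').symm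
    rw [h4, h5, h2, h3, hxy]
  obtain ⟨g, hg⟩ := exists_GL_of_addOrderOf_eq h1
  obtain ⟨σ, hσ⟩ := h (e ≪≫ₗ glEquiv g ≪≫ₗ e.symm)
  refine ⟨σ, ?_⟩
  have h2 : σ • x' = y' := by
    rw [hσ]
    change e.symm ((g : Matrix (Fin 2) (Fin 2) (ZMod (p ^ n))) *ᵥ e x') = y'
    rw [hg, e.symm_apply_apply]
  exact congrArg Subtype.val h2

/-- **Two points of `W[N]` of the same order are conjugate.** -/
theorem exists_smul_eq (hΔ : W.Δ ≠ 0) (N : ℕ) : N ≠ 0 → (∀ M : ℕ, M ∣ N → SurjMod W M) →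
    ∀ x y : Pt W, N • x = 0 → N • y = 0 → addOrderOf x = addOrderOf y → ∃ σ : Gam, σ • x = y := by
  induction N using Nat.recOnPosPrimePosCoprime with
  | prime_pow p n hp hn =>
    intro _ h x y hx hy hxy
    have hF : Fact p.Prime := ⟨hp⟩
    exact exists_smul_eq_pow hΔ (h _ dvd_rfl) hx hy hxy
  | zero => exact fun h => absurd rfl h
  | one =>
    intro _ _ x y hx hy _
    rw [one_smul] at hx hy
    refine ⟨1, ?_⟩
    rw [one_smul, hx, hy]
  | coprime a b ha hb hab iha ihb =>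
    intro h0 h x y hx hy hxy
    -- idempotents
    obtain ⟨k₁, hk₁a, hk₁b⟩ := Nat.chineseRemainder hab 1 0
    obtain ⟨k₂, hk₂a, hk₂b⟩ := Nat.chineseRemainder hab 0 1
    have e1 : ∀ z : Pt W, (a * b) • z = 0 → k₁ • z + k₂ • z = z := by
      intro z hz
      have h1 : k₁ + k₂ ≡ 1 [MOD a * b] :=
        (Nat.modEq_and_modEq_iff_modEq_mul hab).mp ⟨hk₁a.add hk₂a, hk₁b.add hk₂b⟩
      rw [← add_smul, Div.nsmul_congr h1 hz, one_smul]
    have e2 : ∀ z : Pt W, (a * b) • z = 0 → k₁ • k₁ • z = k₁ • z := by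
      intro z hz
      have h1 : k₁ * k₁ ≡ k₁ [MOD a * b] :=
        (Nat.modEq_and_modEq_iff_modEq_mul hab).mp ⟨by simpa using hk₁a.mul_right k₁,
          by
            have h2 := hk₁b.mul_right k₁
            rw [zero_mul] at h2
            exact h2.trans hk₁b.symm⟩
      rw [smul_smul, Div.nsmul_congr h1 hz]
    have e3 : ∀ z : Pt W, (a * b) • z = 0 → k₂ • k₂ • z = k₂ • z := by
      intro z hz
      have h1 : k₂ * k₂ ≡ k₂ [MOD a * b] :=
        (Nat.modEq_and_modEq_iff_modEq_mul hab).mp ⟨by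
            have h2 := hk₂a.mul_right k₂
            rw [zero_mul] at h2
            exact h2.trans hk₂a.symm,
          by simpa using hk₂b.mul_right k₂⟩
      rw [smul_smul, Div.nsmul_congr h1 hz]
    have e4 : ∀ z : Pt W, (a * b) • z = 0 → k₁ • k₂ • z = 0 := by
      intro z hz
      have h1 : k₁ * k₂ ≡ 0 [MOD a * b] :=
        (Nat.modEq_and_modEq_iff_modEq_mul hab).mp ⟨by simpa using hk₂a.mul_left k₁,
          by simpa using hk₁b.mul_right k₂⟩
      rw [smul_smul, Div.nsmul_congr h1 hz, zero_nsmul]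
    have e5 : ∀ z : Pt W, (a * b) • z = 0 → a • k₁ • z = 0 := by
      intro z hz
      have h1 : a * k₁ ≡ 0 [MOD a * b] :=
        (Nat.modEq_and_modEq_iff_modEq_mul hab).mp
          ⟨(Nat.modEq_zero_iff_dvd).mpr (dvd_mul_right a k₁), by simpa using hk₁b.mul_left a⟩
      rw [smul_smul, Div.nsmul_congr h1 hz, zero_nsmul]
    have e6 : ∀ z : Pt W, (a * b) • z = 0 → b • k₂ • z = 0 := by
      intro z hz
      have h1 : b * k₂ ≡ 0 [MOD a * b] :=
        (Nat.modEq_and_modEq_iff_modEq_mul hab).mp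
          ⟨by simpa using hk₂a.mul_left b, (Nat.modEq_zero_iff_dvd).mpr (dvd_mul_right b k₂)⟩
      rw [smul_smul, Div.nsmul_congr h1 hz, zero_nsmul]
    have hord : ∀ k : ℕ, addOrderOf (k • x) = addOrderOf (k • y) := by
      intro k
      rw [addOrderOf_eq_addOrderOf_iff] at hxy ⊢
      intro n
      rw [smul_smul, smul_smul]
      exact hxy (n * k)
    obtain ⟨σ₁, hσ₁⟩ := iha (by omega) (fun M hM => h M (hM.mul_right b)) (k₁ • x) (k₁ • y)
      (e5 x hx) (e5 y hy) (hord k₁)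
    obtain ⟨σ₂, hσ₂⟩ := ihb (by omega) (fun M hM => h M (hM.mul_left a)) (k₂ • x) (k₂ • y)
      (e6 x hx) (e6 y hy) (hord k₂)
    -- the automorphism
    have hmem : ∀ z : Submodule.torsionBy ℤ (Pt W) ((a * b : ℕ) : ℤ), (a * b) • z.1 = 0 :=
      fun z => (Torsion.mem_torsionBy_nat_iff _ _).mp z.2
    have hmem' : ∀ z : Submodule.torsionBy ℤ (Pt W) ((a * b : ℕ) : ℤ),
        σ₁ • k₁ • z.1 + σ₂ • k₂ • z.1 ∈ Submodule.torsionBy ℤ (Pt W) ((a * b : ℕ) : ℤ) := by
      intro z
      have h1 : ∀ k : ℕ, (a * b) • k • z.1 = 0 := fun k => by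
        rw [smul_smul, mul_comm, mul_smul, hmem z, nsmul_zero]
      rw [Torsion.mem_torsionBy_nat_iff, nsmul_add, ← Div.smul_nsmul', ← Div.smul_nsmul',
        h1, h1, Div.smul_zero', Div.smul_zero', add_zero]
    let f : Submodule.torsionBy ℤ (Pt W) ((a * b : ℕ) : ℤ) →+
        Submodule.torsionBy ℤ (Pt W) ((a * b : ℕ) : ℤ) :=
      { toFun := fun z => ⟨σ₁ • k₁ • z.1 + σ₂ • k₂ • z.1, hmem' z⟩
        map_zero' := Subtype.ext (by
          change σ₁ • k₁ • (0 : Pt W) + σ₂ • k₂ • (0 : Pt W) = 0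
          rw [nsmul_zero, nsmul_zero, Div.smul_zero', Div.smul_zero', add_zero])
        map_add' := fun z z' => Subtype.ext (by
          change σ₁ • k₁ • (z.1 + z'.1) + σ₂ • k₂ • (z.1 + z'.1) =
            (σ₁ • k₁ • z.1 + σ₂ • k₂ • z.1) + (σ₁ • k₁ • z'.1 + σ₂ • k₂ • z'.1)
          rw [nsmul_add, nsmul_add, Div.smul_add', Div.smul_add']
          abel) }
    have hinj : Function.Injective f := by
      rw [injective_iff_map_eq_zero]
      intro z hz
      have h1 : σ₁ • k₁ • z.1 + σ₂ • k₂ • z.1 = 0 := congrArg Subtype.val hz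
      have h2 : k₁ • z.1 = 0 := by
        have h3 := congrArg (fun w : Pt W => k₁ • w) h1
        simp only [nsmul_add, nsmul_zero] at h3
        rw [← Div.smul_nsmul', ← Div.smul_nsmul', e2 _ (hmem z), e4 _ (hmem z), Div.smul_zero',
          add_zero] at h3
        have h4 := congrArg (fun w : Pt W => σ₁⁻¹ • w) h3
        simp only [inv_smul_smul] at h4
        rw [h4]
        exact Div.smul_zero' _
      rw [h2, Div.smul_zero', zero_add] at h1
      have h3 : k₂ • z.1 = 0 := by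
        have h4 := congrArg (fun w : Pt W => σ₂⁻¹ • w) h1
        simp only [inv_smul_smul] at h4
        rw [h4]
        exact Div.smul_zero' _
      apply Subtype.ext
      rw [← e1 _ (hmem z), h2, h3, add_zero]
      rfl
    have hfin : Finite (Submodule.torsionBy ℤ (Pt W) ((a * b : ℕ) : ℤ)) :=
      Torsion.finite_torsionBy_rat (Div.map_Δ_ne hΔ) h0
    let F : Submodule.torsionBy ℤ (Pt W) ((a * b : ℕ) : ℤ) ≃ₗ[ZMod (a * b)]
        Submodule.torsionBy ℤ (Pt W) ((a * b : ℕ) : ℤ) :=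
      LinearEquiv.ofBijective (AddMonoidHom.toZModLinearMap (a * b) f)
        (Finite.injective_iff_bijective.mp hinj)
    obtain ⟨σ, hσ⟩ := h (a * b) dvd_rfl F
    refine ⟨σ, ?_⟩
    have h1 := congrArg Subtype.val (hσ ⟨x, (Torsion.mem_torsionBy_nat_iff _ _).mpr hx⟩)
    have h2 : σ • x = σ₁ • k₁ • x + σ₂ • k₂ • x := h1
    rw [h2, hσ₁, hσ₂, e1 y hy]

/-! ### The number of orbits -/

/-- There are points of every order. -/
theorem exists_addOrderOf (hΔ : W.Δ ≠ 0) (d : ℕ) : d ≠ 0 → ∃ x : Pt W, addOrderOf x = d := by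
  induction d using Nat.recOnPosPrimePosCoprime with
  | prime_pow p n hp hn =>
    intro _
    have hF : Fact p.Prime := ⟨hp⟩
    obtain ⟨n, rfl⟩ : ∃ k, n = k + 1 := ⟨n - 1, by omega⟩
    by_contra hcon
    push Not at hcon
    have h1 : ∀ x : Pt W, p ^ (n + 1) • x = 0 → p ^ n • x = 0 := by
      intro x hx
      by_contra h2
      exact hcon x (addOrderOf_eq_prime_pow h2 hx)
    have hfin := finite_torsPt (N := p ^ n) hΔ (pow_ne_zero n hp.ne_zero)
    have h2 : Nat.card (TorsPt W (p ^ (n + 1))) ≤ Nat.card (TorsPt W (p ^ n)) :=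
      Nat.card_le_card_of_injective (fun x => (⟨x.1, h1 x.1 x.2⟩ : TorsPt W (p ^ n)))
        fun x y hxy => Subtype.ext (congrArg (fun z : TorsPt W (p ^ n) => z.1) hxy)
    rw [card_torsPt hΔ (pow_ne_zero _ hp.ne_zero), card_torsPt hΔ (pow_ne_zero _ hp.ne_zero)] at h2
    exact absurd h2 (not_le.mpr (Nat.pow_lt_pow_left
      (Nat.pow_lt_pow_right hp.one_lt (Nat.lt_succ_self n)) two_ne_zero))
  | zero => exact fun h => absurd rfl h
  | one => exact fun _ => ⟨0, addOrderOf_zero⟩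
  | coprime a b ha hb hab iha ihb =>
    intro _
    obtain ⟨x, hx⟩ := iha (by omega)
    obtain ⟨y, hy⟩ := ihb (by omega)
    refine ⟨x + y, ?_⟩
    rw [(AddCommute.all x y).addOrderOf_add_eq_mul_addOrderOf_of_coprime (by rwa [hx, hy]), hx, hy]

/-- **The number of Galois orbits in `W[N]` is the number of divisors of `N`.** -/
theorem orbits_eq (hΔ : W.Δ ≠ 0) {N : ℕ} (hN : N ≠ 0) (h : ∀ M : ℕ, M ∣ N → SurjMod W M) :
    orbits W N = N.divisors.card := by
  classical
  let f : MulAction.orbitRel.Quotient (act W N).range (TorsPt W N) → {d // d ∈ N.divisors} :=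
    Quotient.lift (fun P : TorsPt W N => (⟨addOrderOf P.1, Nat.mem_divisors.mpr
      ⟨addOrderOf_dvd_of_nsmul_eq_zero P.2, hN⟩⟩ : {d // d ∈ N.divisors})) (by
      rintro P Q ⟨⟨_, σ, rfl⟩, h1⟩
      have h2 : σ • Q.1 = P.1 := congrArg Subtype.val h1
      refine Subtype.ext ?_
      change addOrderOf P.1 = addOrderOf Q.1
      rw [← h2, addOrderOf_smul_eq])
  have hf : Function.Bijective f := by
    constructor
    · intro a b
      refine Quotient.inductionOn₂ a b fun P Q h1 => ?_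
      have h2 : addOrderOf P.1 = addOrderOf Q.1 := congrArg Subtype.val h1
      apply Quotient.sound
      obtain ⟨σ, hσ⟩ := exists_smul_eq hΔ N hN h Q.1 P.1 Q.2 P.2 h2.symm
      exact ⟨⟨act W N σ, σ, rfl⟩, Subtype.ext hσ⟩
    · rintro ⟨d, hd⟩
      obtain ⟨h1, -⟩ := Nat.mem_divisors.mp hd
      obtain ⟨x, hx⟩ := exists_addOrderOf hΔ d (fun h0 => hN (by
        rw [h0] at h1
        exact zero_dvd_iff.mp h1))
      have hNx : N • x = 0 := addOrderOf_dvd_iff_nsmul_eq_zero.mp (by rw [hx]; exact h1)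
      exact ⟨⟦⟨x, hNx⟩⟧, Subtype.ext hx⟩
  rw [orbits, Nat.card_congr (Equiv.ofBijective f hf), Nat.card_eq_fintype_card, Fintype.card_coe]

/-- **The mean of `#W(𝔽_ℓ)[N]` over the primes `ℓ` is the number of divisors of `N`.** -/
theorem mean_eq_card_divisors (hΔ : W.Δ ≠ 0) {N : ℕ} (hN : N ≠ 0)
    (h : ∀ M : ℕ, M ∣ N → SurjMod W M) :
    Tendsto (fun x : ℕ => (∑ ℓ ∈ (Finset.range (x + 1)).filter Nat.Prime,
      (redTors W N ℓ : ℝ)) / Nat.primeCounting x) atTop (𝓝 N.divisors.card) := by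
  have h1 := mean_redTors hΔ hN
  rw [orbits_eq hΔ hN h] at h1
  exact h1

/-- **Semistable curves**: if every prime dividing `N` is `11` or `≥ 17`, then the mean of
`#W(𝔽_ℓ)[N]` over the primes `ℓ` is the number of divisors of `N`. -/
theorem mean_eq_card_divisors_of_ge (hΔ : W.Δ ≠ 0) (hW : W.IsSemistableModel) {N : ℕ}
    (hN : N ≠ 0) (h : ∀ p, p.Prime → p ∣ N → p = 11 ∨ 17 ≤ p) :
    Tendsto (fun x : ℕ => (∑ ℓ ∈ (Finset.range (x + 1)).filter Nat.Prime,
      (redTors W N ℓ : ℝ)) / Nat.primeCounting x) atTop (𝓝 N.divisors.card) :=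
  mean_eq_card_divisors hΔ hN fun _ hM => surjMod_of_ge hΔ hW
    (fun h0 => hN (by rw [h0] at hM; exact zero_dvd_iff.mp hM))
    fun p hp hpM => h p hp (hpM.trans hM)

/-- **The curve `E : y² + y = x³ - x`**: for every odd `N` the mean of `#E(𝔽_ℓ)[N]` over the primes
`ℓ` is the number of divisors of `N`. -/
theorem mean_eq_card_divisors37 {N : ℕ} (hN : Odd N) :
    Tendsto (fun x : ℕ => (∑ ℓ ∈ (Finset.range (x + 1)).filter Nat.Prime,
      (redTors InvGal.W37 N ℓ : ℝ)) / Nat.primeCounting x) atTop (𝓝 N.divisors.card) :=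
  mean_eq_card_divisors InvGal.W37_Δ_ne (fun h0 => by
    rw [h0] at hN
    exact absurd hN (by decide)) fun _ hM => InvGal.surjMod37_of_odd (hN.of_dvd_nat hM)

end Fermat.Agent.Cor.Katz
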