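import Fermat.Agent.Corollaries.Div.Curve
import Fermat.Agent.Corollaries.Surj.NatDens
import Fermat.Agent.Corollaries.Surj.Dens
import Fermat.Agent.Corollaries.Mazur.FixFin
import Fermat.Agent.Corollaries.K1.Glue
import Fermat.Agent.Corollaries.Mazur.Main
import Fermat.Agent.LT.Period.Cheb

/-!
# The distribution of the torsion of the reductions

`W` is any elliptic curve over `ℚ` and `N ≥ 1`. Let `G` be the image of `Gal(ℚ̄/ℚ)` in the
permutations of `W[N]`, the Galois group of `ℚ(W[N])`.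

* `dens_redTors`, `nat_dens_redTors` : for every condition `Q` on an integer the density of the
  primes `ℓ` for which the number of elements of `W(𝔽_ℓ)[N]` satisfies `Q` is the proportion of the
  `g ∈ G` whose number of fixed points in `W[N]` satisfies `Q`;
* `nat_dens_full` : `W(𝔽_ℓ)[N]` has `N²` elements for a set of `ℓ` of density `1 / #G`.
-/

set_option autoImplicit false

noncomputable section

open WeierstrassCurve WeierstrassCurve.Affine

namespace Fermat.Agent.Cor.Katz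

open Fermat.Agent.ECRed Fermat.Agent.Frob Fermat.Agent.FrobDensity
open Fermat.Agent.Cor.K1 (Gam Pts)
open Fermat.Agent.Cor.Mazur (Pt)

/-- The points of `W(ℚ̄)` killed by `N`. -/
abbrev TorsPt (W : WeierstrassCurve ℤ) (N : ℕ) : Type := {P : Pt W // N • P = 0}

open Classical in
/-- The number of points of `W(𝔽_ℓ)` killed by `N` (`0` if `ℓ` is not a prime). -/
def redTors (W : WeierstrassCurve ℤ) (N ℓ : ℕ) : ℕ :=
  if h : ℓ.Prime then
    have : Fact ℓ.Prime := ⟨h⟩
    Nat.card {P : (W.reductionMod ℓ).toAffine.Point // N • P = 0}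
  else 0

variable {W : WeierstrassCurve ℤ} {N : ℕ}

lemma redTors_eq {ℓ : ℕ} [hℓ : Fact ℓ.Prime] :
    redTors W N ℓ = Nat.card {P : (W.reductionMod ℓ).toAffine.Point // N • P = 0} :=
  dif_pos hℓ.out

/-- The action of Galois on `W[N]`. -/
def act (W : WeierstrassCurve ℤ) (N : ℕ) : Gam →* Equiv.Perm (TorsPt W N) where
  toFun σ :=
    { toFun := fun P => ⟨σ • P.1, Div.nsmul_smul_eq_zero P.2 σ⟩
      invFun := fun P => ⟨σ⁻¹ • P.1, Div.nsmul_smul_eq_zero P.2 σ⁻¹⟩
      left_inv := fun P => Subtype.ext (inv_smul_smul σ P.1)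
      right_inv := fun P => Subtype.ext (smul_inv_smul σ P.1) }
  map_one' := Equiv.ext fun P => Subtype.ext (one_smul Gam P.1)
  map_mul' σ τ := Equiv.ext fun P => Subtype.ext (mul_smul σ τ P.1)

lemma act_apply (σ : Gam) (P : TorsPt W N) : (act W N σ P : Pt W) = σ • P.1 := rfl

lemma card_torsPt (hΔ : W.Δ ≠ 0) (hN : N ≠ 0) : Nat.card (TorsPt W N) = N ^ 2 := by
  have hΔ' : ((W.map (Int.castRingHom ℚ))⁄(AlgebraicClosure ℚ) :
      WeierstrassCurve (AlgebraicClosure ℚ)).Δ ≠ 0 := by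
    rw [show ((W.map (Int.castRingHom ℚ))⁄(AlgebraicClosure ℚ) :
      WeierstrassCurve (AlgebraicClosure ℚ)) =
      (W.map (Int.castRingHom ℚ)).map (algebraMap ℚ (AlgebraicClosure ℚ)) from rfl,
      WeierstrassCurve.map_Δ]
    simpa using Div.map_Δ_ne hΔ
  exact Torsion.card_torsion hΔ' (by exact_mod_cast hN)

lemma finite_torsPt (hΔ : W.Δ ≠ 0) (hN : N ≠ 0) : Finite (TorsPt W N) :=
  Nat.finite_of_card_ne_zero (by rw [card_torsPt hΔ hN]; exact pow_ne_zero 2 hN)

/-- Finite level. -/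
lemma act_level (hΔ : W.Δ ≠ 0) (hN : N ≠ 0) : ∃ L : IntermediateField ℚ (AlgebraicClosure ℚ),
    FiniteDimensional ℚ L ∧
      ∀ σ : Gam, (∀ x ∈ L, σ x = x) → (act W N).rangeRestrict σ = 1 := by
  obtain ⟨L, hL, h⟩ := Div.exists_level hΔ hN
  exact ⟨L, hL, fun σ hσ => Subtype.ext (Equiv.ext fun P => Subtype.ext ((h σ hσ).1 P.1 P.2))⟩

/-- The number of fixed points. -/
def fx (g : Equiv.Perm (TorsPt W N)) : ℕ := Nat.card {P : TorsPt W N // g P = P}

lemma fx_conj (g c : Equiv.Perm (TorsPt W N)) : fx (g * c * g⁻¹) = fx c := by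
  refine Nat.card_congr
    { toFun := fun P => ⟨g⁻¹ P.1, ?_⟩
      invFun := fun P => ⟨g P.1, ?_⟩
      left_inv := fun P => Subtype.ext ?_
      right_inv := fun P => Subtype.ext ?_ }
  · have h : g (c (g⁻¹ P.1)) = P.1 := P.2
    exact (Equiv.Perm.eq_inv_iff_eq).mpr h
  · change g (c (g⁻¹ (g P.1))) = g P.1
    rw [show g⁻¹ (g P.1) = P.1 from g.symm_apply_apply P.1, P.2]
  · exact g.apply_symm_apply P.1
  · exact g.symm_apply_apply P.1

section Finite

variable {k : Type*} [Field k] [Fintype k] [DecidableEq k] (V : Affine k) (K : Type*) [Field K]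
  [DecidableEq K] [Algebra k K]

/-- The rational points killed by `N` are the points killed by `N` which Frobenius fixes. -/
theorem card_frob_fixed_torsion (N : ℕ) :
    Nat.card {P : (V⁄K).Point // Fermat.Agent.ECFrob.frob V K P = P ∧ N • P = 0} =
      Nat.card {P : V.Point // N • P = 0} := by
  have h0 : ∀ C : Affine k, C = (V⁄k) →
      Nat.card {P : C.Point // N • P = 0} = Nat.card {P : (V⁄k).Point // N • P = 0} := by
    rintro C rfl
    rfl
  have hfix : ∀ P : (V⁄k).Point, Fermat.Agent.ECFrob.frob V K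
      (Point.map (W' := V) (S := k) (Algebra.ofId k K) P) =
        Point.map (W' := V) (S := k) (Algebra.ofId k K) P := by
    rintro (_ | ⟨x, y, h⟩)
    · rw [← Point.zero_def, _root_.map_zero, _root_.map_zero]
    · rw [Point.map_some, Fermat.Agent.ECFrob.frob_some]
      simp only [Fermat.Agent.ECFrob.frobeniusAlgHom_apply, ← map_pow, FiniteField.pow_card]
  rw [h0 V V.map_id.symm]
  symm
  refine Nat.card_congr (Equiv.ofBijective (fun P : {P : (V⁄k).Point // N • P = 0} =>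
    ⟨Point.map (W' := V) (S := k) (Algebra.ofId k K) P.1, ?_, ?_⟩) ⟨?_, ?_⟩)
  · exact hfix P.1
  · rw [← map_nsmul, P.2, _root_.map_zero]
  · intro P Q h
    exact Subtype.ext (Point.map_injective _ (congrArg Subtype.val h))
  · rintro ⟨P, hP, hPN⟩
    obtain ⟨Q, hQ⟩ : ∃ Q : (V⁄k).Point,
        Point.map (W' := V) (S := k) (Algebra.ofId k K) Q = P := by
      rcases P with _ | ⟨x, y, h⟩
      · exact ⟨0, _root_.map_zero _⟩
      · rw [Fermat.Agent.ECFrob.frob_some] at hP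
        simp only [Point.some.injEq, Fermat.Agent.ECFrob.frobeniusAlgHom_apply] at hP
        obtain ⟨a, rfl⟩ := Fermat.Agent.ECFrob.exists_of_pow_card_eq hP.1
        obtain ⟨b, rfl⟩ := Fermat.Agent.ECFrob.exists_of_pow_card_eq hP.2
        have hab : (V⁄k).Nonsingular a b :=
          (V.baseChange_nonsingular (f := Algebra.ofId k K)
            (Algebra.ofId k K).injective a b).mp h
        exact ⟨.some a b hab, rfl⟩
    subst hQ
    refine ⟨⟨Q, ?_⟩, rfl⟩
    apply Point.map_injective (W' := V) (S := k) (Algebra.ofId k K)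
    rw [map_nsmul, hPN, _root_.map_zero]

end Finite

/-- **The fixed points of a Frobenius in `W[N]`**, at a good prime `ℓ ∤ N`. -/
theorem fx_frobenius {ℓ : ℕ} (hℓ : ℓ.Prime) (hgood : W.IsGoodPrimeFor ℓ) (hne : ¬ ℓ ∣ N)
    {A : ValuationSubring (AlgebraicClosure ℚ)} (hA : A.LiesOverPrime ℓ) {σ : Gam}
    (hσ : A.IsFrobeniusAt σ ℓ) : fx (act W N σ) = redTors W N ℓ := by
  classical
  have hF : Fact ℓ.Prime := ⟨hℓ⟩
  have hchar := charP_residueField_of_liesOver hℓ hA
  let _ : Algebra (ZMod ℓ) (IsLocalRing.ResidueField A) := ZMod.algebra _ ℓ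
  obtain ⟨e, he, -⟩ := exists_redTorsionMod hgood hA hne
  have h1 : redTors W N ℓ = _ := redTors_eq.trans
    (card_frob_fixed_torsion (W.reductionMod ℓ) (IsLocalRing.ResidueField A) N).symm
  rw [h1]
  have hmem : ∀ P : TorsPt W N, P.1 ∈ Submodule.torsionBy ℤ (Pt W) N := fun P =>
    (Torsion.mem_torsionBy_nat_iff N _).mpr P.2
  refine Nat.card_congr
    { toFun := fun P => ⟨(e ⟨P.1.1, hmem P.1⟩ :
        ((W.reductionMod ℓ)⁄(IsLocalRing.ResidueField A)).Point), ?_, ?_⟩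
      invFun := fun Q => ⟨⟨(e.symm ⟨Q.1, (Torsion.mem_torsionBy_nat_iff N _).mpr Q.2.2⟩ : Pt W),
        ?_⟩, ?_⟩
      left_inv := ?_
      right_inv := ?_ }
  · have h2 := he σ hσ ⟨P.1.1, hmem P.1⟩
    have h3 : σ • (⟨P.1.1, hmem P.1⟩ : Submodule.torsionBy ℤ (Pt W) N) = ⟨P.1.1, hmem P.1⟩ :=
      Subtype.ext (congrArg Subtype.val P.2)
    rw [h3] at h2
    exact (congrArg Subtype.val h2).symm
  · exact (Torsion.mem_torsionBy_nat_iff N _).mp (e ⟨P.1.1, hmem P.1⟩).2
  · exact (Torsion.mem_torsionBy_nat_iff N _).mp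
      (e.symm ⟨Q.1, (Torsion.mem_torsionBy_nat_iff N _).mpr Q.2.2⟩).2
  · apply Subtype.ext
    change σ • ((e.symm ⟨Q.1, (Torsion.mem_torsionBy_nat_iff N _).mpr Q.2.2⟩ :
      Submodule.torsionBy ℤ (Pt W) N) : Pt W) = _
    have h2 := he σ hσ (e.symm ⟨Q.1, (Torsion.mem_torsionBy_nat_iff N _).mpr Q.2.2⟩)
    rw [e.apply_symm_apply] at h2
    have h3 : frobTorsion (W.reductionMod ℓ) (IsLocalRing.ResidueField A) N
        ⟨Q.1, (Torsion.mem_torsionBy_nat_iff N _).mpr Q.2.2⟩ =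
        ⟨Q.1, (Torsion.mem_torsionBy_nat_iff N _).mpr Q.2.2⟩ := Subtype.ext Q.2.1
    rw [h3] at h2
    have h4 := congrArg e.symm h2
    rw [e.symm_apply_apply] at h4
    exact congrArg Subtype.val h4
  · intro P
    apply Subtype.ext
    apply Subtype.ext
    exact congrArg Subtype.val (e.symm_apply_apply ⟨P.1.1, hmem P.1⟩)
  · intro Q
    have h2 := e.apply_symm_apply ⟨Q.1, (Torsion.mem_torsionBy_nat_iff N _).mpr Q.2.2⟩
    exact Subtype.ext (congrArg (fun z : Submodule.torsionBy ℤ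
      ((W.reductionMod ℓ)⁄(IsLocalRing.ResidueField A)).Point N => z.1) h2)

/-- Inertia acts trivially. -/
theorem act_inertia {ℓ : ℕ} (hℓ : ℓ.Prime) (hgood : W.IsGoodPrimeFor ℓ) (hne : ¬ ℓ ∣ N)
    {A : ValuationSubring (AlgebraicClosure ℚ)} (hA : A.LiesOverPrime ℓ) {τ : Gam}
    (hτ : τ ∈ A.inertiaSubgroupIn ℚ) : act W N τ = 1 := by
  classical
  have hF : Fact ℓ.Prime := ⟨hℓ⟩
  have hchar := charP_residueField_of_liesOver hℓ hA
  let _ : Algebra (ZMod ℓ) (IsLocalRing.ResidueField A) := ZMod.algebra _ ℓ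
  obtain ⟨e, -, he⟩ := exists_redTorsionMod hgood hA hne
  refine Equiv.ext fun P => Subtype.ext ?_
  have hmem : P.1 ∈ Submodule.torsionBy ℤ (Pt W) N :=
    (Torsion.mem_torsionBy_nat_iff N _).mpr P.2
  exact congrArg Subtype.val (e.injective (he τ hτ ⟨P.1, hmem⟩))

/-- The elements of the image of Galois whose number of fixed points satisfies `Q`. -/
def fxSet (W : WeierstrassCurve ℤ) (N : ℕ) (Q : ℕ → Prop) : Set (act W N).range :=
  {g | Q (fx (g : Equiv.Perm (TorsPt W N)))}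

lemma fxSet_conj (Q : ℕ → Prop) (g c : (act W N).range) (hc : c ∈ fxSet W N Q) :
    g * c * g⁻¹ ∈ fxSet W N Q := by
  change Q (fx ((g : Equiv.Perm (TorsPt W N)) * (c : Equiv.Perm (TorsPt W N)) *
    (g : Equiv.Perm (TorsPt W N))⁻¹))
  rw [fx_conj]
  exact hc

lemma mem_FrobIn_act (Q : ℕ → Prop) {ℓ : ℕ} (hℓ : ℓ.Prime) (hgood : W.IsGoodPrimeFor ℓ)
    (hne : ¬ ℓ ∣ N) : ℓ ∈ FrobIn (act W N).rangeRestrict (fxSet W N Q) ↔ Q (redTors W N ℓ) := by
  obtain ⟨A, hA, σ, hσ⟩ := exists_frobenius ℓ hℓ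
  rw [LT.Period.mem_FrobIn_iff (act W N).rangeRestrict (fxSet_conj Q) hℓ hA
    (fun τ hτ => Subtype.ext (act_inertia hℓ hgood hne hA hτ)) hσ]
  change Q (fx (act W N σ)) ↔ _
  rw [fx_frobenius hℓ hgood hne hA hσ]

/-- Almost all primes. -/
lemma good_of_notMem_union (hΔ : W.Δ ≠ 0) (hN : N ≠ 0) {ℓ : ℕ} (hℓ : ℓ.Prime)
    (h : ℓ ∉ W.Δ.natAbs.primeFactors ∪ N.primeFactors) : W.IsGoodPrimeFor ℓ ∧ ¬ ℓ ∣ N := by
  rw [Finset.mem_union, not_or] at h
  exact ⟨fun h' => h.1 (Nat.mem_primeFactors.mpr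
    ⟨hℓ, Int.natCast_dvd.mp h', Int.natAbs_ne_zero.mpr hΔ⟩),
    fun h' => h.2 (Nat.mem_primeFactors.mpr ⟨hℓ, h', hN⟩)⟩

/-- **The distribution of the number of elements of `W(𝔽_ℓ)[N]`**, natural density. -/
theorem nat_dens_redTors (hΔ : W.Δ ≠ 0) (hN : N ≠ 0) (Q : ℕ → Prop) :
    HasNaturalDensity {ℓ | Q (redTors W N ℓ)}
      ((Nat.card (fxSet W N Q) : ℝ) / Nat.card (act W N).range) := by
  have hfin := finite_torsPt hΔ hN
  refine (chebotarev_nat (act W N).rangeRestrict (act W N).rangeRestrict_surjective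
    (act_level hΔ hN) (fxSet W N Q) (fxSet_conj Q)).congr_of_finset
      (W.Δ.natAbs.primeFactors ∪ N.primeFactors) fun ℓ hℓ hℓT => ?_
  obtain ⟨h1, h2⟩ := good_of_notMem_union hΔ hN hℓ hℓT
  exact mem_FrobIn_act Q hℓ h1 h2

/-- **The distribution of the number of elements of `W(𝔽_ℓ)[N]`**, Dirichlet density. -/
theorem dens_redTors (hΔ : W.Δ ≠ 0) (hN : N ≠ 0) (Q : ℕ → Prop) :
    HasDirichletDensity {ℓ | Q (redTors W N ℓ)}
      ((Nat.card (fxSet W N Q) : ℝ) / Nat.card (act W N).range) := by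
  have hfin := finite_torsPt hΔ hN
  refine (chebotarev_dirichlet (act W N).rangeRestrict (act W N).rangeRestrict_surjective
    (act_level hΔ hN) (fxSet W N Q) (fxSet_conj Q)).congr_of_finset
      (W.Δ.natAbs.primeFactors ∪ N.primeFactors) fun ℓ hℓ hℓT => ?_
  obtain ⟨h1, h2⟩ := good_of_notMem_union hΔ hN hℓ hℓT
  exact mem_FrobIn_act Q hℓ h1 h2

/-- **Full torsion**: `W(𝔽_ℓ)[N]` has `N²` elements for a set of primes `ℓ` of density
`1 / [ℚ(W[N]) : ℚ]`. -/
theorem nat_dens_full (hΔ : W.Δ ≠ 0) (hN : N ≠ 0) :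
    HasNaturalDensity {ℓ | redTors W N ℓ = N ^ 2} (1 / Nat.card (act W N).range) := by
  have hfin := finite_torsPt hΔ hN
  have h1 := nat_dens_redTors hΔ hN fun x => x = N ^ 2
  have h2 : fxSet W N (fun x => x = N ^ 2) = {1} := by
    ext g
    rw [Set.mem_singleton_iff]
    constructor
    · intro hg
      have h3 : Nat.card {P : TorsPt W N // (g : Equiv.Perm (TorsPt W N)) P = P} =
          Nat.card (TorsPt W N) := (show _ = N ^ 2 from hg).trans (card_torsPt hΔ hN).symm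
      refine Subtype.ext (Equiv.ext fun P => ?_)
      have h4 : Set.ncard {P : TorsPt W N | (g : Equiv.Perm (TorsPt W N)) P = P} =
          Nat.card (TorsPt W N) := (Nat.card_coe_set_eq _).symm.trans h3
      have h5 := (Set.eq_univ_iff_ncard _).mpr h4
      have h6 : P ∈ {P : TorsPt W N | (g : Equiv.Perm (TorsPt W N)) P = P} := by
        rw [h5]
        exact Set.mem_univ _
      exact h6
    · rintro rfl
      change fx (1 : Equiv.Perm (TorsPt W N)) = N ^ 2
      rw [← card_torsPt hΔ hN]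
      exact Nat.card_congr (Equiv.subtypeUnivEquiv fun P => rfl)
  rw [h2] at h1
  simpa using h1

end Fermat.Agent.Cor.Katz
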